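import Mathlib

set_option autoImplicit false

/-!
# S24, ALG-G (valuation side): the decomposition group of the centre of a valuation

`B` a Dedekind domain, finite and flat over the domain `A`, `G` a finite group with
`IsGaloisGroup G A B`, `p = (t)` a maximal ideal of `A` with residue field the algebraically
closed field `K`.  Let `w` be a `ℤᵐ⁰`-valued valuation of `B` with `w ≤ 1` and
`w t = exp (-s)`, `s > 0`, and `Q = {b | w b < 1}` its centre.  Then

* `card_stabilizer_centre_le` : the decomposition group of `Q` has at most `s` elements;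
* `stabilizer_centre_eq_zpowers` : if `g : G` preserves `w` and has order at least `s` then the
  decomposition group of `Q` is the cyclic group generated by `g`.
-/

noncomputable section

open Ideal WithZero

namespace Fermat.Agent.S24Dec

section Centre

variable {B : Type*} [CommRing B]

/-- the ideal `{b | w b ≤ exp (-n)}` of a ring on which `w ≤ 1`. -/
def levelIdeal (w : Valuation B ℤᵐ⁰) (hw : ∀ b, w b ≤ 1) (n : ℕ) : Ideal B where
  carrier := {b | w b ≤ exp (-(n : ℤ))}
  zero_mem' := by simp
  add_mem' := fun {a b} ha hb => le_trans (w.map_add a b) (max_le ha hb)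
  smul_mem' := fun c b hb => by
    show w (c * b) ≤ _
    rw [map_mul]
    exact le_trans (mul_le_of_le_one_left' (hw c)) hb

theorem mem_levelIdeal {w : Valuation B ℤᵐ⁰} {hw : ∀ b, w b ≤ 1} {n : ℕ} {b : B} :
    b ∈ levelIdeal w hw n ↔ w b ≤ exp (-(n : ℤ)) := Iff.rfl

/-- the centre `{b | w b < 1}` of a valuation with `w ≤ 1`. -/
def centre (w : Valuation B ℤᵐ⁰) (hw : ∀ b, w b ≤ 1) : Ideal B where
  carrier := {b | w b < 1}
  zero_mem' := by simp
  add_mem' := fun {a b} ha hb => lt_of_le_of_lt (w.map_add a b) (max_lt ha hb)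
  smul_mem' := fun c b hb => by
    show w (c * b) < 1
    rw [map_mul]
    exact lt_of_le_of_lt (mul_le_of_le_one_left' (hw c)) hb

theorem mem_centre {w : Valuation B ℤᵐ⁰} {hw : ∀ b, w b ≤ 1} {b : B} :
    b ∈ centre w hw ↔ w b < 1 := Iff.rfl

instance centre_isPrime (w : Valuation B ℤᵐ⁰) (hw : ∀ b, w b ≤ 1) : (centre w hw).IsPrime where
  ne_top' := by
    intro h
    have : (1 : B) ∈ centre w hw := h ▸ Submodule.mem_top
    rw [mem_centre, map_one] at this
    exact lt_irrefl _ this
  mem_or_mem' := by
    intro a b hab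
    rw [mem_centre, map_mul] at hab
    by_contra hcon
    rw [not_or, mem_centre, mem_centre, not_lt, not_lt] at hcon
    have ha : w a = 1 := le_antisymm (hw a) hcon.1
    have hb : w b = 1 := le_antisymm (hw b) hcon.2
    rw [ha, hb, one_mul] at hab
    exact lt_irrefl _ hab

theorem lt_one_iff_le_exp_neg_one (x : ℤᵐ⁰) : x < 1 ↔ x ≤ exp (-1 : ℤ) := by
  rcases eq_or_ne x 0 with rfl | hx
  · simp
  obtain ⟨m, rfl⟩ : ∃ m : ℤ, x = exp m := ⟨WithZero.log x, (WithZero.exp_log hx).symm⟩
  rw [← WithZero.exp_zero, WithZero.exp_lt_exp, WithZero.exp_le_exp]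
  omega

theorem centre_le_levelIdeal_one (w : Valuation B ℤᵐ⁰) (hw : ∀ b, w b ≤ 1) :
    centre w hw ≤ levelIdeal w hw 1 := by
  intro b hb
  rw [mem_levelIdeal]
  rw [mem_centre, lt_one_iff_le_exp_neg_one] at hb
  simpa using hb

theorem levelIdeal_mul_le (w : Valuation B ℤᵐ⁰) (hw : ∀ b, w b ≤ 1) (m n : ℕ) :
    levelIdeal w hw m * levelIdeal w hw n ≤ levelIdeal w hw (m + n) := by
  rw [Ideal.mul_le]
  intro a ha b hb
  rw [mem_levelIdeal] at ha hb ⊢
  rw [map_mul]
  calc w a * w b ≤ exp (-(m : ℤ)) * exp (-(n : ℤ)) := mul_le_mul' ha hb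
    _ = exp (-((m + n : ℕ) : ℤ)) := by
        rw [← WithZero.exp_add]; congr 1; push_cast; ring

theorem centre_pow_le_levelIdeal (w : Valuation B ℤᵐ⁰) (hw : ∀ b, w b ≤ 1) (n : ℕ) :
    centre w hw ^ n ≤ levelIdeal w hw n := by
  induction n with
  | zero =>
    intro b _
    rw [mem_levelIdeal]
    simpa using hw b
  | succ n ih =>
    rw [pow_succ]
    exact le_trans (Ideal.mul_mono ih (centre_le_levelIdeal_one w hw))
      (levelIdeal_mul_le w hw n 1)

/-- an element of the `n`-th power of the centre has valuation at most `exp (-n)`. -/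
theorem le_exp_neg_of_mem_centre_pow (w : Valuation B ℤᵐ⁰) (hw : ∀ b, w b ≤ 1) {n : ℕ} {b : B}
    (hb : b ∈ centre w hw ^ n) : w b ≤ exp (-(n : ℤ)) :=
  centre_pow_le_levelIdeal w hw n hb

open scoped Pointwise in
/-- a ring automorphism preserving `w` fixes the centre. -/
theorem smul_centre_eq {G : Type*} [Group G] [MulSemiringAction G B]
    (w : Valuation B ℤᵐ⁰) (hw : ∀ b, w b ≤ 1) (g : G) (hg : ∀ b, w (g • b) = w b) :
    g • centre w hw = centre w hw := by
  ext b
  rw [Ideal.mem_pointwise_smul_iff_inv_smul_mem, mem_centre, mem_centre]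
  have : w (g⁻¹ • b) = w b := by
    have := hg (g⁻¹ • b)
    rw [smul_inv_smul] at this
    exact this.symm
  rw [this]

end Centre

section Main

/-- the centre lies over `(t)`. -/
theorem centre_liesOver {A B : Type*} [CommRing A] [CommRing B] [Algebra A B]
    (w : Valuation B ℤᵐ⁰) (hw : ∀ b, w b ≤ 1) (t : A)
    (hmax : (Ideal.span {t}).IsMaximal) (hwt : w (algebraMap A B t) < 1) :
    (centre w hw).LiesOver (Ideal.span {t}) := by
  constructor
  have hle : Ideal.span {t} ≤ (centre w hw).under A := by
    rw [Ideal.span_le, Set.singleton_subset_iff]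
    exact hwt
  have hne : (centre w hw).under A ≠ ⊤ := by
    intro h
    have : (1 : A) ∈ (centre w hw).under A := h ▸ Submodule.mem_top
    rw [Ideal.mem_comap, map_one, mem_centre, map_one] at this
    exact lt_irrefl _ this
  exact hmax.eq_of_le hne hle

theorem isAlgClosed_of_ringEquiv' {k k' : Type*} [Field k] [Field k'] (e : k ≃+* k')
    [IsAlgClosed k] : IsAlgClosed k' := by
  apply IsAlgClosed.of_exists_root
  intro q _ hq
  have hdeg : (q.map (e.symm : k' →+* k)).degree ≠ 0 := by
    rw [Polynomial.degree_map]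
    exact (Polynomial.degree_pos_of_irreducible hq).ne'
  obtain ⟨x, hx⟩ := IsAlgClosed.exists_root (q.map (e.symm : k' →+* k)) hdeg
  refine ⟨e x, ?_⟩
  rw [Polynomial.IsRoot.def, Polynomial.eval_map] at hx
  have h2 := congrArg (e : k →+* k') hx
  rw [Polynomial.hom_eval₂, map_zero] at h2
  have h3 : (e : k →+* k').comp (e.symm : k' →+* k) = RingHom.id k' := by
    ext y; simp
  rw [h3] at h2
  exact h2

variable {K A B : Type*} [Field K] [IsAlgClosed K]
  [CommRing A] [CommRing B] [Algebra K A] [Algebra A B]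

/-- the inertia degree is `1` if the residue field of `p` is algebraically closed. -/
theorem inertiaDeg_eq_one_of_isAlgClosed [Module.Finite A B] (p : Ideal A) [hp : p.IsMaximal]
    (hpK : Function.Surjective ((Ideal.Quotient.mk p).comp (algebraMap K A)))
    (Q : Ideal B) [Q.IsMaximal] [Q.LiesOver p] : Q.inertiaDeg A = 1 := by
  rw [Ideal.inertiaDeg_eq_of_isMaximal p Q]
  letI := Ideal.Quotient.field p
  letI := Ideal.Quotient.field Q
  let φ : K →+* A ⧸ p := (Ideal.Quotient.mk p).comp (algebraMap K A)
  let e : K ≃+* A ⧸ p := RingEquiv.ofBijective φ ⟨φ.injective, hpK⟩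
  have : IsAlgClosed (A ⧸ p) := isAlgClosed_of_ringEquiv' e
  have : Algebra.IsIntegral (A ⧸ p) (B ⧸ Q) := inferInstance
  have hbij : Function.Bijective (algebraMap (A ⧸ p) (B ⧸ Q)) :=
    IsAlgClosed.algebraMap_bijective_of_isIntegral
  have e' : (A ⧸ p) ≃ₗ[A ⧸ p] (B ⧸ Q) :=
    LinearEquiv.ofBijective (Algebra.linearMap (A ⧸ p) (B ⧸ Q)) hbij
  rw [← e'.finrank_eq, Module.finrank_self]

variable [CharZero K] [IsDomain A] [IsDedekindDomain B] [Module.Finite A B] [Module.Flat A B]
  {G : Type*} [Group G] [Finite G] [MulSemiringAction G B] [IsGaloisGroup G A B]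

open scoped Pointwise

/-- the decomposition group of the centre of `w` has at most `s` elements. -/
theorem card_stabilizer_centre_le (w : Valuation B ℤᵐ⁰) (hw : ∀ b, w b ≤ 1) (t : A)
    (hmax : (Ideal.span {t}).IsMaximal)
    (hpK : Function.Surjective ((Ideal.Quotient.mk (Ideal.span {t})).comp (algebraMap K A)))
    (s : ℕ) (hs : 0 < s) (hwt : w (algebraMap A B t) = exp (-(s : ℤ))) :
    Nat.card (MulAction.stabilizer G (centre w hw)) ≤ s := by
  classical
  set p : Ideal A := Ideal.span {t} with hp
  set Q : Ideal B := centre w hw with hQ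
  have hwt1 : w (algebraMap A B t) < 1 := by
    rw [hwt, ← WithZero.exp_zero, WithZero.exp_lt_exp]
    omega
  have : Q.LiesOver p := centre_liesOver w hw t hmax hwt1
  have : p.IsMaximal := hmax
  have htB : algebraMap A B t ≠ 0 := by
    intro h
    rw [h, map_zero] at hwt
    exact WithZero.coe_ne_zero hwt.symm
  have hmapne : Ideal.map (algebraMap A B) p ≠ ⊥ := by
    intro h
    apply htB
    have : algebraMap A B t ∈ Ideal.map (algebraMap A B) p :=
      Ideal.mem_map_of_mem _ (Ideal.subset_span rfl)
    rw [h] at this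
    exact this
  have hQne : Q ≠ ⊥ := by
    intro h
    have : algebraMap A B t ∈ Q := hwt1
    rw [h] at this
    exact htB this
  have : Q.IsMaximal := Ideal.IsPrime.isMaximal inferInstance hQne
  -- residue characteristic zero, so perfect
  have : CharZero p.ResidueField := by
    have : Function.Injective ((algebraMap A p.ResidueField).comp (algebraMap K A)) :=
      RingHom.injective _
    exact charZero_of_injective_ringHom this
  have h1 := Ideal.card_stabilizer_eq (G := G) p Q
  rw [Ideal.ramificationIdxIn_eq_ramificationIdx p Q G, Ideal.inertiaDegIn_eq_inertiaDeg p Q G,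
    inertiaDeg_eq_one_of_isAlgClosed (K := K) p hpK Q, mul_one] at h1
  rw [h1, ← Ideal.ramificationIdx'_eq_ramificationIdx' p Q hmapne]
  -- `t ∈ Q ^ e`
  have hmem : algebraMap A B t ∈ Q ^ p.ramificationIdx' Q :=
    Ideal.le_pow_ramificationIdx' (Ideal.mem_map_of_mem _ (Ideal.subset_span rfl))
  have hle := le_exp_neg_of_mem_centre_pow w hw hmem
  rw [hwt, WithZero.exp_le_exp] at hle
  omega

/-- if `g` preserves `w` and generates a group with at least `s` elements, then the
decomposition group of the centre of `w` is generated by `g`. -/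
theorem stabilizer_centre_eq_zpowers (w : Valuation B ℤᵐ⁰) (hw : ∀ b, w b ≤ 1) (t : A)
    (hmax : (Ideal.span {t}).IsMaximal)
    (hpK : Function.Surjective ((Ideal.Quotient.mk (Ideal.span {t})).comp (algebraMap K A)))
    (s : ℕ) (hs : 0 < s) (hwt : w (algebraMap A B t) = exp (-(s : ℤ)))
    (g : G) (hg : ∀ b, w (g • b) = w b) (hord : s ≤ Nat.card (Subgroup.zpowers g)) :
    MulAction.stabilizer G (centre w hw) = Subgroup.zpowers g := by
  have hle : Subgroup.zpowers g ≤ MulAction.stabilizer G (centre w hw) := by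
    rw [Subgroup.zpowers_le, MulAction.mem_stabilizer_iff]
    exact smul_centre_eq w hw g hg
  have hcard := card_stabilizer_centre_le (K := K) (G := G) w hw t hmax hpK s hs hwt
  symm
  exact Subgroup.eq_of_le_of_card_ge hle (le_trans hcard hord)

end Main
end Fermat.Agent.S24Dec
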