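import Mathlib
import Fermat.Prelude.Def_AlgebraicCurve_CanonicalDivisor
import Fermat.Agent.S24.FFDefs

set_option autoImplicit false

/-!
# S24, general theory, block D: residue fields of places

`K` algebraically closed, `F` a function field in one variable over `K`.
* `ord_algebraMap`: constants have order `0`.
* `transcendental_of_ord_ne_zero`: an element with a zero or a pole is transcendental.
* `algebraMap_residue_surjective`, `deg_eq_one`: the residue field of every place is `K`.
* `exists_ord_sub_pos_or_neg`: a non constant `y` has a value `a` or a pole at every place.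
-/

noncomputable section

open IntermediateField AlgebraicCurve Polynomial

namespace Fermat.Agent.S24Res

open Fermat.Agent.S24Diff

variable {K F : Type*} [Field K] [Field F] [Algebra K F]

/-! ### elementary facts on `ord` -/

theorem ord_nonneg_of_mem (v : Place K F) {f : F} (hf : f ∈ v.toValuationSubring) :
    0 ≤ v.ord f := by
  rcases eq_or_ne f 0 with rfl | hf0
  · simp
  obtain ⟨π, hπ⟩ := IsDiscreteValuationRing.exists_irreducible v.toValuationSubring
  obtain ⟨n, u, hu⟩ :=
    IsDiscreteValuationRing.eq_unit_mul_pow_irreducible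
      (x := (⟨f, hf⟩ : v.toValuationSubring)) (by simpa [Subtype.ext_iff] using hf0) hπ
  have hcoe : f = ((u : v.toValuationSubring) : F) * ((π : F) ^ (n : ℤ)) := by
    have h := congrArg (Subtype.val) hu
    push_cast at h
    rw [zpow_natCast]
    exact h
  rw [hcoe, v.ord_unit_smul_zpow u hπ (n : ℤ)]
  exact Int.natCast_nonneg n

theorem mem_of_ord_nonneg (v : Place K F) {f : F} (h : 0 ≤ v.ord f) :
    f ∈ v.toValuationSubring := by
  rcases eq_or_ne f 0 with rfl | hf
  · exact zero_mem _
  obtain ⟨π, hπ⟩ := IsDiscreteValuationRing.exists_irreducible v.toValuationSubring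
  obtain ⟨u, hu⟩ := v.exists_unit_mul_zpow hf hπ
  rw [hu, show v.ord f = (((v.ord f).toNat : ℕ) : ℤ) from (Int.toNat_of_nonneg h).symm,
    zpow_natCast]
  exact mul_mem (u : v.toValuationSubring).2 (pow_mem (π : v.toValuationSubring).2 _)

theorem mem_iff_ord_nonneg (v : Place K F) {f : F} :
    f ∈ v.toValuationSubring ↔ 0 ≤ v.ord f :=
  ⟨ord_nonneg_of_mem v, mem_of_ord_nonneg v⟩

theorem ord_neg_of_not_mem (v : Place K F) {f : F} (hf : f ∉ v.toValuationSubring) :
    v.ord f < 0 := by
  by_contra h
  exact hf (mem_of_ord_nonneg v (not_lt.mp h))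

/-- a unit of the valuation ring has order `0`. -/
theorem ord_eq_zero_of_isUnit (v : Place K F) {a : v.toValuationSubring} (ha : IsUnit a) :
    v.ord (a : F) = 0 := by
  obtain ⟨u, rfl⟩ := ha
  exact v.ord_coe_unit u

/-- an element of the valuation ring of order `0` is a unit. -/
theorem isUnit_of_ord_eq_zero (v : Place K F) {a : v.toValuationSubring} (ha0 : a ≠ 0)
    (ha : v.ord (a : F) = 0) : IsUnit a := by
  have haF : (a : F) ≠ 0 := fun h => ha0 (Subtype.ext h)
  have hinv : (a : F)⁻¹ ∈ v.toValuationSubring :=
    mem_of_ord_nonneg v (by rw [v.ord_inv, ha]; simp)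
  exact ⟨⟨a, ⟨(a : F)⁻¹, hinv⟩, Subtype.ext (mul_inv_cancel₀ haF),
    Subtype.ext (inv_mul_cancel₀ haF)⟩, rfl⟩

/-- for a nonzero element of the valuation ring: positive order iff in the maximal ideal. -/
theorem mem_maximalIdeal_iff_ord_pos (v : Place K F) {a : v.toValuationSubring} (ha0 : a ≠ 0) :
    a ∈ IsLocalRing.maximalIdeal v.toValuationSubring ↔ 0 < v.ord (a : F) := by
  rw [IsLocalRing.mem_maximalIdeal, mem_nonunits_iff]
  have h0 : 0 ≤ v.ord (a : F) := ord_nonneg_of_mem v a.2
  constructor
  · intro hnu
    rcases h0.lt_or_eq with h | h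
    · exact h
    · exact absurd (isUnit_of_ord_eq_zero v ha0 h.symm) hnu
  · intro hpos hu
    rw [ord_eq_zero_of_isUnit v hu] at hpos
    exact lt_irrefl _ hpos

/-- constants have order `0`. -/
theorem ord_algebraMap (v : Place K F) (a : K) : v.ord (algebraMap K F a) = 0 := by
  rcases eq_or_ne a 0 with rfl | ha
  · simp
  have hu : IsUnit (algebraMap K v.toValuationSubring a) :=
    (isUnit_iff_ne_zero.mpr ha).map _
  simpa using ord_eq_zero_of_isUnit v hu

/-- the ultrametric inequality for `ord`. -/
theorem ord_add_ge (v : Place K F) {f g : F} (hf : f ≠ 0) (hg : g ≠ 0) (hfg : f + g ≠ 0) :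
    min (v.ord f) (v.ord g) ≤ v.ord (f + g) := by
  wlog hle : v.ord f ≤ v.ord g generalizing f g
  · rw [min_comm, add_comm]
    exact this hg hf (by rwa [add_comm]) (le_of_not_ge hle)
  rw [min_eq_left hle]
  -- `f + g = f * (1 + g / f)` and `g / f ∈ O_v`
  have hgf : g / f ∈ v.toValuationSubring := by
    apply mem_of_ord_nonneg
    rw [div_eq_mul_inv, v.ord_mul hg (inv_ne_zero hf), v.ord_inv]
    omega
  have h1 : (1 + g / f) ∈ v.toValuationSubring := add_mem (one_mem _) hgf
  have h1ne : 1 + g / f ≠ 0 := by
    intro h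
    apply hfg
    have : f + g = f * (1 + g / f) := by field_simp
    rw [this, h, mul_zero]
  have hmul : f + g = f * (1 + g / f) := by field_simp
  rw [hmul, v.ord_mul hf h1ne]
  have := ord_nonneg_of_mem v h1
  omega

/-! ### algebraic elements over an algebraically closed field are constants -/

theorem mem_range_of_isAlgebraic [IsAlgClosed K] {L : Type*} [Field L] [Algebra K L] {z : L}
    (hz : IsAlgebraic K z) : z ∈ Set.range (algebraMap K L) := by
  have hint : IsIntegral K z := hz.isIntegral
  have hirr := minpoly.irreducible hint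
  have hdeg := IsAlgClosed.degree_eq_one_of_irreducible K hirr
  exact minpoly.mem_range_of_degree_eq_one K z hdeg

/-- an element with a zero or a pole somewhere is transcendental. -/
theorem transcendental_of_ord_ne_zero [IsAlgClosed K] (v : Place K F) {f : F}
    (hf : v.ord f ≠ 0) : Transcendental K f := by
  intro halg
  obtain ⟨a, rfl⟩ := mem_range_of_isAlgebraic halg
  exact hf (ord_algebraMap v a)

/-! ### change of the transcendental generator -/

theorem isAlgebraic_adjoin_of_transcendental {x : F} (h : IsFunctionFieldOver K F x) {y : F}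
    (hy : Transcendental K y) (f : F) : IsAlgebraic (Algebra.adjoin K {y}) f := by
  have := h.finite
  have hyx : IsAlgebraic (Algebra.adjoin K {x}) y :=
    isAlgebraic_adjoin_iff.mp (Algebra.IsAlgebraic.isAlgebraic (R := K⟮x⟯) y)
  have hx : IsAlgebraic (Algebra.adjoin K {y}) x :=
    IsAlgebraic.adjoin_singleton (A := F) (B := F) h.transcendental hy hyx
  have hf : IsAlgebraic (Algebra.adjoin K {x}) f :=
    isAlgebraic_adjoin_iff.mp (Algebra.IsAlgebraic.isAlgebraic (R := K⟮x⟯) f)
  refine IsAlgebraic.adjoin_of_forall_isAlgebraic (s := {x}) (t := {y}) ?_ hf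
  rintro z ⟨hz, -⟩
  rw [Set.mem_singleton_iff] at hz
  rw [hz]
  exact hx

theorem isAlgebraic_adjoin_simple {x : F} (h : IsFunctionFieldOver K F x) {y : F}
    (hy : Transcendental K y) : Algebra.IsAlgebraic K⟮y⟯ F :=
  ⟨fun f => isAlgebraic_adjoin_iff.mpr (isAlgebraic_adjoin_of_transcendental h hy f)⟩

theorem finiteDimensional_adjoin_simple {x : F} (h : IsFunctionFieldOver K F x) {y : F}
    (hy : Transcendental K y) : FiniteDimensional K⟮y⟯ F := by
  have := h.finite
  have := isAlgebraic_adjoin_simple h hy
  let Fyx := restrictScalars K K⟮y⟯⟮x⟯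
  let Fxy := restrictScalars K K⟮x⟯⟮y⟯
  let : Algebra K⟮y⟯ Fyx := K⟮y⟯⟮x⟯.algebra
  let : Module K⟮y⟯ Fyx := Algebra.toModule
  let : SMul K⟮y⟯ Fyx := Algebra.toSMul
  let : Algebra K⟮x⟯ Fxy := K⟮x⟯⟮y⟯.algebra
  let : Module K⟮x⟯ Fxy := Algebra.toModule
  let : SMul K⟮x⟯ Fxy := Algebra.toSMul
  have : FiniteDimensional K⟮y⟯ Fyx :=
    adjoin.finiteDimensional (Algebra.IsIntegral.isIntegral (R := K⟮y⟯) x)
  have : FiniteDimensional Fyx F := by
    unfold Fyx
    rw [adjoin_simple_comm]
    have : IsScalarTower K⟮x⟯ Fxy F := isScalarTower_mid' K⟮x⟯⟮y⟯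
    exact .right K⟮x⟯ Fxy F
  have : IsScalarTower K⟮y⟯ Fyx F := isScalarTower_mid' K⟮y⟯⟮x⟯
  exact .trans K⟮y⟯ Fyx F

theorem isFunctionFieldOver_of_transcendental {x : F} (h : IsFunctionFieldOver K F x) {y : F}
    (hy : Transcendental K y) : IsFunctionFieldOver K F y :=
  ⟨hy, finiteDimensional_adjoin_simple h hy⟩

/-! ### the residue field of a place is `K` -/

/-- valuation rings are integrally closed. -/
theorem mem_of_isIntegral_of_forall_mem {R : Type*} [CommRing R] [Algebra R F] (v : Place K F)
    (hR : ∀ r : R, algebraMap R F r ∈ v.toValuationSubring) {f : F} (hf : IsIntegral R f) :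
    f ∈ v.toValuationSubring := by
  have hint : IsIntegral v.toValuationSubring f := by
    obtain ⟨p, hp, hpf⟩ := hf
    let φ : R →+* v.toValuationSubring :=
      (algebraMap R F).codRestrict v.toValuationSubring.toSubring hR
    refine ⟨p.map φ, hp.map φ, ?_⟩
    rw [Polynomial.eval₂_map]
    have hcomp : (algebraMap v.toValuationSubring F).comp φ = algebraMap R F := by
      ext r; rfl
    rw [hcomp]
    exact hpf
  obtain ⟨y, hy⟩ :=
    (IsIntegrallyClosed.isIntegral_iff (R := v.toValuationSubring) (K := F)).mp hint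
  rw [← hy]
  exact y.2

theorem isAlgebraic_residue {x : F} (h : IsFunctionFieldOver K F x)
    (v : Place K F) (z : v.ResidueField) : IsAlgebraic K z := by
  by_contra hz
  have hz' : Transcendental K z := hz
  obtain ⟨f, rfl⟩ := IsLocalRing.residue_surjective z
  -- (a) nonzero polynomials in `f` are units
  have hunit : ∀ q : K[X], q ≠ 0 → IsUnit (aeval f q) := by
    intro q hq
    by_contra hnu
    have hmem : aeval f q ∈ IsLocalRing.maximalIdeal v.toValuationSubring := hnu
    have h0 : IsLocalRing.residue v.toValuationSubring (aeval f q) = 0 :=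
      (IsLocalRing.residue_eq_zero_iff _).mpr hmem
    have h1 : aeval (IsLocalRing.residue v.toValuationSubring f) q = 0 := by
      rw [← h0, ← IsLocalRing.ResidueField.algebraMap_eq, aeval_algebraMap_apply]
    exact hq (transcendental_iff.mp hz' q h1)
  -- (b) `f` is transcendental
  have hcoe : ∀ q : K[X], ((aeval f q : v.toValuationSubring) : F) = aeval (f : F) q := by
    intro q
    have := aeval_algebraMap_apply F f q
    simpa using this.symm
  have hftr : Transcendental K (f : F) := by
    rw [transcendental_iff]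
    intro q hq
    by_contra hq0
    have hu := hunit q hq0
    rw [← hcoe] at hq
    have : (aeval f q : v.toValuationSubring) = 0 := Subtype.ext hq
    rw [this] at hu
    exact not_isUnit_zero hu
  -- (c) `K(f) ⊆ O_v`
  have hsub : ∀ r : K⟮(f : F)⟯, algebraMap K⟮(f : F)⟯ F r ∈ v.toValuationSubring := by
    rintro ⟨r, hr⟩
    obtain ⟨p, q, rfl⟩ := (mem_adjoin_simple_iff K r).mp hr
    show aeval (f : F) p / aeval (f : F) q ∈ v.toValuationSubring
    rcases eq_or_ne q 0 with rfl | hq
    · simp
    obtain ⟨u, hu⟩ := hunit q hq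
    have hinv : (aeval (f : F) q)⁻¹ = ((u⁻¹ : (v.toValuationSubring)ˣ) : v.toValuationSubring) := by
      rw [← hcoe, ← hu]
      have hmul : ((u : v.toValuationSubring) : F) * ((u⁻¹ : (v.toValuationSubring)ˣ) :
          v.toValuationSubring) = 1 := by
        have h1 : ((u : v.toValuationSubring) * ((u⁻¹ : (v.toValuationSubring)ˣ) :
          v.toValuationSubring) : v.toValuationSubring) = 1 := Units.mul_inv u
        have h2 := congrArg Subtype.val h1
        rwa [MulMemClass.coe_mul, OneMemClass.coe_one] at h2
      exact inv_eq_of_mul_eq_one_right hmul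
    rw [div_eq_mul_inv, hinv, ← hcoe]
    exact mul_mem (aeval f p).2 (SetLike.coe_mem _)
  -- (d) `F ⊆ O_v`
  have := isAlgebraic_adjoin_simple h hftr
  apply v.ne_top'
  refine SetLike.ext fun g => ⟨fun _ => ValuationSubring.mem_top g, fun _ => ?_⟩
  exact mem_of_isIntegral_of_forall_mem v hsub (Algebra.IsIntegral.isIntegral (R := K⟮(f : F)⟯) g)

theorem algebraMap_residueField_surjective [IsAlgClosed K] {x : F}
    (h : IsFunctionFieldOver K F x) (v : Place K F) :
    Function.Surjective (algebraMap K v.ResidueField) := by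
  intro z
  exact mem_range_of_isAlgebraic (isAlgebraic_residue h v z)

theorem algebraMap_residueField_bijective [IsAlgClosed K] {x : F}
    (h : IsFunctionFieldOver K F x) (v : Place K F) :
    Function.Bijective (algebraMap K v.ResidueField) :=
  ⟨(algebraMap K v.ResidueField).injective, algebraMap_residueField_surjective h v⟩

theorem deg_eq_one [IsAlgClosed K] {x : F} (h : IsFunctionFieldOver K F x) (v : Place K F) :
    v.deg = 1 := by
  have e : K ≃ₗ[K] v.ResidueField :=
    LinearEquiv.ofBijective (Algebra.linearMap K v.ResidueField)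
      (algebraMap_residueField_bijective h v)
  rw [Place.deg, ← e.finrank_eq, Module.finrank_self]

/-- every element of the valuation ring is congruent to a constant. -/
theorem exists_sub_mem_maximalIdeal [IsAlgClosed K] {x : F} (h : IsFunctionFieldOver K F x)
    (v : Place K F) (f : v.toValuationSubring) :
    ∃ a : K, f - algebraMap K v.toValuationSubring a ∈
      IsLocalRing.maximalIdeal v.toValuationSubring := by
  obtain ⟨a, ha⟩ := algebraMap_residueField_surjective h v (IsLocalRing.residue _ f)
  refine ⟨a, ?_⟩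
  rw [← IsLocalRing.residue_eq_zero_iff, map_sub, ← ha, sub_eq_zero,
    IsScalarTower.algebraMap_apply K v.toValuationSubring v.ResidueField,
    IsLocalRing.ResidueField.algebraMap_eq]

/-- a non constant element has a value `a ∈ K` or a pole at every place. -/
theorem exists_ord_sub_pos_or_neg [IsAlgClosed K] {x : F} (h : IsFunctionFieldOver K F x)
    (v : Place K F) {y : F} (hy : y ∉ Set.range (algebraMap K F)) :
    (∃ a : K, 0 < v.ord (y - algebraMap K F a)) ∨ v.ord y < 0 := by
  by_cases hmem : y ∈ v.toValuationSubring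
  · left
    obtain ⟨a, ha⟩ := exists_sub_mem_maximalIdeal h v ⟨y, hmem⟩
    refine ⟨a, ?_⟩
    have hne : (⟨y, hmem⟩ - algebraMap K v.toValuationSubring a : v.toValuationSubring) ≠ 0 := by
      intro h0
      apply hy
      refine ⟨a, ?_⟩
      have := congrArg Subtype.val h0
      simp only [AddSubgroupClass.coe_sub, Place.coe_algebraMap, ZeroMemClass.coe_zero] at this
      exact (sub_eq_zero.mp this).symm
    have := (mem_maximalIdeal_iff_ord_pos v hne).mp ha
    simpa using this
  · right
    exact ord_neg_of_not_mem v hmem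

end Fermat.Agent.S24Res
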