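import Mathlib
import Fermat.Agent.S24.FFDefs

set_option autoImplicit false
set_option linter.style.haveILetI false

noncomputable section

open KaehlerDifferential IntermediateField AlgebraicCurve Polynomial

namespace Fermat.Agent.S24Diff

variable {K F : Type*} [Field K] [Field F] [Algebra K F]

section RatFuncStructure

/-- The `K[X]`-algebra structure on `F` with `X ↦ y`. -/
@[reducible] def polyAlgebra (K : Type*) {F : Type*} [Field K] [Field F] [Algebra K F] (y : F) :
    Algebra K[X] F :=
  (Polynomial.aeval y).toRingHom.toAlgebra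

theorem polyAlgebra_algebraMap (y : F) (p : K[X]) :
    letI := polyAlgebra K y
    algebraMap K[X] F p = Polynomial.aeval y p := rfl

theorem polyAlgebra_isScalarTower (y : F) :
    letI := polyAlgebra K y
    IsScalarTower K K[X] F := by
  letI := polyAlgebra K y
  refine IsScalarTower.of_algebraMap_eq fun a => ?_
  rw [polyAlgebra_algebraMap, Polynomial.algebraMap_apply, Polynomial.aeval_C]
  rfl

theorem polyAlgebra_injective {y : F} (hy : Transcendental K y) :
    letI := polyAlgebra K y
    Function.Injective (algebraMap K[X] F) := by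
  letI := polyAlgebra K y
  exact transcendental_iff_injective.mp hy

/-- The `RatFunc K`-algebra structure on `F` with `X ↦ y`, for `y` transcendental. -/
@[reducible] def ratFuncAlgebra {K F : Type*} [Field K] [Field F] [Algebra K F] (y : F)
    (hy : Transcendental K y) : Algebra (RatFunc K) F :=
  (RatFunc.liftAlgHom (Polynomial.aeval y : K[X] →ₐ[K] F)
    (nonZeroDivisors_le_comap_nonZeroDivisors_of_injective _
      (transcendental_iff_injective.mp hy))).toRingHom.toAlgebra

theorem ratFuncAlgebra_algebraMap_algebraMap {y : F} (hy : Transcendental K y) (p : K[X]) :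
    letI := ratFuncAlgebra y hy
    algebraMap (RatFunc K) F (algebraMap K[X] (RatFunc K) p) = Polynomial.aeval y p := by
  letI := ratFuncAlgebra y hy
  show RatFunc.liftAlgHom (Polynomial.aeval y : K[X] →ₐ[K] F) _ (algebraMap K[X] (RatFunc K) p) = _
  rw [RatFunc.liftAlgHom_apply]
  simp

theorem ratFuncAlgebra_X {y : F} (hy : Transcendental K y) :
    letI := ratFuncAlgebra y hy
    algebraMap (RatFunc K) F RatFunc.X = y := by
  letI := ratFuncAlgebra y hy
  have := ratFuncAlgebra_algebraMap_algebraMap hy (Polynomial.X : K[X])
  simpa using this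

theorem ratFuncAlgebra_isScalarTower_poly {y : F} (hy : Transcendental K y) :
    letI := polyAlgebra K y
    letI := ratFuncAlgebra y hy
    IsScalarTower K[X] (RatFunc K) F := by
  letI := polyAlgebra K y
  letI := ratFuncAlgebra y hy
  refine IsScalarTower.of_algebraMap_eq fun p => ?_
  rw [ratFuncAlgebra_algebraMap_algebraMap hy]
  rfl

theorem ratFuncAlgebra_isScalarTower {y : F} (hy : Transcendental K y) :
    letI := ratFuncAlgebra y hy
    IsScalarTower K (RatFunc K) F := by
  letI := ratFuncAlgebra y hy
  refine IsScalarTower.of_algebraMap_eq fun a => ?_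
  show _ = RatFunc.liftAlgHom (Polynomial.aeval y : K[X] →ₐ[K] F) _ (algebraMap K (RatFunc K) a)
  rw [AlgHom.commutes]

theorem ratFuncAlgebra_algebraMap_eq {y : F} (hy : Transcendental K y) (u : RatFunc K) :
    letI := ratFuncAlgebra y hy
    algebraMap (RatFunc K) F u = (RatFunc.algEquivOfTranscendental y hy u : F) := by
  letI := ratFuncAlgebra y hy
  show RatFunc.liftAlgHom (Polynomial.aeval y : K[X] →ₐ[K] F) _ u = _
  rw [RatFunc.liftAlgHom_apply, RatFunc.algEquivOfTranscendental_apply]

theorem finite_ratFunc_iff {y : F} (hy : Transcendental K y) :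
    letI := ratFuncAlgebra y hy
    FiniteDimensional (RatFunc K) F ↔ FiniteDimensional K⟮y⟯ F := by
  letI := ratFuncAlgebra y hy
  constructor
  · intro hfin
    exact Module.Finite.of_equiv_equiv (A₁ := RatFunc K) (B₁ := F) (A₂ := K⟮y⟯) (B₂ := F)
      (RatFunc.algEquivOfTranscendental y hy).toRingEquiv (RingEquiv.refl F)
      (by
        ext u
        simp only [RingHom.coe_comp, Function.comp_apply, RingEquiv.coe_ringHom_refl,
          RingHom.id_comp]
        rw [ratFuncAlgebra_algebraMap_eq hy u]
        rfl)
  · intro hfin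
    exact Module.Finite.of_equiv_equiv (A₁ := K⟮y⟯) (B₁ := F) (A₂ := RatFunc K) (B₂ := F)
      (RatFunc.algEquivOfTranscendental y hy).symm.toRingEquiv (RingEquiv.refl F)
      (by
        ext u
        simp only [RingHom.coe_comp, Function.comp_apply, RingEquiv.coe_ringHom_refl,
          RingHom.id_comp]
        have := ratFuncAlgebra_algebraMap_eq hy ((RatFunc.algEquivOfTranscendental y hy).symm u)
        rw [AlgEquiv.apply_symm_apply] at this
        exact this)

variable {x : F}

/-- exchange: `F` is finite over `K(y)` for every transcendental `y`. -/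
theorem IsFunctionFieldOver.of_transcendental (h : IsFunctionFieldOver K F x) {y : F}
    (hy : Transcendental K y) : IsFunctionFieldOver K F y := by
  refine ⟨hy, ?_⟩
  letI := ratFuncAlgebra x h.transcendental
  haveI := ratFuncAlgebra_isScalarTower h.transcendental
  haveI : FunctionField K F := (finite_ratFunc_iff h.transcendental).mpr h.finite
  exact FunctionField.finiteDimensional_of_adjoin_transcendental hy

end RatFuncStructure

section Kaehler

/-- `D X ≠ 0` stays nonzero in `Ω[RatFunc K / K]`. -/
theorem D_ratFunc_X_ne_zero : KaehlerDifferential.D K (RatFunc K) RatFunc.X ≠ 0 := by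
  intro h0
  have hloc : IsLocalizedModule (nonZeroDivisors K[X])
      (KaehlerDifferential.map K K K[X] (RatFunc K)) :=
    KaehlerDifferential.isLocalizedModule_map K K[X] (RatFunc K) (nonZeroDivisors K[X])
  have hX : KaehlerDifferential.map K K K[X] (RatFunc K) (KaehlerDifferential.D K K[X] X) = 0 := by
    rw [KaehlerDifferential.map_D]
    simpa using h0
  obtain ⟨s, hs⟩ := (IsLocalizedModule.eq_zero_iff (nonZeroDivisors K[X]) _).mp hX
  have hs' : (s : K[X]) • KaehlerDifferential.D K K[X] X = 0 := hs
  have := congrArg (KaehlerDifferential.polynomialEquiv K) hs'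
  rw [map_smul, KaehlerDifferential.polynomialEquiv_D, map_zero] at this
  simp at this

/-- `Ω[RatFunc K / K]` is spanned by `D X`. -/
theorem span_D_ratFunc_X :
    Submodule.span (RatFunc K) {KaehlerDifferential.D K (RatFunc K) RatFunc.X} = ⊤ := by
  have h1 := KaehlerDifferential.span_range_map_derivation_of_isLocalization K K[X] (RatFunc K)
    (nonZeroDivisors K[X])
  rw [eq_top_iff, ← h1, Submodule.span_le]
  rintro _ ⟨p, rfl⟩
  simp only [Function.comp_apply, SetLike.mem_coe]
  rw [KaehlerDifferential.polynomial_D_apply, map_smul, KaehlerDifferential.map_D]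
  have : (algebraMap K[X] (RatFunc K)) X = RatFunc.X := by simp
  rw [this, ← algebraMap_smul (RatFunc K) (derivative p)]
  exact Submodule.smul_mem _ _ (Submodule.mem_span_singleton_self _)

variable [CharZero K]

/-- Core: if `y` is transcendental and `F` is finite over `K(y)` then `D y` is a basis of
`Ω[F/K]`: spanning part. -/
theorem span_D_eq_top_aux {y : F} (h : IsFunctionFieldOver K F y) :
    Submodule.span F {KaehlerDifferential.D K F y} = ⊤ := by
  have hy := h.transcendental
  letI := ratFuncAlgebra y hy
  haveI := ratFuncAlgebra_isScalarTower hy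
  haveI : FiniteDimensional (RatFunc K) F := (finite_ratFunc_iff hy).mpr h.finite
  haveI : Algebra.IsSeparable (RatFunc K) F := inferInstance
  haveI : Algebra.FormallyEtale (RatFunc K) F := Algebra.FormallyEtale.of_isSeparable _ _
  let e := KaehlerDifferential.tensorKaehlerEquivOfFormallyEtale K (RatFunc K) F
  rw [eq_top_iff]
  intro ω _
  obtain ⟨t, rfl⟩ := e.surjective ω
  induction t using TensorProduct.induction_on with
  | zero => simp
  | add a b ha hb => rw [map_add]; exact Submodule.add_mem _ (ha trivial) (hb trivial)
  | tmul f η =>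
    have hη : η ∈ Submodule.span (RatFunc K) {KaehlerDifferential.D K (RatFunc K) RatFunc.X} := by
      rw [span_D_ratFunc_X]; trivial
    obtain ⟨c, rfl⟩ := Submodule.mem_span_singleton.mp hη
    have : e (f ⊗ₜ[RatFunc K] (c • KaehlerDifferential.D K (RatFunc K) RatFunc.X))
        = (f * algebraMap (RatFunc K) F c) • KaehlerDifferential.D K F y := by
      rw [KaehlerDifferential.tensorKaehlerEquivOfFormallyEtale_apply,
        KaehlerDifferential.mapBaseChange_tmul, map_smul, KaehlerDifferential.map_D,
        ratFuncAlgebra_X hy, mul_smul, algebraMap_smul]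
    rw [this]
    exact Submodule.smul_mem _ _ (Submodule.mem_span_singleton_self _)

theorem D_ne_zero_aux {y : F} (h : IsFunctionFieldOver K F y) :
    KaehlerDifferential.D K F y ≠ 0 := by
  have hy := h.transcendental
  letI := ratFuncAlgebra y hy
  haveI := ratFuncAlgebra_isScalarTower hy
  haveI : FiniteDimensional (RatFunc K) F := (finite_ratFunc_iff hy).mpr h.finite
  haveI : Algebra.IsSeparable (RatFunc K) F := inferInstance
  haveI : Algebra.FormallyEtale (RatFunc K) F := Algebra.FormallyEtale.of_isSeparable _ _
  let e := KaehlerDifferential.tensorKaehlerEquivOfFormallyEtale K (RatFunc K) F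
  have h1 : e ((1 : F) ⊗ₜ[RatFunc K] KaehlerDifferential.D K (RatFunc K) RatFunc.X)
      = KaehlerDifferential.D K F y := by
    rw [KaehlerDifferential.tensorKaehlerEquivOfFormallyEtale_apply,
      KaehlerDifferential.mapBaseChange_tmul, KaehlerDifferential.map_D,
      ratFuncAlgebra_X hy, one_smul]
  rw [← h1]
  intro h0
  have h2 : (1 : F) ⊗ₜ[RatFunc K] KaehlerDifferential.D K (RatFunc K) RatFunc.X = 0 := by
    apply e.injective
    rw [h0, map_zero]
  have h3 := Module.Flat.tensorProduct_mk_injective (RatFunc K) Ω[RatFunc K⁄K] F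
  have h4 : TensorProduct.mk (RatFunc K) F Ω[RatFunc K⁄K] 1
      (KaehlerDifferential.D K (RatFunc K) RatFunc.X) = 0 := h2
  rw [← map_zero (TensorProduct.mk (RatFunc K) F Ω[RatFunc K⁄K] 1)] at h4
  exact D_ratFunc_X_ne_zero (h3 h4)

variable {x : F}

theorem span_D_eq_top (h : IsFunctionFieldOver K F x) {y : F} (hy : Transcendental K y) :
    Submodule.span F {KaehlerDifferential.D K F y} = ⊤ :=
  span_D_eq_top_aux (h.of_transcendental hy)

theorem D_ne_zero (h : IsFunctionFieldOver K F x) {y : F} (hy : Transcendental K y) :
    KaehlerDifferential.D K F y ≠ 0 :=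
  D_ne_zero_aux (h.of_transcendental hy)

theorem nontrivial_kaehler (h : IsFunctionFieldOver K F x) : Nontrivial Ω[F⁄K] :=
  ⟨⟨_, _, D_ne_zero h h.transcendental⟩⟩

theorem exists_smul_D_eq (h : IsFunctionFieldOver K F x) {y : F} (hy : Transcendental K y)
    (ω : Ω[F⁄K]) : ∃ c : F, c • KaehlerDifferential.D K F y = ω := by
  have : ω ∈ Submodule.span F {KaehlerDifferential.D K F y} := by
    rw [span_D_eq_top h hy]; trivial
  exact Submodule.mem_span_singleton.mp this

theorem finrank_kaehler (h : IsFunctionFieldOver K F x) : Module.finrank F Ω[F⁄K] = 1 :=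
  finrank_eq_one _ (D_ne_zero h h.transcendental) (exists_smul_D_eq h h.transcendental)

end Kaehler

section Places

variable {x : F}

theorem ord_algebraMap_eq_zero (v : Place K F) (a : K) : v.ord (algebraMap K F a) = 0 := by
  rcases eq_or_ne a 0 with rfl | ha
  · simp
  · have hu : IsUnit (algebraMap K v.toValuationSubring a) :=
      (IsUnit.mk0 a ha).map (algebraMap K v.toValuationSubring)
    have := v.ord_coe_unit hu.unit
    simpa using this

theorem exists_algebraMap_eq_of_isAlgebraic [IsAlgClosed K] {f : F} (halg : IsAlgebraic K f) :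
    ∃ a : K, algebraMap K F a = f := by
  have hint : IsIntegral K f := halg.isIntegral
  refine ⟨-(minpoly K f).coeff 0, ?_⟩
  have hq : (minpoly K f).leadingCoeff = 1 := minpoly.monic hint
  have h : (minpoly K f).degree = 1 :=
    IsAlgClosed.degree_eq_one_of_irreducible K (minpoly.irreducible hint)
  have : Polynomial.aeval f (minpoly K f) = 0 := minpoly.aeval K f
  rw [Polynomial.eq_X_add_C_of_degree_eq_one h, hq, Polynomial.C_1, one_mul, Polynomial.aeval_add,
    Polynomial.aeval_X, Polynomial.aeval_C, add_eq_zero_iff_eq_neg] at this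
  exact (map_neg (algebraMap K F) ((minpoly K f).coeff 0)).symm ▸ this.symm

theorem transcendental_of_ord_ne_zero' [IsAlgClosed K] (v : Place K F) {f : F}
    (hf : v.ord f ≠ 0) : Transcendental K f := by
  intro halg
  obtain ⟨a, rfl⟩ := exists_algebraMap_eq_of_isAlgebraic halg
  exact hf (ord_algebraMap_eq_zero v a)

/-- the coordinate differential is `D π` for a uniformizer `π` -/
theorem exists_dCoord_eq (v : Place K F) :
    ∃ π : F, v.ord π = 1 ∧ v.dCoord = KaehlerDifferential.D K F π := by
  refine ⟨_, ?_, rfl⟩
  show v.ord ((IsDiscreteValuationRing.exists_irreducible v.toValuationSubring).choose : F) = 1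
  exact v.ord_coe_irreducible
    (IsDiscreteValuationRing.exists_irreducible v.toValuationSubring).choose_spec

theorem dCoordGenerates [IsAlgClosed K] [CharZero K] (h : IsFunctionFieldOver K F x)
    (v : Place K F) : v.DCoordGenerates := by
  obtain ⟨π, hπ, hd⟩ := exists_dCoord_eq v
  refine ⟨?_⟩
  rw [hd]
  exact span_D_eq_top h (transcendental_of_ord_ne_zero' v (by rw [hπ]; exact one_ne_zero))

end Places

end Fermat.Agent.S24Diff
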