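import Mathlib
import Fermat.Prelude.Def_AlgebraicCurve_CanonicalDivisor
import Fermat.Agent.S24.FFDefs
import Fermat.Agent.S24.Bridge
import Fermat.Agent.S24.Differential
import Fermat.Agent.S24.Residue

set_option autoImplicit false
set_option linter.deprecated false
set_option linter.unusedSectionVars false
set_option linter.style.haveILetI false

/-!
# S24, general theory: the fundamental identity for function fields

For `F / K` a function field in one variable over an algebraically closed field of
characteristic zero and `y : F` transcendental: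

* the zeros of `y - a` counted with multiplicity are `[F : K(y)]` many;
* the poles of `y` counted with multiplicity are `[F : K(y)]` many;
* principal divisors have degree `0`.

Route: `B :=` integral closure of `K[X]` (with `X ↦ y`) in `F`, Mathlib's
`Ideal.sum_ramification_inertia` for the prime `(X - a)`, inertia degrees are `1`
because `K` is algebraically closed, and the dictionary place <-> prime of `B`
(`Fermat.Agent.S24.Bridge`).
-/

noncomputable section

open Polynomial IntermediateField AlgebraicCurve IsDedekindDomain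

namespace Fermat.Agent.S24Fund

section general

variable {K F : Type*} (Ky : Type*) [Field K] [IsAlgClosed K] [Field F] [Algebra K F]
  [Field Ky] [Algebra K[X] Ky] [IsFractionRing K[X] Ky] [Algebra Ky F] [Algebra K[X] F]
  [IsScalarTower K[X] Ky F] [IsScalarTower K K[X] F] [FiniteDimensional Ky F]
  [Algebra.IsSeparable Ky F]

include Ky in
theorem isDedekindDomain_B : IsDedekindDomain (integralClosure K[X] F) :=
  integralClosure.isDedekindDomain K[X] Ky F

include Ky in
theorem isFractionRing_B : IsFractionRing (integralClosure K[X] F) F :=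
  integralClosure.isFractionRing_of_finite_extension Ky F

include Ky in
theorem finite_B : Module.Finite K[X] (integralClosure K[X] F) :=
  IsIntegralClosure.finite K[X] Ky F (integralClosure K[X] F)

include Ky in
theorem isTorsionFree_B : Module.IsTorsionFree K[X] (integralClosure K[X] F) := by
  haveI : Module.IsTorsionFree K[X] F := .trans_faithfulSMul K[X] Ky F
  exact IsIntegralClosure.isTorsionFree K[X] F

theorem isMaximal_span_X_sub_C (a : K) : (Ideal.span {X - C a} : Ideal K[X]).IsMaximal :=
  PrincipalIdealRing.isMaximal_of_irreducible (irreducible_X_sub_C a)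

theorem span_X_sub_C_ne_bot (a : K) : (Ideal.span {X - C a} : Ideal K[X]) ≠ ⊥ := by
  rw [Ne, Ideal.span_singleton_eq_bot]
  exact X_sub_C_ne_zero a

include Ky in
theorem inertiaDeg'_eq_one (a : K) (P : Ideal (integralClosure K[X] F)) [P.IsPrime]
    [P.LiesOver (Ideal.span {X - C a} : Ideal K[X])] :
    (Ideal.span {X - C a} : Ideal K[X]).inertiaDeg' P = 1 := by
  haveI hmax := isMaximal_span_X_sub_C a
  haveI := finite_B (K := K) (F := F) Ky
  rw [Ideal.inertiaDeg'_algebraMap]
  letI := Ideal.Quotient.field (Ideal.span {X - C a} : Ideal K[X])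
  haveI : IsAlgClosed (K[X] ⧸ (Ideal.span {X - C a} : Ideal K[X])) :=
    IsAlgClosed.of_ringEquiv K _ (quotientSpanXSubCAlgEquiv a).symm.toRingEquiv
  haveI : Module.Finite (K[X] ⧸ (Ideal.span {X - C a} : Ideal K[X]))
      (integralClosure K[X] F ⧸ P) := inferInstance
  have hbij := IsAlgClosed.algebraMap_bijective_of_isIntegral
    (k := K[X] ⧸ (Ideal.span {X - C a} : Ideal K[X])) (K := integralClosure K[X] F ⧸ P)
  have hbij' : Function.Bijective (Algebra.linearMap
    (K[X] ⧸ (Ideal.span {X - C a} : Ideal K[X])) (integralClosure K[X] F ⧸ P)) := hbij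
  exact (LinearEquiv.ofBijective _ hbij').finrank_eq.symm.trans (Module.finrank_self _)

include Ky in
theorem sum_ramificationIdx' (a : K) :
    haveI := isDedekindDomain_B (K := K) (F := F) Ky
    ∑ P ∈ IsDedekindDomain.primesOverFinset (Ideal.span {X - C a} : Ideal K[X]) (integralClosure K[X] F),
      (Ideal.span {X - C a} : Ideal K[X]).ramificationIdx' P = Module.finrank Ky F := by
  haveI := isDedekindDomain_B (K := K) (F := F) Ky
  haveI := isFractionRing_B (K := K) (F := F) Ky
  haveI := finite_B (K := K) (F := F) Ky
  haveI := isTorsionFree_B (K := K) (F := F) Ky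
  haveI := isMaximal_span_X_sub_C a
  rw [← Ideal.sum_ramification_inertia (integralClosure K[X] F) Ky F (span_X_sub_C_ne_bot a)]
  refine Finset.sum_congr rfl fun P hP => ?_
  rw [IsDedekindDomain.mem_primesOverFinset_iff (span_X_sub_C_ne_bot a)] at hP
  haveI := hP.1
  haveI := hP.2
  rw [inertiaDeg'_eq_one Ky a P, mul_one]

/-- all of `K[X]` lands in `O_v` as soon as `X - a` does. -/
theorem algebraMap_poly_mem (v : Place K F) (a : K)
    (h : algebraMap K[X] F (X - C a) ∈ v.toValuationSubring) (q : K[X]) :
    algebraMap K[X] F q ∈ v.toValuationSubring := by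
  have hC : ∀ c : K, algebraMap K[X] F (C c) ∈ v.toValuationSubring := by
    intro c
    rw [← Polynomial.algebraMap_eq, ← IsScalarTower.algebraMap_apply K K[X] F]
    exact v.algebraMap_mem' c
  have hX : algebraMap K[X] F X ∈ v.toValuationSubring := by
    have : algebraMap K[X] F X = algebraMap K[X] F (X - C a) + algebraMap K[X] F (C a) := by
      rw [← map_add, sub_add_cancel]
    rw [this]
    exact add_mem h (hC a)
  induction q using Polynomial.induction_on' with
  | add p q hp hq => rw [map_add]; exact add_mem hp hq
  | monomial n c =>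
    rw [← Polynomial.C_mul_X_pow_eq_monomial, map_mul, map_pow]
    exact mul_mem (hC c) (pow_mem hX n)

include Ky in
/-- the fundamental identity, in terms of places: the zeros of `X - a`. -/
theorem zeros_aux (a : K) :
    ∃ s : Finset (Place K F), (∀ v, v ∈ s ↔ 0 < v.ord (algebraMap K[X] F (X - C a))) ∧
      ∑ v ∈ s, v.ord (algebraMap K[X] F (X - C a)) = Module.finrank Ky F := by
  classical
  haveI := isDedekindDomain_B (K := K) (F := F) Ky
  haveI := isFractionRing_B (K := K) (F := F) Ky
  haveI := finite_B (K := K) (F := F) Ky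
  haveI := isTorsionFree_B (K := K) (F := F) Ky
  haveI hmax := isMaximal_span_X_sub_C a
  have hp0 := span_X_sub_C_ne_bot a
  have hmem : ∀ P : Ideal (integralClosure K[X] F),
      P ∈ IsDedekindDomain.primesOverFinset (Ideal.span {X - C a} : Ideal K[X]) (integralClosure K[X] F) →
        P.IsPrime ∧ P.LiesOver (Ideal.span {X - C a} : Ideal K[X]) := fun P hP =>
    (IsDedekindDomain.mem_primesOverFinset_iff hp0 (integralClosure K[X] F)).mp hP
  have hne : ∀ P : Ideal (integralClosure K[X] F),
      P ∈ IsDedekindDomain.primesOverFinset (Ideal.span {X - C a} : Ideal K[X]) (integralClosure K[X] F) →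
        P ≠ ⊥ := fun P hP =>
    Ideal.ne_bot_of_mem_primesOver hp0
      ((IsDedekindDomain.mem_primesOverFinset_iff hp0 (integralClosure K[X] F)).mp hP)
  let toH : (P : Ideal (integralClosure K[X] F)) →
      P ∈ IsDedekindDomain.primesOverFinset (Ideal.span {X - C a} : Ideal K[X]) (integralClosure K[X] F) →
        HeightOneSpectrum (integralClosure K[X] F) := fun P hP => ⟨P, (hmem P hP).1, hne P hP⟩
  let v₀ : HeightOneSpectrum K[X] := ⟨Ideal.span {X - C a}, hmax.isPrime, hp0⟩
  have hX0 : algebraMap K[X] (integralClosure K[X] F) (X - C a) ≠ 0 := by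
    rw [Ne, map_eq_zero_iff _ (FaithfulSMul.algebraMap_injective K[X] (integralClosure K[X] F))]
    exact X_sub_C_ne_zero a
  have hord : ∀ P hP, (Place.ofHeightOneSpectrum (K := K) (F := F) (toH P hP)).ord
      (algebraMap K[X] F (X - C a)) =
        ((Ideal.span {X - C a} : Ideal K[X]).ramificationIdx' P : ℤ) := by
    intro P hP
    haveI : (toH P hP).asIdeal.LiesOver v₀.asIdeal := (hmem P hP).2
    have h1 := HeightOneSpectrum.intValuation_liesOver v₀ (toH P hP) (X - C a)
    rw [v₀.intValuation_singleton (X_sub_C_ne_zero a) rfl] at h1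
    rw [Fermat.Agent.S24Bridge.ord_ofHeightOneSpectrum,
      IsScalarTower.algebraMap_apply K[X] (integralClosure K[X] F) F,
      HeightOneSpectrum.valuation_of_algebraMap, ← h1, ← WithZero.exp_nsmul, WithZero.log_exp]
    have h2 : v₀.asIdeal.ramificationIdx' (toH P hP).asIdeal =
        (Ideal.span {X - C a} : Ideal K[X]).ramificationIdx' P := rfl
    rw [h2]
    simp
  have hepos : ∀ (P : Ideal (integralClosure K[X] F))
      (_ : P ∈ IsDedekindDomain.primesOverFinset (Ideal.span {X - C a} : Ideal K[X])
        (integralClosure K[X] F)),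
      0 < ((Ideal.span {X - C a} : Ideal K[X]).ramificationIdx' P : ℤ) := by
    intro P hP
    haveI := (hmem P hP).1
    haveI := (hmem P hP).2
    exact_mod_cast Nat.pos_of_ne_zero
      (Ideal.IsDedekindDomain.ramificationIdx'_ne_zero_of_liesOver P hp0)
  have hinj : Function.Injective
      (fun P : {P // P ∈ IsDedekindDomain.primesOverFinset (Ideal.span {X - C a} : Ideal K[X])
          (integralClosure K[X] F)} =>
        Place.ofHeightOneSpectrum (K := K) (F := F) (toH P.1 P.2)) := by
    intro P Q hPQ
    have := Fermat.Agent.S24Bridge.ofHeightOneSpectrum_injective (K := K) (F := F) hPQ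
    exact Subtype.ext (congrArg HeightOneSpectrum.asIdeal this)
  refine ⟨(IsDedekindDomain.primesOverFinset (Ideal.span {X - C a} : Ideal K[X])
    (integralClosure K[X] F)).attach.image
      (fun P => Place.ofHeightOneSpectrum (K := K) (F := F) (toH P.1 P.2)), ?_, ?_⟩
  · intro v
    rw [Finset.mem_image]
    constructor
    · rintro ⟨⟨P, hP⟩, -, rfl⟩
      show 0 < (Place.ofHeightOneSpectrum (K := K) (F := F) (toH P hP)).ord _
      rw [hord P hP]
      exact hepos P hP
    · intro hv
      have hmemv : algebraMap K[X] F (X - C a) ∈ v.toValuationSubring :=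
        Fermat.Agent.S24Res.mem_of_ord_nonneg v hv.le
      have hall := algebraMap_poly_mem v a hmemv
      have hB : ∀ b : integralClosure K[X] F,
          algebraMap (integralClosure K[X] F) F b ∈ v.toValuationSubring := fun b =>
        Fermat.Agent.S24Bridge.mem_of_isIntegral v hall b.2
      obtain ⟨Q, hQ⟩ := Fermat.Agent.S24Bridge.exists_eq_ofHeightOneSpectrum v hB
      have hXQ : algebraMap K[X] (integralClosure K[X] F) (X - C a) ∈ Q.asIdeal := by
        rw [Fermat.Agent.S24Bridge.mem_asIdeal_iff_ord_pos (K := K) (F := F) Q _ hX0, ← hQ,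
          ← IsScalarTower.algebraMap_apply K[X] (integralClosure K[X] F) F]
        exact hv
      have hle : (Ideal.span {X - C a} : Ideal K[X]) ≤
          Q.asIdeal.comap (algebraMap K[X] (integralClosure K[X] F)) := by
        rw [Ideal.span_singleton_le_iff_mem]
        exact hXQ
      have hcomap_ne : Q.asIdeal.comap (algebraMap K[X] (integralClosure K[X] F)) ≠ ⊤ :=
        (Ideal.comap_isPrime (algebraMap K[X] (integralClosure K[X] F)) Q.asIdeal).ne_top
      have hlies : Q.asIdeal.LiesOver (Ideal.span {X - C a} : Ideal K[X]) :=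
        ⟨hmax.eq_of_le hcomap_ne hle⟩
      have hQmem : Q.asIdeal ∈ IsDedekindDomain.primesOverFinset (Ideal.span {X - C a} : Ideal K[X])
          (integralClosure K[X] F) :=
        (IsDedekindDomain.mem_primesOverFinset_iff hp0 (integralClosure K[X] F)).mpr ⟨Q.isPrime, hlies⟩
      refine ⟨⟨Q.asIdeal, hQmem⟩, Finset.mem_attach _ _, ?_⟩
      rw [hQ]
  · rw [Finset.sum_image (fun P _ Q _ h => hinj h)]
    rw [← sum_ramificationIdx' (K := K) (F := F) Ky a, Nat.cast_sum,
      ← Finset.sum_attach (IsDedekindDomain.primesOverFinset (Ideal.span {X - C a} : Ideal K[X])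
        (integralClosure K[X] F))]
    exact Finset.sum_congr rfl fun P _ => hord P.1 P.2

end general

section specific

open Fermat.Agent.S24Diff

variable {K F : Type*} [Field K] [Field F] [Algebra K F] [IsAlgClosed K] [CharZero K] {x : F}

/-- `[F : K(y)]` computed over `RatFunc K` (with `X ↦ y`). -/
theorem finrank_ratFunc_eq {y : F} (hy : Transcendental K y) :
    letI := ratFuncAlgebra y hy
    Module.finrank (RatFunc K) F = Module.finrank K⟮y⟯ F := by
  letI := ratFuncAlgebra y hy
  refine Algebra.finrank_eq_of_equiv_equiv (RatFunc.algEquivOfTranscendental y hy).toRingEquiv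
    (RingEquiv.refl F) ?_
  ext u
  simp only [RingHom.coe_comp, Function.comp_apply]
  rw [ratFuncAlgebra_algebraMap_eq hy u]
  rfl

/-- the fundamental identity for the zeros of `y - a`, packaged with a finset. -/
theorem exists_finset_zeros (h : IsFunctionFieldOver K F x) {y : F} (hy : Transcendental K y)
    (a : K) :
    ∃ s : Finset (Place K F), (∀ v, v ∈ s ↔ 0 < v.ord (y - algebraMap K F a)) ∧
      ∑ v ∈ s, v.ord (y - algebraMap K F a) = (Module.finrank K⟮y⟯ F : ℤ) := by
  letI := polyAlgebra K y
  letI := ratFuncAlgebra y hy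
  haveI := polyAlgebra_isScalarTower (K := K) y
  haveI := ratFuncAlgebra_isScalarTower_poly hy
  haveI : FiniteDimensional (RatFunc K) F :=
    (finite_ratFunc_iff hy).mpr (h.of_transcendental hy).finite
  haveI : CharZero (RatFunc K) := charZero_of_injective_algebraMap
    (algebraMap K (RatFunc K)).injective
  haveI : Algebra.IsSeparable (RatFunc K) F := inferInstance
  obtain ⟨s, hs, hsum⟩ := zeros_aux (K := K) (F := F) (RatFunc K) a
  have hXa : algebraMap K[X] F (X - C a) = y - algebraMap K F a := by
    rw [polyAlgebra_algebraMap]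
    simp
  rw [hXa] at hs hsum
  refine ⟨s, hs, hsum.trans ?_⟩
  rw [finrank_ratFunc_eq hy]

theorem finite_zeros (h : IsFunctionFieldOver K F x) {y : F} (hy : Transcendental K y) (a : K) :
    {v : Place K F | 0 < v.ord (y - algebraMap K F a)}.Finite := by
  obtain ⟨s, hs, -⟩ := exists_finset_zeros h hy a
  exact s.finite_toSet.subset fun v hv => (hs v).mpr hv

/-- fundamental identity: zeros of `y - a` counted with multiplicity = `[F : K(y)]`. -/
theorem sum_ord_zeros (h : IsFunctionFieldOver K F x) {y : F} (hy : Transcendental K y) (a : K) :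
    ∑ v ∈ (finite_zeros h hy a).toFinset, v.ord (y - algebraMap K F a)
      = Module.finrank K⟮y⟯ F := by
  obtain ⟨s, hs, hsum⟩ := exists_finset_zeros h hy a
  have hst : (finite_zeros h hy a).toFinset = s := by
    ext v
    rw [Set.Finite.mem_toFinset, Set.mem_setOf_eq, hs]
  rw [hst, hsum]

theorem transcendental_inv {y : F} (hy : Transcendental K y) : Transcendental K y⁻¹ :=
  fun halg => hy (by simpa using halg.inv)

theorem adjoin_inv_eq (y : F) : K⟮y⁻¹⟯ = K⟮y⟯ := by
  apply le_antisymm
  · rw [adjoin_simple_le_iff]
    exact inv_mem (mem_adjoin_simple_self K y)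
  · rw [adjoin_simple_le_iff]
    have hmem : (y⁻¹)⁻¹ ∈ K⟮y⁻¹⟯ := inv_mem (mem_adjoin_simple_self K y⁻¹)
    rwa [inv_inv] at hmem

theorem finrank_adjoin_inv_eq (y : F) : Module.finrank K⟮y⁻¹⟯ F = Module.finrank K⟮y⟯ F := by
  rw [adjoin_inv_eq]

theorem poles_eq_zeros_inv (y : F) :
    {v : Place K F | v.ord y < 0} = {v : Place K F | 0 < v.ord (y⁻¹ - algebraMap K F 0)} := by
  ext v
  simp only [Set.mem_setOf_eq, map_zero, sub_zero, Place.ord_inv]
  omega

theorem finite_poles (h : IsFunctionFieldOver K F x) {y : F} (hy : Transcendental K y) :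
    {v : Place K F | v.ord y < 0}.Finite := by
  rw [poles_eq_zeros_inv]
  exact finite_zeros h (transcendental_inv hy) 0

theorem sum_ord_poles (h : IsFunctionFieldOver K F x) {y : F} (hy : Transcendental K y) :
    ∑ v ∈ (finite_poles h hy).toFinset, v.ord y = -(Module.finrank K⟮y⟯ F : ℤ) := by
  have hst : (finite_poles h hy).toFinset = (finite_zeros h (transcendental_inv hy) 0).toFinset := by
    ext v
    rw [Set.Finite.mem_toFinset, Set.Finite.mem_toFinset, poles_eq_zeros_inv]
  have hz := sum_ord_zeros h (transcendental_inv hy) 0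
  rw [hst, ← finrank_adjoin_inv_eq (K := K) y, ← hz, ← Finset.sum_neg_distrib]
  refine Finset.sum_congr rfl fun v _ => ?_
  simp only [map_zero, sub_zero, Place.ord_inv, neg_neg]

/-- principal divisors have degree zero -/
theorem degree_eq_zero_of_principal (h : IsFunctionFieldOver K F x) (D : Divisor K F) {f : F}
    (hf : f ≠ 0) (hD : ∀ v : Place K F, D v = v.ord f) : Divisor.degree D = 0 := by
  classical
  have hdeg : Divisor.degree D = ∑ v ∈ D.support, D v := by
    simp only [Divisor.degree, Finsupp.liftAddHom_apply, Finsupp.sum, AddMonoidHom.coe_mulRight,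
      Fermat.Agent.S24Res.deg_eq_one h, Nat.cast_one, mul_one]
  by_cases halg : IsAlgebraic K f
  · obtain ⟨c, rfl⟩ := exists_algebraMap_eq_of_isAlgebraic halg
    have hD0 : D = 0 := by
      ext v
      rw [hD, Fermat.Agent.S24Res.ord_algebraMap]
      rfl
    rw [hD0, map_zero]
  · have hy : Transcendental K f := halg
    have hsupp : D.support = (finite_zeros h hy 0).toFinset ∪ (finite_poles h hy).toFinset := by
      ext v
      simp only [Finsupp.mem_support_iff, Finset.mem_union, Set.Finite.mem_toFinset,
        Set.mem_setOf_eq, map_zero, sub_zero, hD]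
      omega
    have hdisj : Disjoint (finite_zeros h hy 0).toFinset (finite_poles h hy).toFinset := by
      rw [Finset.disjoint_left]
      intro v hv hv'
      simp only [Set.Finite.mem_toFinset, Set.mem_setOf_eq, map_zero, sub_zero] at hv hv'
      omega
    rw [hdeg, hsupp, Finset.sum_union hdisj]
    have hz : ∑ v ∈ (finite_zeros h hy 0).toFinset, v.ord f =
        (Module.finrank K⟮f⟯ F : ℤ) := by
      rw [← sum_ord_zeros h hy 0]
      exact Finset.sum_congr rfl fun v _ => by rw [map_zero, sub_zero]
    have hp := sum_ord_poles h hy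
    simp only [hD]
    rw [hz, hp]
    ring

end specific

end Fermat.Agent.S24Fund
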