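import Mathlib
import Fermat.Agent.S24.Differential
import Fermat.Agent.S24.Bridge

set_option autoImplicit false
set_option linter.style.haveILetI false
set_option linter.unusedSectionVars false

/-!
# S24, general theory: the derivation `d/dπ` preserves the valuation ring of a place
-/

noncomputable section

open KaehlerDifferential IntermediateField AlgebraicCurve Polynomial IsDedekindDomain

namespace Fermat.Agent.S24Diff

variable {K F : Type*} [Field K] [Field F] [Algebra K F]

/-- For any `g : F` some power of the uniformizer multiplies `g` into the valuation ring. -/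
theorem exists_pow_mul_mem (v : Place K F) (ϖ : v.toValuationSubring) (hϖ : Irreducible ϖ)
    (g : F) : ∃ N : ℕ, ∀ M : ℕ, N ≤ M → ((ϖ : F) ^ M) * g ∈ v.toValuationSubring := by
  rcases eq_or_ne g 0 with rfl | hg
  · exact ⟨0, fun M _ => by simp [v.toValuationSubring.zero_mem]⟩
  obtain ⟨u, hu⟩ := v.exists_unit_mul_zpow hg hϖ
  have hϖF : ((ϖ : v.toValuationSubring) : F) ≠ 0 := by
    simpa [ne_eq, ZeroMemClass.coe_eq_zero] using hϖ.ne_zero
  refine ⟨(-(v.ord g)).toNat, fun M hM => ?_⟩
  have hk : 0 ≤ (M : ℤ) + v.ord g := by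
    have := Int.self_le_toNat (-(v.ord g))
    omega
  obtain ⟨k, hk'⟩ := Int.eq_ofNat_of_zero_le hk
  have : ((ϖ : F) ^ M) * g = ((u : v.toValuationSubring) : F) * ((ϖ : F) ^ k) := by
    conv_lhs => rw [hu]
    rw [← zpow_natCast (ϖ : F) M, ← zpow_natCast (ϖ : F) k, ← hk', zpow_add₀ hϖF]
    ring
  rw [this]
  exact v.toValuationSubring.mul_mem _ _ (u : v.toValuationSubring).2
    (pow_mem ϖ.2 k)

section Uniform

variable [IsAlgClosed K] [CharZero K] {x : F}

theorem exists_uniform_pow (h : IsFunctionFieldOver K F x) (v : Place K F)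
    (ϖ : v.toValuationSubring) (hϖ : Irreducible ϖ) (δ : Derivation K F F)
    (hδ : δ (ϖ : F) = 1) :
    ∃ N : ℕ, ∀ f, f ∈ v.toValuationSubring → ((ϖ : F) ^ N) * δ f ∈ v.toValuationSubring := by
  have hπtr : Transcendental K (ϖ : F) :=
    transcendental_of_ord_ne_zero' v (by rw [v.ord_coe_irreducible hϖ]; exact one_ne_zero)
  have h' := h.of_transcendental hπtr
  letI := polyAlgebra K (ϖ : F)
  letI := ratFuncAlgebra (ϖ : F) hπtr
  haveI := polyAlgebra_isScalarTower (K := K) (ϖ : F)
  haveI := ratFuncAlgebra_isScalarTower_poly hπtr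
  haveI := ratFuncAlgebra_isScalarTower hπtr
  haveI : FiniteDimensional (RatFunc K) F := (finite_ratFunc_iff hπtr).mpr h'.finite
  haveI : Algebra.IsSeparable (RatFunc K) F := inferInstance
  haveI : IsDedekindDomain (integralClosure K[X] F) :=
    integralClosure.isDedekindDomain K[X] (RatFunc K) F
  haveI : IsFractionRing (integralClosure K[X] F) F :=
    integralClosure.isFractionRing_of_finite_extension (RatFunc K) F
  haveI : Module.Finite K[X] (integralClosure K[X] F) :=
    IsIntegralClosure.finite K[X] (RatFunc K) F (integralClosure K[X] F)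
  haveI : IsScalarTower K (integralClosure K[X] F) F := inferInstance
  -- polynomials in `ϖ` lie in the valuation ring
  have hR : ∀ p : K[X], algebraMap K[X] F p ∈ v.toValuationSubring := by
    intro p
    have : algebraMap K[X] F p = ((Polynomial.aeval ϖ p : v.toValuationSubring) : F) := by
      rw [polyAlgebra_algebraMap]
      exact (Polynomial.aeval_algebraMap_apply F ϖ p)
    rw [this]
    exact (Polynomial.aeval ϖ p : v.toValuationSubring).2
  have hB : ∀ b : integralClosure K[X] F,
      algebraMap (integralClosure K[X] F) F b ∈ v.toValuationSubring :=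
    fun b => Fermat.Agent.S24Bridge.mem_of_isIntegral v hR b.2
  obtain ⟨P, hP⟩ := Fermat.Agent.S24Bridge.exists_eq_ofHeightOneSpectrum v hB
  -- derivative of a polynomial in `ϖ`
  have hδR : ∀ p : K[X], δ (algebraMap K[X] F p) ∈ v.toValuationSubring := by
    intro p
    rw [polyAlgebra_algebraMap, Derivation.map_aeval, hδ, smul_eq_mul, mul_one]
    exact hR (Polynomial.derivative p)
  -- finitely many generators
  obtain ⟨S, hS⟩ := (Module.Finite.fg_top : (⊤ : Submodule K[X] (integralClosure K[X] F)).FG)
  choose Nf hNf using fun g : F => exists_pow_mul_mem v ϖ hϖ g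
  let N : ℕ := S.sup fun b => Nf (δ (b : F))
  have hgen : ∀ b ∈ S, ((ϖ : F) ^ N) * δ (b : F) ∈ v.toValuationSubring := fun b hb =>
    hNf _ N (Finset.le_sup (f := fun b : integralClosure K[X] F => Nf (δ (b : F))) hb)
  have hπN : ((ϖ : F) ^ N) ∈ v.toValuationSubring := pow_mem ϖ.2 N
  have hall : ∀ b : integralClosure K[X] F,
      ((ϖ : F) ^ N) * δ (b : F) ∈ v.toValuationSubring := by
    intro b
    have hb : b ∈ Submodule.span K[X] (S : Set (integralClosure K[X] F)) := by
      rw [hS]; trivial
    induction hb using Submodule.span_induction with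
    | mem b hb => exact hgen b hb
    | zero => simp [v.toValuationSubring.zero_mem]
    | add a b _ _ ha hb =>
      have : ((a + b : integralClosure K[X] F) : F) = (a : F) + (b : F) := rfl
      rw [this, map_add, mul_add]
      exact v.toValuationSubring.add_mem _ _ ha hb
    | smul p b _ hb =>
      have : ((p • b : integralClosure K[X] F) : F) = algebraMap K[X] F p * (b : F) := by
        rw [Algebra.smul_def]; rfl
      rw [this, Derivation.leibniz, smul_eq_mul, smul_eq_mul, mul_add]
      refine v.toValuationSubring.add_mem _ _ ?_ ?_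
      · have : (ϖ : F) ^ N * (algebraMap K[X] F p * δ (b : F))
            = algebraMap K[X] F p * ((ϖ : F) ^ N * δ (b : F)) := by ring
        rw [this]
        exact v.toValuationSubring.mul_mem _ _ (hR p) hb
      · exact v.toValuationSubring.mul_mem _ _ hπN
          (v.toValuationSubring.mul_mem _ _ (hB b) (hδR p))
  refine ⟨N, fun f hf => ?_⟩
  have hf' : f ∈ (Place.ofHeightOneSpectrum (K := K) (F := F) P).toValuationSubring := hP ▸ hf
  obtain ⟨b, s, hs, rfl⟩ := Fermat.Agent.S24Bridge.exists_div_of_mem P hf'
  have hsinv : (algebraMap (integralClosure K[X] F) F s)⁻¹ ∈ v.toValuationSubring := by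
    have h1 : (algebraMap (integralClosure K[X] F) F s)⁻¹ ∈
        (Place.ofHeightOneSpectrum (K := K) (F := F) P).toValuationSubring := by
      rw [Fermat.Agent.S24Bridge.mem_ofHeightOneSpectrum_iff, map_inv₀,
        HeightOneSpectrum.valuation_of_algebraMap,
        (HeightOneSpectrum.intValuation_eq_one_iff (v := P)).mpr hs, inv_one]
    exact hP ▸ h1
  rw [Derivation.leibniz_div, smul_eq_mul, smul_eq_mul, smul_eq_mul]
  have : (ϖ : F) ^ N * ((algebraMap (integralClosure K[X] F) F s)⁻¹ ^ 2 *
      (algebraMap (integralClosure K[X] F) F s * δ (algebraMap (integralClosure K[X] F) F b) -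
        algebraMap (integralClosure K[X] F) F b * δ (algebraMap (integralClosure K[X] F) F s)))
      = (algebraMap (integralClosure K[X] F) F s)⁻¹ ^ 2 *
        (algebraMap (integralClosure K[X] F) F s *
            ((ϖ : F) ^ N * δ (algebraMap (integralClosure K[X] F) F b)) -
          algebraMap (integralClosure K[X] F) F b *
            ((ϖ : F) ^ N * δ (algebraMap (integralClosure K[X] F) F s))) := by ring
  rw [this]
  exact v.toValuationSubring.mul_mem _ _ (pow_mem hsinv 2)
    (sub_mem (v.toValuationSubring.mul_mem _ _ (hB s) (hall b))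
      (v.toValuationSubring.mul_mem _ _ (hB b) (hall s)))

end Uniform

section Residue

variable [IsAlgClosed K] [CharZero K] {x : F}

/-- the residue field of a place is `K`: every element of the valuation ring is a constant
plus a multiple of the uniformizer. -/
theorem exists_residue (h : IsFunctionFieldOver K F x) (v : Place K F)
    (ϖ : v.toValuationSubring) (hϖ : Irreducible ϖ) :
    ∀ f, f ∈ v.toValuationSubring →
      ∃ a : K, ∃ g, g ∈ v.toValuationSubring ∧ f = algebraMap K F a + (ϖ : F) * g := by
  have hπtr : Transcendental K (ϖ : F) :=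
    transcendental_of_ord_ne_zero' v (by rw [v.ord_coe_irreducible hϖ]; exact one_ne_zero)
  have h' := h.of_transcendental hπtr
  letI := polyAlgebra K (ϖ : F)
  letI := ratFuncAlgebra (ϖ : F) hπtr
  haveI := polyAlgebra_isScalarTower (K := K) (ϖ : F)
  haveI := ratFuncAlgebra_isScalarTower_poly hπtr
  haveI := ratFuncAlgebra_isScalarTower hπtr
  haveI : FiniteDimensional (RatFunc K) F := (finite_ratFunc_iff hπtr).mpr h'.finite
  haveI : Algebra.IsSeparable (RatFunc K) F := inferInstance
  haveI : IsDedekindDomain (integralClosure K[X] F) :=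
    integralClosure.isDedekindDomain K[X] (RatFunc K) F
  haveI : IsFractionRing (integralClosure K[X] F) F :=
    integralClosure.isFractionRing_of_finite_extension (RatFunc K) F
  haveI : IsScalarTower K (integralClosure K[X] F) F := inferInstance
  have hR : ∀ p : K[X], algebraMap K[X] F p ∈ v.toValuationSubring := by
    intro p
    have : algebraMap K[X] F p = ((Polynomial.aeval ϖ p : v.toValuationSubring) : F) := by
      rw [polyAlgebra_algebraMap]
      exact (Polynomial.aeval_algebraMap_apply F ϖ p)
    rw [this]
    exact (Polynomial.aeval ϖ p : v.toValuationSubring).2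
  have hB : ∀ b : integralClosure K[X] F,
      algebraMap (integralClosure K[X] F) F b ∈ v.toValuationSubring :=
    fun b => Fermat.Agent.S24Bridge.mem_of_isIntegral v hR b.2
  obtain ⟨P, hP⟩ := Fermat.Agent.S24Bridge.exists_eq_ofHeightOneSpectrum v hB
  -- the ring hom `B → O_v → k_v`
  let incl : integralClosure K[X] F →+* v.toValuationSubring :=
    (algebraMap (integralClosure K[X] F) F).codRestrict v.toValuationSubring.toSubring hB
  let ρ : v.toValuationSubring →+* v.ResidueField := IsLocalRing.residue v.toValuationSubring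
  have hρϖ : ρ ϖ = 0 := by
    rw [IsLocalRing.residue_eq_zero_iff]
    exact hϖ.not_isUnit
  have hcomp : (algebraMap K v.ResidueField).comp (Polynomial.evalRingHom (0 : K))
      = (ρ.comp incl).comp (algebraMap K[X] (integralClosure K[X] F)) := by
    ext p
    · simp only [RingHom.coe_comp, Function.comp_apply, Polynomial.coe_evalRingHom,
        Polynomial.eval_C]
      have : incl (algebraMap K[X] (integralClosure K[X] F) (Polynomial.C p))
          = algebraMap K v.toValuationSubring p := by
        apply Subtype.ext
        show algebraMap K[X] F (Polynomial.C p) = algebraMap K F p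
        rw [polyAlgebra_algebraMap, Polynomial.aeval_C]
      rw [this]
      rfl
    · simp only [RingHom.coe_comp, Function.comp_apply, Polynomial.coe_evalRingHom,
        Polynomial.eval_X, map_zero]
      have : incl (algebraMap K[X] (integralClosure K[X] F) Polynomial.X) = ϖ := by
        apply Subtype.ext
        show algebraMap K[X] F Polynomial.X = (ϖ : F)
        rw [polyAlgebra_algebraMap, Polynomial.aeval_X]
      rw [this, hρϖ]
  have hintB : ∀ b : integralClosure K[X] F, IsAlgebraic K (ρ (incl b)) := fun b =>
    (IsIntegral.map_of_comp_eq (Polynomial.evalRingHom (0 : K)) (ρ.comp incl) hcomp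
      (integralClosure.isIntegral b)).isAlgebraic
  intro f hf
  have hf' : f ∈ (Place.ofHeightOneSpectrum (K := K) (F := F) P).toValuationSubring := hP ▸ hf
  obtain ⟨b, s, hs, hfbs⟩ := Fermat.Agent.S24Bridge.exists_div_of_mem P hf'
  have hs0 : algebraMap (integralClosure K[X] F) F s ≠ 0 := by
    intro h0
    apply hs
    have : s = 0 := (FaithfulSMul.algebraMap_injective (integralClosure K[X] F) F)
      (by rw [h0, map_zero])
    rw [this]; exact P.asIdeal.zero_mem
  have hsinv : (algebraMap (integralClosure K[X] F) F s)⁻¹ ∈ v.toValuationSubring := by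
    have h1 : (algebraMap (integralClosure K[X] F) F s)⁻¹ ∈
        (Place.ofHeightOneSpectrum (K := K) (F := F) P).toValuationSubring := by
      rw [Fermat.Agent.S24Bridge.mem_ofHeightOneSpectrum_iff, map_inv₀,
        HeightOneSpectrum.valuation_of_algebraMap,
        (HeightOneSpectrum.intValuation_eq_one_iff (v := P)).mpr hs, inv_one]
    exact hP ▸ h1
  -- `ρ f = ρ b / ρ s`
  have hmul : (⟨f, hf⟩ : v.toValuationSubring) * incl s = incl b := by
    apply Subtype.ext
    show f * algebraMap (integralClosure K[X] F) F s = algebraMap (integralClosure K[X] F) F b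
    rw [hfbs, div_mul_cancel₀ _ hs0]
  have hsunit : IsUnit (incl s) := by
    refine IsUnit.of_mul_eq_one (⟨_, hsinv⟩ : v.toValuationSubring) ?_
    apply Subtype.ext
    show algebraMap (integralClosure K[X] F) F s * (algebraMap (integralClosure K[X] F) F s)⁻¹ = 1
    exact mul_inv_cancel₀ hs0
  have hρs : ρ (incl s) ≠ 0 := (hsunit.map ρ).ne_zero
  have hρf : ρ ⟨f, hf⟩ = ρ (incl b) * (ρ (incl s))⁻¹ := by
    rw [← hmul, map_mul, mul_assoc, mul_inv_cancel₀ hρs, mul_one]
  have halg : IsAlgebraic K (ρ ⟨f, hf⟩) := by
    rw [hρf]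
    exact (hintB b).mul (hintB s).inv
  obtain ⟨a, ha⟩ := exists_algebraMap_eq_of_isAlgebraic halg
  have hmem : (⟨f, hf⟩ : v.toValuationSubring) - algebraMap K v.toValuationSubring a
      ∈ IsLocalRing.maximalIdeal v.toValuationSubring := by
    rw [← IsLocalRing.residue_eq_zero_iff, map_sub, sub_eq_zero]
    exact ha.symm
  rw [hϖ.maximalIdeal_eq, Ideal.mem_span_singleton'] at hmem
  obtain ⟨g, hg⟩ := hmem
  refine ⟨a, g, g.2, ?_⟩
  have h5 : (g : F) * (ϖ : F) = f - algebraMap K F a := congrArg (Subtype.val) hg
  have h2 : f = algebraMap K F a + (g : F) * (ϖ : F) := by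
    rw [h5]; ring
  rw [h2]; ring

end Residue

/-- bootstrap: a uniform bound on the pole order of `δ` on the valuation ring, together with
residue field `K`, gives that `δ` preserves the valuation ring. -/
theorem derivation_mem_of_residue (v : Place K F) (ϖ : v.toValuationSubring)
    (δ : Derivation K F F) (hδ : δ (ϖ : F) = 1)
    (hres : ∀ f, f ∈ v.toValuationSubring →
      ∃ a : K, ∃ g, g ∈ v.toValuationSubring ∧ f = algebraMap K F a + (ϖ : F) * g)
    (N : ℕ) (hN : ∀ f, f ∈ v.toValuationSubring → ((ϖ : F) ^ N) * δ f ∈ v.toValuationSubring) :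
    ∀ f, f ∈ v.toValuationSubring → δ f ∈ v.toValuationSubring := by
  induction N with
  | zero => intro f hf; simpa using hN f hf
  | succ N ih =>
    apply ih
    intro f hf
    obtain ⟨a, g, hg, rfl⟩ := hres f hf
    rw [map_add, Derivation.map_algebraMap, zero_add, Derivation.leibniz, hδ, smul_eq_mul,
      smul_eq_mul, mul_one, mul_add]
    refine v.toValuationSubring.add_mem _ _ ?_ ?_
    · have : (ϖ : F) ^ N * ((ϖ : F) * δ g) = (ϖ : F) ^ (N + 1) * δ g := by ring
      rw [this]
      exact hN g hg
    · exact v.toValuationSubring.mul_mem _ _ (pow_mem ϖ.2 N) hg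

end Fermat.Agent.S24Diff
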