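import Mathlib
import Fermat.Agent.S24.Differential

set_option autoImplicit false
set_option linter.style.haveILetI false
set_option linter.unusedSectionVars false

/-!
# S24, general theory: order of a differential `dy` at a place

For a place `v` of a function field `F / K` (`K` algebraically closed of characteristic zero):
`ord_v (dy) = ord_v (y - a) - 1` at a zero of `y - a`, and `ord_v (dy) = ord_v y - 1` at a pole.
-/

noncomputable section

open KaehlerDifferential IntermediateField AlgebraicCurve Polynomial

namespace Fermat.Agent.S24Diff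

variable {K F : Type*} [Field K] [Field F] [Algebra K F]

section Derivation

/-- The derivation `d/dπ : F → F` attached to a basis vector `D π` of `Ω[F/K]`. -/
def derivOf (π : F) (hne : KaehlerDifferential.D K F π ≠ 0)
    (hspan : Submodule.span F {KaehlerDifferential.D K F π} = ⊤) : Derivation K F F :=
  (((LinearEquiv.toSpanNonzeroSingleton F Ω[F⁄K] (KaehlerDifferential.D K F π) hne).trans
      (LinearEquiv.ofTop _ hspan)).symm.toLinearMap).compDer (KaehlerDifferential.D K F)

theorem derivOf_smul (π : F) (hne : KaehlerDifferential.D K F π ≠ 0)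
    (hspan : Submodule.span F {KaehlerDifferential.D K F π} = ⊤) (f : F) :
    derivOf π hne hspan f • KaehlerDifferential.D K F π = KaehlerDifferential.D K F f := by
  set e := (LinearEquiv.toSpanNonzeroSingleton F Ω[F⁄K] (KaehlerDifferential.D K F π) hne).trans
      (LinearEquiv.ofTop _ hspan) with he
  have h1 : derivOf π hne hspan f = e.symm (KaehlerDifferential.D K F f) := rfl
  have h2 : ∀ c : F, e c = c • KaehlerDifferential.D K F π := fun c => by
    rw [he]
    simp [LinearEquiv.toSpanNonzeroSingleton]
  rw [h1, ← h2, LinearEquiv.apply_symm_apply]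

theorem derivOf_self (π : F) (hne : KaehlerDifferential.D K F π ≠ 0)
    (hspan : Submodule.span F {KaehlerDifferential.D K F π} = ⊤) :
    derivOf π hne hspan π = 1 := by
  have h := derivOf_smul π hne hspan π
  have h' : (derivOf π hne hspan π - 1) • KaehlerDifferential.D K F π = 0 := by
    rw [sub_smul, h, one_smul, sub_self]
  rcases smul_eq_zero.mp h' with h0 | h0
  · exact sub_eq_zero.mp h0
  · exact absurd h0 hne

end Derivation

section Ord

variable [CharZero K]

/-- Key computation: if the derivation `δ` with `δ ϖ = 1` preserves the valuation ring then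
`ord (δ z) = ord z - 1` whenever `ord z ≠ 0`. -/
theorem ord_derivation_of_ord_ne_zero (v : Place K F) (ϖ : v.toValuationSubring)
    (hϖ : Irreducible ϖ) (δ : Derivation K F F) (hδ : δ (ϖ : F) = 1)
    (hint : ∀ f, f ∈ v.toValuationSubring → δ f ∈ v.toValuationSubring)
    {z : F} (hz : v.ord z ≠ 0) : v.ord (δ z) = v.ord z - 1 := by
  have hz0 : z ≠ 0 := by
    rintro rfl
    exact hz v.ord_zero
  obtain ⟨u, hu⟩ := v.exists_unit_mul_zpow hz0 hϖ
  set n := v.ord z with hn
  -- the element `w = ϖ * δ u + n * u` of the valuation ring
  let δu : v.toValuationSubring := ⟨δ ((u : v.toValuationSubring) : F), hint _ (u : v.toValuationSubring).2⟩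
  let w : v.toValuationSubring := ϖ * δu + (algebraMap K v.toValuationSubring (n : K)) * u
  have hnK : (n : K) ≠ 0 := by exact_mod_cast hz
  have hunit : IsUnit ((algebraMap K v.toValuationSubring (n : K)) * (u : v.toValuationSubring)) :=
    ((IsUnit.mk0 _ hnK).map (algebraMap K v.toValuationSubring)).mul u.isUnit
  have hw : IsUnit w := by
    rw [← IsLocalRing.notMem_maximalIdeal]
    intro hmem
    have h1 : ϖ * δu ∈ IsLocalRing.maximalIdeal v.toValuationSubring :=
      Ideal.mul_mem_right _ _ ((IsLocalRing.mem_maximalIdeal _).mpr hϖ.not_isUnit)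
    have h2 : (algebraMap K v.toValuationSubring (n : K)) * (u : v.toValuationSubring)
        ∈ IsLocalRing.maximalIdeal v.toValuationSubring := by
      have : (algebraMap K v.toValuationSubring (n : K)) * (u : v.toValuationSubring)
          = w - ϖ * δu := by simp [w]
      rw [this]
      exact Ideal.sub_mem _ hmem h1
    exact (IsLocalRing.mem_maximalIdeal _).mp h2 hunit
  have hϖF : ((ϖ : v.toValuationSubring) : F) ≠ 0 := by
    simpa [ne_eq, ZeroMemClass.coe_eq_zero] using hϖ.ne_zero
  have key : δ z = ((hw.unit : v.toValuationSubring) : F) * ((ϖ : F) ^ (n - 1)) := by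
    rw [hu, Derivation.leibniz, Derivation.leibniz_zpow, hδ]
    rw [IsUnit.unit_spec]
    simp only [w, δu, smul_eq_mul, mul_one, zsmul_eq_mul]
    push_cast
    have hpow : ((ϖ : v.toValuationSubring) : F) ^ n
        = ((ϖ : v.toValuationSubring) : F) ^ (n - 1) * (ϖ : F) := by
      rw [← zpow_add_one₀ hϖF]; ring_nf
    rw [hpow]
    have hcast : ((algebraMap K v.toValuationSubring (n : K) : v.toValuationSubring) : F)
        = (n : F) := by
      rw [Place.coe_algebraMap]; simp
    rw [hcast]
    ring
  rw [key, v.ord_unit_smul_zpow hw.unit hϖ (n - 1)]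

end Ord

end Fermat.Agent.S24Diff
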