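import Mathlib
import Fermat.Agent.S24.OrdDiff
import Fermat.Agent.S24.DerivInt

set_option autoImplicit false
set_option linter.style.haveILetI false
set_option linter.unusedSectionVars false

/-!
# S24, general theory (ALG-L): order of `dy` at a place of a function field

`K` algebraically closed of characteristic zero, `F / K` a function field in one variable
(`IsFunctionFieldOver K F x`).  For every place `v` and every `y : F`:

* `ordDifferential_D_of_pos` : at a zero of `y - a`,  `ord_v (dy) = ord_v (y - a) - 1`;
* `ordDifferential_D_of_neg` : at a pole of `y`,      `ord_v (dy) = ord_v y - 1`;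
* `derivation_mem` : a derivation `δ` with `δ ϖ = 1` (`ϖ` a uniformizer) preserves `O_v`;
* `exists_residue` (DerivInt.lean) : the residue field of `v` is `K`
  (see also `Residue.lean`: `deg_eq_one`, `exists_ord_sub_pos_or_neg`).
-/

noncomputable section

open KaehlerDifferential IntermediateField AlgebraicCurve Polynomial

namespace Fermat.Agent.S24Diff

variable {K F : Type*} [Field K] [Field F] [Algebra K F]
variable [IsAlgClosed K] [CharZero K] {x : F}

/-- a derivation `δ` with `δ ϖ = 1` preserves the valuation ring of the place. -/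
theorem derivation_mem (h : IsFunctionFieldOver K F x) (v : Place K F)
    (ϖ : v.toValuationSubring) (hϖ : Irreducible ϖ) (δ : Derivation K F F)
    (hδ : δ (ϖ : F) = 1) :
    ∀ f, f ∈ v.toValuationSubring → δ f ∈ v.toValuationSubring := by
  obtain ⟨N, hN⟩ := exists_uniform_pow h v ϖ hϖ δ hδ
  exact derivation_mem_of_residue v ϖ δ hδ (exists_residue h v ϖ hϖ) N hN

/-- the coordinate differential of the Prelude is `D ϖ` for a uniformizer `ϖ` -/
theorem exists_irreducible_dCoord_eq (v : Place K F) :
    ∃ ϖ : v.toValuationSubring, Irreducible ϖ ∧ v.dCoord = KaehlerDifferential.D K F (ϖ : F) :=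
  ⟨_, (IsDiscreteValuationRing.exists_irreducible v.toValuationSubring).choose_spec, rfl⟩

/-- `ord_v (dz) = ord_v z - 1` whenever `ord_v z ≠ 0`. -/
theorem ordDifferential_D_of_ord_ne_zero (h : IsFunctionFieldOver K F x) (v : Place K F)
    {z : F} (hz : v.ord z ≠ 0) :
    v.ordDifferential (KaehlerDifferential.D K F z) = v.ord z - 1 := by
  haveI := dCoordGenerates h v
  haveI := nontrivial_kaehler h
  obtain ⟨ϖ, hϖ, hd⟩ := exists_irreducible_dCoord_eq v
  have hπtr : Transcendental K (ϖ : F) :=
    transcendental_of_ord_ne_zero' v (by rw [v.ord_coe_irreducible hϖ]; exact one_ne_zero)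
  have hne := D_ne_zero h hπtr
  have hspan := span_D_eq_top h hπtr
  set δ := derivOf (ϖ : F) hne hspan with hδdef
  have hδ : δ (ϖ : F) = 1 := derivOf_self _ hne hspan
  have hcoeff : v.differentialCoeff (KaehlerDifferential.D K F z) = δ z := by
    apply v.differentialCoeff_unique
    rw [hd]
    exact (derivOf_smul _ hne hspan z).symm
  rw [Place.ordDifferential, hcoeff]
  exact ord_derivation_of_ord_ne_zero v ϖ hϖ δ hδ (derivation_mem h v ϖ hϖ δ hδ) hz

/-- zero of `y - a` of order `e ≥ 1` at `v`: `ord_v (dy) = e - 1`. -/
theorem ordDifferential_D_of_pos (h : IsFunctionFieldOver K F x) (v : Place K F) (y : F) (a : K)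
    (hpos : 0 < v.ord (y - algebraMap K F a)) :
    v.ordDifferential (KaehlerDifferential.D K F y) = v.ord (y - algebraMap K F a) - 1 := by
  have := ordDifferential_D_of_ord_ne_zero h v (z := y - algebraMap K F a) hpos.ne'
  rwa [map_sub, Derivation.map_algebraMap, sub_zero] at this

/-- pole of `y` of order `e ≥ 1` at `v`: `ord_v (dy) = -e - 1`. -/
theorem ordDifferential_D_of_neg (h : IsFunctionFieldOver K F x) (v : Place K F) (y : F)
    (hneg : v.ord y < 0) :
    v.ordDifferential (KaehlerDifferential.D K F y) = v.ord y - 1 :=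
  ordDifferential_D_of_ord_ne_zero h v hneg.ne

end Fermat.Agent.S24Diff
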