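import Mathlib
import Fermat.Agent.S24.RiemannHurwitz
import Fermat.Agent.S24.FundId

set_option autoImplicit false
set_option linter.style.haveILetI false
set_option linter.unusedSectionVars false

/-!
# S24, ALG-H: `degree_canonical_of_counts`

Riemann-Hurwitz for `F / K(j)` in terms of the number of places in the fibres of `j`
(same statement as the stub in `AlgTargets.lean`).
-/

noncomputable section

open KaehlerDifferential IntermediateField AlgebraicCurve Polynomial

namespace Fermat.Agent.S24Diff

open Fermat.Agent.S24Res Fermat.Agent.S24Fund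

variable {K F : Type*} [Field K] [Field F] [Algebra K F]
variable [IsAlgClosed K] [CharZero K]

/-- the class `HasPrincipalDivisors` of the Prelude holds for function fields in one variable. -/
theorem exists_principal_divisor' {x : F} (h : IsFunctionFieldOver K F x) (f : F) (hf : f ≠ 0) :
    ∃ D : Divisor K F, (∀ v : Place K F, D v = v.ord f) ∧ Divisor.degree D = 0 := by
  have hz : ∀ y : F, Transcendental K y → {v : Place K F | 0 < v.ord y}.Finite := by
    intro y hy
    have := finite_zeros h hy 0
    simpa using this
  refine exists_principal_divisor h hz (fun y hy => finite_poles h hy) ?_ f hf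
  intro y hy
  have h1 := sum_ord_zeros h hy 0
  have h2 := sum_ord_poles h hy
  have h3 : ∑ v ∈ (hz y hy).toFinset, v.ord y
      = ∑ v ∈ (finite_zeros h hy 0).toFinset, v.ord (y - algebraMap K F 0) := by
    refine Finset.sum_congr ?_ (fun v _ => by simp)
    ext v
    simp
  rw [h3, h1, h2]
  ring

theorem hasPrincipalDivisors {x : F} (h : IsFunctionFieldOver K F x) :
    HasPrincipalDivisors K F :=
  ⟨fun f hf => exists_principal_divisor' h f hf⟩

/-- (H) Riemann-Hurwitz for `F / K(j)` in terms of the number of places in the fibres. -/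
theorem degree_canonical_of_counts'
    (j : F) (hjtr : Transcendental K j) (hfin : FiniteDimensional K⟮j⟯ F)
    (S : Finset K) (n : K → ℕ) (ninf : ℕ)
    (hn : ∀ c ∈ S, Nat.card {v : Place K F // 0 < v.ord (j - algebraMap K F c)} = n c)
    (hgen : ∀ c, c ∉ S →
      Nat.card {v : Place K F // 0 < v.ord (j - algebraMap K F c)} = Module.finrank K⟮j⟯ F)
    (hinf : Nat.card {v : Place K F // v.ord j < 0} = ninf)
    (ω : Ω[F⁄K]) (hω : ω ≠ 0) (Dv : Divisor K F)
    (hDv : ∀ v : Place K F, Dv v = v.ordDifferential ω) :
    Divisor.degree Dv =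
      ∑ c ∈ S, ((Module.finrank K⟮j⟯ F : ℤ) - n c) - Module.finrank K⟮j⟯ F - ninf := by
  have h : IsFunctionFieldOver K F j := ⟨hjtr, hfin⟩
  exact degree_canonical_core h (exists_principal_divisor' h)
    (fun a => finite_zeros h hjtr a) (fun a => sum_ord_zeros h hjtr a)
    (finite_poles h hjtr) (sum_ord_poles h hjtr) S n ninf hn hgen hinf ω hω Dv hDv

end Fermat.Agent.S24Diff
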