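/-
S24, analytic half: the common DEFINITIONS (helper84).  Everybody working on the analytic half
proves theorems about exactly these objects.  See the S24 blueprint note on the board.

* `Kbar = AlgebraicClosure ℚ`, `iota : Kbar →+* ℂ` a fixed embedding.
* `Fun` = all functions `ℍ → ℂ`, a `Kbar`-algebra through `iota`, with `SL(2,ℤ)` acting by
  `(γ • f) τ = f (γ⁻¹ • τ)`.
* `jFun = E₄³ / Δ` (so the Prelude's formal `jq` is its `q`-expansion), `jd d τ = jFun (d τ)`.
* `AL M` = the `Kbar`-subalgebra of `Fun` generated by all `γ • jd d`, `d ∣ M`, `γ ∈ SL(2,ℤ)`.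
* `LL M` = its field of fractions, with the induced action of `SL(2,ℤ)`.
-/
import Mathlib
import Fermat.Prelude.Def_ModularCurve_ArithmeticGalois

set_option autoImplicit false

noncomputable section

namespace Fermat.Agent.S24

open UpperHalfPlane
open scoped MatrixGroups

/-- The field of constants. -/
abbrev Kbar : Type := AlgebraicClosure ℚ

/-- The fixed embedding of `ℚ̄` in `ℂ`. -/
def iota : Kbar →+* ℂ :=
  haveI : Algebra.IsAlgebraic ℚ Kbar := AlgebraicClosure.isAlgebraic ℚ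
  (IsAlgClosed.lift (R := ℚ) (S := Kbar) (M := ℂ) : Kbar →ₐ[ℚ] ℂ).toRingHom

/-- All functions on the upper half plane (a type synonym carrying our instances). -/
def Fun : Type := ℍ → ℂ

instance : CommRing Fun := inferInstanceAs (CommRing (ℍ → ℂ))

instance : FunLike Fun ℍ ℂ where
  coe f := f
  coe_injective _ _ h := h

@[ext] theorem Fun.ext {f g : Fun} (h : ∀ τ : ℍ, f τ = g τ) : f = g := funext h

@[simp] theorem Fun.add_apply (f g : Fun) (τ : ℍ) : (f + g) τ = f τ + g τ := rfl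
@[simp] theorem Fun.mul_apply (f g : Fun) (τ : ℍ) : (f * g) τ = f τ * g τ := rfl
@[simp] theorem Fun.sub_apply (f g : Fun) (τ : ℍ) : (f - g) τ = f τ - g τ := rfl
@[simp] theorem Fun.neg_apply (f : Fun) (τ : ℍ) : (-f) τ = -f τ := rfl
@[simp] theorem Fun.zero_apply (τ : ℍ) : (0 : Fun) τ = 0 := rfl
@[simp] theorem Fun.one_apply (τ : ℍ) : (1 : Fun) τ = 1 := rfl
@[simp] theorem Fun.pow_apply (f : Fun) (n : ℕ) (τ : ℍ) : (f ^ n) τ = f τ ^ n := rfl

/-- Constants, through `iota`. -/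
def constHom : Kbar →+* Fun where
  toFun a := fun _ => iota a
  map_one' := by ext; simp
  map_mul' a b := by ext τ; exact map_mul iota a b
  map_zero' := by ext; simp
  map_add' a b := by ext τ; exact map_add iota a b

instance : Algebra Kbar Fun := constHom.toAlgebra

@[simp] theorem Fun.algebraMap_apply (a : Kbar) (τ : ℍ) : (algebraMap Kbar Fun a) τ = iota a := rfl

@[simp] theorem Fun.smul_apply (a : Kbar) (f : Fun) (τ : ℍ) : (a • f) τ = iota a * f τ := by
  rw [Algebra.smul_def]; rfl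

/-- `SL(2,ℤ)` acts on functions by `(γ • f) τ = f (γ⁻¹ • τ)`. -/
instance : MulSemiringAction SL(2, ℤ) Fun where
  smul γ f := fun τ => f (γ⁻¹ • τ)
  one_smul f := by
    ext τ
    show f ((1 : SL(2, ℤ))⁻¹ • τ) = f τ
    rw [inv_one, one_smul]
  mul_smul γ γ' f := by
    ext τ
    show f ((γ * γ')⁻¹ • τ) = f (γ'⁻¹ • γ⁻¹ • τ)
    rw [mul_inv_rev, mul_smul]
  smul_zero γ := rfl
  smul_add γ f g := rfl
  smul_one γ := rfl
  smul_mul γ f g := rfl

@[simp] theorem Fun.sl_smul_apply (γ : SL(2, ℤ)) (f : Fun) (τ : ℍ) : (γ • f) τ = f (γ⁻¹ • τ) := rfl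

instance : SMulCommClass SL(2, ℤ) Kbar Fun where
  smul_comm γ a f := by
    ext τ
    simp

/-- The analytic `j`-function `E₄³ / Δ`. -/
def jFun : Fun := fun τ => ModularForm.E₄ τ ^ 3 / ModularForm.discriminant τ

/-- `τ ↦ d τ` on the upper half plane. -/
def scale (d : ℕ) [NeZero d] (τ : ℍ) : ℍ :=
  ⟨(d : ℂ) * (τ : ℂ), by
    have hd : (0 : ℝ) < d := Nat.cast_pos.mpr (Nat.pos_of_ne_zero (NeZero.ne d))
    have : ((d : ℂ) * (τ : ℂ)).im = d * τ.im := by simp
    rw [this]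
    exact mul_pos hd τ.im_pos⟩

@[simp] theorem coe_scale (d : ℕ) [NeZero d] (τ : ℍ) : (scale d τ : ℂ) = (d : ℂ) * (τ : ℂ) := rfl

/-- `j_d(τ) = j(d τ)`. -/
def jd (d : ℕ) [NeZero d] : Fun := fun τ => jFun (scale d τ)

/-- The generators of level `M`: all `γ • j_d`, `d ∣ M`, `γ ∈ SL(2,ℤ)`. -/
def gens (M : ℕ) : Set Fun :=
  {f | ∃ (d : ℕ) (_ : NeZero d), d ∣ M ∧ ∃ γ : SL(2, ℤ), f = γ • jd d}

theorem smul_mem_gens (M : ℕ) (γ : SL(2, ℤ)) {f : Fun} (hf : f ∈ gens M) : γ • f ∈ gens M := by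
  obtain ⟨d, hd, hdM, γ', rfl⟩ := hf
  exact ⟨d, hd, hdM, γ * γ', (mul_smul γ γ' _).symm⟩

/-- The `Kbar`-algebra generated by the `γ • j_d`, `d ∣ M`. -/
def AL (M : ℕ) : Subalgebra Kbar Fun := Algebra.adjoin Kbar (gens M)

theorem jd_mem_AL {M d : ℕ} [NeZero d] (hd : d ∣ M) : jd d ∈ AL M :=
  Algebra.subset_adjoin ⟨d, ‹_›, hd, 1, (one_smul _ _).symm⟩

theorem smul_mem_AL (M : ℕ) (γ : SL(2, ℤ)) {f : Fun} (hf : f ∈ AL M) : γ • f ∈ AL M := by
  induction hf using Algebra.adjoin_induction with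
  | mem x hx => exact Algebra.subset_adjoin (smul_mem_gens M γ hx)
  | algebraMap a =>
      have : γ • (algebraMap Kbar Fun a) = algebraMap Kbar Fun a := by ext τ; simp
      rw [this]; exact Subalgebra.algebraMap_mem _ a
  | add x y _ _ hx hy => rw [smul_add]; exact add_mem hx hy
  | mul x y _ _ hx hy => rw [smul_mul']; exact mul_mem hx hy

instance (M : ℕ) : MulSemiringAction SL(2, ℤ) (AL M) where
  smul γ f := ⟨γ • (f : Fun), smul_mem_AL M γ f.2⟩
  one_smul f := Subtype.ext (one_smul _ _)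
  mul_smul γ γ' f := Subtype.ext (mul_smul _ _ _)
  smul_zero γ := Subtype.ext (smul_zero _)
  smul_add γ f g := Subtype.ext (smul_add _ _ _)
  smul_one γ := Subtype.ext (smul_one _)
  smul_mul γ f g := Subtype.ext (smul_mul' _ _ _)

@[simp] theorem AL.coe_smul (M : ℕ) (γ : SL(2, ℤ)) (f : AL M) :
    ((γ • f : AL M) : Fun) = γ • (f : Fun) := rfl

instance (M : ℕ) : SMulCommClass SL(2, ℤ) Kbar (AL M) where
  smul_comm γ a f := Subtype.ext (smul_comm γ a (f : Fun))

end Fermat.Agent.S24
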