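/-
S24, AN-J, auxiliary analysis (helper54): Taylor coefficients of the Euler product
`∏ (1 - q^(n+1))` are the coefficients of the formal product `ModularCurve.etaProd`.
-/
import Mathlib
import Fermat.Prelude.Def_ModularCurve_X0

set_option autoImplicit false

namespace Fermat.Agent.S24JFun

open Filter Topology Set Function Complex

/-- Taylor coefficients are continuous for locally uniform convergence of holomorphic functions. -/
theorem tendstoLocallyUniformlyOn_iteratedDeriv {ι : Type*} {φ : Filter ι} [φ.NeBot]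
    {U : Set ℂ} (hU : IsOpen U) {F : ι → ℂ → ℂ} {f : ℂ → ℂ}
    (hf : TendstoLocallyUniformlyOn F f φ U) (hF : ∀ᶠ i in φ, DifferentiableOn ℂ (F i) U)
    (m : ℕ) :
    TendstoLocallyUniformlyOn (fun i => iteratedDeriv m (F i)) (iteratedDeriv m f) φ U ∧
      ∀ᶠ i in φ, DifferentiableOn ℂ (iteratedDeriv m (F i)) U := by
  induction m with
  | zero =>
    simp only [iteratedDeriv_zero]
    exact ⟨hf, hF⟩
  | succ m ih =>
    obtain ⟨h1, h2⟩ := ih
    refine ⟨?_, ?_⟩
    · have := h1.deriv h2 hU
      simp only [iteratedDeriv_succ]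
      exact this
    · filter_upwards [h2] with i hi
      rw [iteratedDeriv_succ]
      exact hi.deriv hU

theorem tendsto_iteratedDeriv {ι : Type*} {φ : Filter ι} [φ.NeBot]
    {U : Set ℂ} (hU : IsOpen U) {F : ι → ℂ → ℂ} {f : ℂ → ℂ}
    (hf : TendstoLocallyUniformlyOn F f φ U) (hF : ∀ᶠ i in φ, DifferentiableOn ℂ (F i) U)
    (m : ℕ) {z : ℂ} (hz : z ∈ U) :
    Tendsto (fun i => iteratedDeriv m (F i) z) φ (𝓝 (iteratedDeriv m f z)) :=
  (tendstoLocallyUniformlyOn_iteratedDeriv hU hf hF m).1.tendsto_at hz

/-- Iterated derivatives of a polynomial function. -/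
theorem iteratedDeriv_polynomial (p : Polynomial ℂ) (m : ℕ) :
    iteratedDeriv m (fun x => p.eval x) = fun x => (Polynomial.derivative^[m] p).eval x := by
  induction m generalizing p with
  | zero => simp
  | succ m ih =>
    rw [iteratedDeriv_succ', Function.iterate_succ_apply]
    have : deriv (fun x => p.eval x) = fun x => (Polynomial.derivative p).eval x := by
      ext x
      exact Polynomial.deriv p
    rw [this, ih]

/-- Taylor coefficients of a polynomial function at `0`. -/
theorem iteratedDeriv_polynomial_zero (p : Polynomial ℂ) (m : ℕ) :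
    iteratedDeriv m (fun x => p.eval x) 0 = (m.factorial : ℂ) * p.coeff m := by
  rw [iteratedDeriv_polynomial]
  simp only
  rw [← Polynomial.coeff_zero_eq_eval_zero, Polynomial.coeff_iterate_derivative]
  simp [Nat.descFactorial_self]


/-! ### The Euler product -/

/-- The analytic Euler product `∏ (1 - q^(n+1))`. -/
noncomputable def eulerFun (q : ℂ) : ℂ := ∏' n : ℕ, (1 - q ^ (n + 1))

/-- The partial products, as polynomials. -/
noncomputable def partialPoly (s : Finset ℕ) : Polynomial ℂ :=
  ∏ n ∈ s, (1 - Polynomial.X ^ (n + 1))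

theorem eval_partialPoly (s : Finset ℕ) (q : ℂ) :
    (partialPoly s).eval q = ∏ n ∈ s, (1 - q ^ (n + 1)) := by
  simp [partialPoly, Polynomial.eval_prod]

theorem coeff_partialPoly (s : Finset ℕ) (m : ℕ) :
    (partialPoly s).coeff m =
      ((PowerSeries.coeff m (∏ n ∈ s, (1 - PowerSeries.X ^ (n + 1)) : PowerSeries ℤ) : ℤ) : ℂ) := by
  have h1 : partialPoly s
      = (∏ n ∈ s, (1 - Polynomial.X ^ (n + 1)) : Polynomial ℤ).map (Int.castRingHom ℂ) := by
    simp [partialPoly, Polynomial.map_prod]
  have h2 : ((∏ n ∈ s, (1 - Polynomial.X ^ (n + 1)) : Polynomial ℤ) : PowerSeries ℤ)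
      = ∏ n ∈ s, (1 - PowerSeries.X ^ (n + 1)) := by
    rw [← Polynomial.coeToPowerSeries.ringHom_apply, map_prod]
    refine Finset.prod_congr rfl fun n _ => ?_
    simp
  rw [h1, Polynomial.coeff_map, ← h2, Polynomial.coeff_coe]
  simp

theorem tendsto_iteratedDeriv_partial (m : ℕ) :
    Tendsto (fun s : Finset ℕ => iteratedDeriv m (fun q => (partialPoly s).eval q) 0) atTop
      (𝓝 (iteratedDeriv m eulerFun 0)) := by
  have h := ModularForm.multipliableLocallyUniformlyOn_one_sub_pow.hasProdLocallyUniformlyOn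
  rw [hasProdLocallyUniformlyOn_iff_tendstoLocallyUniformlyOn] at h
  have h' : TendstoLocallyUniformlyOn (fun (s : Finset ℕ) (q : ℂ) => (partialPoly s).eval q)
      eulerFun atTop (Metric.ball (0 : ℂ) 1) := by
    refine h.congr ?_
    intro s q _
    simp [eval_partialPoly]
  exact tendsto_iteratedDeriv Metric.isOpen_ball h'
    (Eventually.of_forall fun s => (Polynomial.differentiable _).differentiableOn) m
    (Metric.mem_ball_self one_pos)

open scoped PowerSeries.WithPiTopology in
theorem tendsto_coeff_partial (m : ℕ) :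
    Tendsto (fun s : Finset ℕ =>
        ((PowerSeries.coeff m (∏ n ∈ s, (1 - PowerSeries.X ^ (n + 1)) : PowerSeries ℤ) : ℤ) : ℂ))
      atTop (𝓝 ((PowerSeries.coeff m ModularCurve.etaProd : ℤ) : ℂ)) := by
  have h : HasProd (fun n : ℕ => (1 : PowerSeries ℤ) - PowerSeries.X ^ (n + 1))
      ModularCurve.etaProd :=
    (PowerSeries.WithPiTopology.multipliable_one_sub_X_pow ℤ).hasProd
  have h1 := ((PowerSeries.WithPiTopology.continuous_coeff ℤ m).tendsto _).comp h
  have h2 : Continuous (fun k : ℤ => (k : ℂ)) := continuous_of_discreteTopology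
  exact (h2.tendsto _).comp h1

/-- Taylor coefficients of the Euler product. -/
theorem iteratedDeriv_eulerFun_zero (m : ℕ) :
    iteratedDeriv m eulerFun 0
      = (m.factorial : ℂ) * ((PowerSeries.coeff m ModularCurve.etaProd : ℤ) : ℂ) := by
  have h1 := tendsto_iteratedDeriv_partial m
  have h2 : Tendsto (fun s : Finset ℕ => iteratedDeriv m (fun q => (partialPoly s).eval q) 0)
      atTop (𝓝 ((m.factorial : ℂ) * ((PowerSeries.coeff m ModularCurve.etaProd : ℤ) : ℂ))) := by
    have := (tendsto_coeff_partial m).const_mul (m.factorial : ℂ)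
    refine this.congr fun s => ?_
    rw [iteratedDeriv_polynomial_zero, coeff_partialPoly]
  exact tendsto_nhds_unique h1 h2

theorem differentiableOn_eulerFun : DifferentiableOn ℂ eulerFun (Metric.ball (0 : ℂ) 1) :=
  ModularForm.differentiableOn_tprod_one_sub_pow

theorem eulerFun_zero : eulerFun 0 = 1 := by
  simp [eulerFun]

theorem eulerFun_ne_zero {q : ℂ} (hq : ‖q‖ < 1) : eulerFun q ≠ 0 := by
  unfold eulerFun
  refine tprod_one_add_ne_zero_of_summable (f := fun n => -q ^ (n + 1)) ?_ ?_ |> fun h => by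
    simpa [sub_eq_add_neg] using h
  · intro n
    have : ‖q ^ (n + 1)‖ < 1 := by
      rw [norm_pow]
      exact pow_lt_one₀ (norm_nonneg _) hq (Nat.succ_ne_zero n)
    intro h0
    have h1 : q ^ (n + 1) = 1 := by
      have := eq_neg_of_add_eq_zero_left h0
      simpa using this.symm
    rw [h1, norm_one] at this
    exact lt_irrefl _ this
  · simpa using (summable_nat_add_iff 1).mpr (summable_geometric_of_lt_one (norm_nonneg _) hq)

end Fermat.Agent.S24JFun
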