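/-
S24, AN-J, auxiliary analysis (helper54), part 2: the function `τ ↦ j(τ) · q` is `1`-periodic,
holomorphic, bounded at `i∞`, and its `q`-expansion is `ModularCurve.jNum`.
-/
import Mathlib
import Fermat.Prelude.Def_ModularCurve_X0
import Fermat.Agent.S23.ConverseQExp
import Fermat.Agent.S24.JFunAux

set_option autoImplicit false

namespace Fermat.Agent.S24JFun

open Filter Topology Set Function Complex UpperHalfPlane ModularForm
open Fermat.Agent.S23Converse
open scoped Manifold MatrixGroups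

local notation "𝕢" => Periodic.qParam

/-- The Euler product as a function on the upper half plane. -/
noncomputable def eulerH (τ : ℍ) : ℂ := eulerFun (𝕢 1 τ)

theorem eulerH_ne_zero (τ : ℍ) : eulerH τ ≠ 0 :=
  eulerFun_ne_zero (Periodic.norm_qParam_lt_one one_pos τ.im_pos)

theorem hasSum_eulerFun {q : ℂ} (hq : ‖q‖ < 1) :
    HasSum (fun m : ℕ => ((PowerSeries.coeff m ModularCurve.etaProd : ℤ) : ℂ) • q ^ m)
      (eulerFun q) := by
  have h := Complex.hasSum_taylorSeries_on_ball differentiableOn_eulerFun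
    (show q ∈ Metric.ball (0 : ℂ) 1 by simpa using hq)
  have e : (fun m : ℕ => ((PowerSeries.coeff m ModularCurve.etaProd : ℤ) : ℂ) • q ^ m)
      = fun n : ℕ => ((n.factorial : ℂ))⁻¹ • (q - 0) ^ n • iteratedDeriv n eulerFun 0 := by
    funext m
    rw [iteratedDeriv_eulerFun_zero, sub_zero, smul_eq_mul, smul_eq_mul, smul_eq_mul]
    have : (m.factorial : ℂ) ≠ 0 := by exact_mod_cast m.factorial_ne_zero
    field_simp
  rw [e]
  exact h

theorem hasSum_eulerH (τ : ℍ) :
    HasSum (fun m : ℕ => ((PowerSeries.coeff m ModularCurve.etaProd : ℤ) : ℂ) • 𝕢 1 τ ^ m)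
      (eulerH τ) :=
  hasSum_eulerFun (Periodic.norm_qParam_lt_one one_pos τ.im_pos)

theorem qParam_add_one (w : ℂ) : 𝕢 1 (w + 1) = 𝕢 1 w := by
  simp only [Periodic.qParam, ofReal_one, div_one]
  rw [mul_add, mul_one, Complex.exp_add, Complex.exp_two_pi_mul_I, mul_one]

theorem isGood_eulerH : IsGood eulerH where
  periodic := by
    intro w
    have e1 : (w + ((1 : ℝ) : ℂ)) = w + 1 := by simp
    rw [e1]
    by_cases hw : 0 < im w
    · have hw1 : 0 < im (w + 1) := by simpa using hw
      simp only [comp_apply, ofComplex_apply_of_im_pos hw1, ofComplex_apply_of_im_pos hw, eulerH]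
      congr 1
      exact qParam_add_one w
    · have hw' : im w ≤ 0 := not_lt.mp hw
      have hw1 : im (w + 1) ≤ 0 := by simpa using hw'
      simp only [comp_apply, ofComplex_apply_of_im_nonpos hw1, ofComplex_apply_of_im_nonpos hw']
  holo := by
    rw [UpperHalfPlane.mdifferentiable_iff]
    have h1 : DifferentiableOn ℂ (eulerFun ∘ (𝕢 1)) upperHalfPlaneSet := by
      refine differentiableOn_eulerFun.comp (Periodic.differentiable_qParam).differentiableOn ?_
      intro z hz
      simpa using Periodic.norm_qParam_lt_one one_pos (show 0 < z.im from hz)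
    refine h1.congr fun z hz => ?_
    simp [eulerH, ofComplex_apply_of_im_pos hz]
  bdd := isBoundedAtImInfty_of_hasSum_qExpansion one_pos hasSum_eulerH

/-- Uniqueness of `q`-expansion coefficients, for plain functions. -/
theorem qExpansion_coeff_unique_fun {f : ℍ → ℂ} {c : ℕ → ℂ}
    (hfanalytic : AnalyticAt ℂ (cuspFunction 1 f) 0)
    (hf : ∀ τ : ℍ, HasSum (fun m => c m • 𝕢 1 τ ^ m) (f τ)) (m : ℕ) :
    (qExpansion 1 f).coeff m = c m := by
  have h1 := (hasFPowerSeriesOnBall_cuspFunction one_pos hfanalytic hf).hasFPowerSeriesAt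
  have h2 := hfanalytic.hasFPowerSeriesAt
  have h3 := congr_arg (FormalMultilinearSeries.coeff · m) (h1.eq_formalMultilinearSeries h2)
  simp only [FormalMultilinearSeries.coeff_ofScalars] at h3
  rw [qExpansion_coeff, h3]
  field_simp

theorem qExpansion_eulerH :
    qExpansion 1 eulerH = PowerSeries.map (Int.castRingHom ℂ) ModularCurve.etaProd := by
  ext m
  rw [qExpansion_coeff_unique_fun isGood_eulerH.analyticAt hasSum_eulerH m, PowerSeries.coeff_map]
  simp

theorem qExpansion_E₄ :
    qExpansion 1 (E₄ : ℍ → ℂ) = PowerSeries.map (Int.castRingHom ℂ) ModularCurve.eisenstein4 := by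
  ext m
  rw [PowerSeries.coeff_map, EisensteinSeries.E_qExpansion_coeff _ ⟨2, rfl⟩,
    ModularCurve.eisenstein4, PowerSeries.coeff_mk]
  by_cases h : m = 0
  · simp [h]
  · simp only [h, if_false]
    rw [ArithmeticFunction.sigma_apply]
    norm_num [show bernoulli 4 = -1 / 30 by decide +kernel]

theorem isGood_E₄ : IsGood (E₄ : ℍ → ℂ) :=
  isGood_of_modularFormClass (Γ := 𝒮ℒ) (by simp) E₄

/-- `Δ = q · (Euler product)^24`. -/
theorem discriminant_eq_q_mul_eulerH (τ : ℍ) : ModularForm.discriminant τ = 𝕢 1 τ * eulerH τ ^ 24 := by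
  rw [discriminant_eq_q_prod, eulerH, eulerFun]
  congr 1
  rw [Multipliable.tprod_pow]
  exact multipliable_one_sub_pow (Periodic.norm_qParam_lt_one one_pos τ.im_pos)

/-- The function `τ ↦ j(τ) · q(τ)`. -/
noncomputable def jq0 (τ : ℍ) : ℂ := E₄ τ ^ 3 / ModularForm.discriminant τ * 𝕢 1 τ

theorem jq0_eq (τ : ℍ) : jq0 τ = E₄ τ ^ 3 / eulerH τ ^ 24 := by
  rw [jq0, discriminant_eq_q_mul_eulerH]
  have h1 : 𝕢 1 (τ : ℂ) ≠ 0 := Periodic.qParam_ne_zero _
  have h2 := eulerH_ne_zero τ
  field_simp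

theorem jq0_mul (τ : ℍ) : jq0 τ * eulerH τ ^ 24 = E₄ τ ^ 3 := by
  rw [jq0_eq]
  have h2 := eulerH_ne_zero τ
  field_simp


theorem tendsto_eulerH : Tendsto eulerH atImInfty (𝓝 1) := by
  have h0 : ContinuousAt eulerFun 0 :=
    (differentiableOn_eulerFun.differentiableAt
      (Metric.ball_mem_nhds 0 one_pos)).continuousAt
  have h1 : Tendsto eulerFun (𝓝 0) (𝓝 1) := by
    have := h0.tendsto
    rwa [eulerFun_zero] at this
  exact h1.comp (qParam_tendsto_atImInfty one_pos)

/-- The inverse of the 24-th power of the Euler product. -/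
noncomputable def invEuler (τ : ℍ) : ℂ := (eulerH τ ^ 24)⁻¹

theorem isGood_invEuler : IsGood invEuler where
  periodic := by
    intro w
    have := isGood_eulerH.periodic w
    simp only [comp_apply, invEuler] at this ⊢
    rw [this]
  holo := by
    have h := isGood_eulerH.holo
    rw [UpperHalfPlane.mdifferentiable_iff] at h ⊢
    have h2 : DifferentiableOn ℂ (fun z => ((eulerH ∘ ofComplex) z ^ 24)⁻¹) upperHalfPlaneSet := by
      refine (h.pow 24).inv ?_
      intro z _
      exact pow_ne_zero _ (eulerH_ne_zero _)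
    exact h2
  bdd := by
    have h : Tendsto invEuler atImInfty (𝓝 1) := by
      have := (tendsto_eulerH.pow 24).inv₀ (by simp)
      simp only [one_pow, inv_one] at this
      exact this
    exact h.isBigO_one ℝ

theorem jq0_eq_mul : jq0 = (E₄ : ℍ → ℂ) ^ 3 * invEuler := by
  funext τ
  rw [jq0_eq]
  simp [invEuler, div_eq_mul_inv]

theorem isGood_jq0 : IsGood jq0 := by
  rw [jq0_eq_mul]
  exact (isGood_E₄.pow 3).mul isGood_invEuler

theorem jq0_mul_fun : jq0 * eulerH ^ 24 = (E₄ : ℍ → ℂ) ^ 3 := by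
  funext τ
  exact jq0_mul τ

/-- The `q`-expansion of `j · q` is the formal series `jNum`. -/
theorem qExpansion_jq0 :
    qExpansion 1 jq0 = PowerSeries.map (Int.castRingHom ℂ) ModularCurve.jNum := by
  have h1 : qExpansion 1 jq0 * qExpansion 1 eulerH ^ 24 = qExpansion 1 (E₄ : ℍ → ℂ) ^ 3 := by
    rw [← isGood_eulerH.qExpansion_pow, ← isGood_jq0.qExpansion_mul (isGood_eulerH.pow 24),
      jq0_mul_fun, isGood_E₄.qExpansion_pow]
  rw [qExpansion_eulerH, qExpansion_E₄] at h1
  have h2 : PowerSeries.map (Int.castRingHom ℂ) ModularCurve.jNum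
      * PowerSeries.map (Int.castRingHom ℂ) ModularCurve.etaProd ^ 24
      = PowerSeries.map (Int.castRingHom ℂ) ModularCurve.eisenstein4 ^ 3 := by
    rw [← map_pow, ← map_pow, ← map_mul]
    congr 1
    rw [ModularCurve.jNum, mul_assoc]
    have := ModularCurve.dedekindEtaUnit_mul_inv
    rw [ModularCurve.dedekindEtaUnit] at this
    rw [mul_comm ModularCurve.dedekindEtaUnitInv, this, mul_one]
  have h3 : PowerSeries.map (Int.castRingHom ℂ) ModularCurve.etaProd ^ 24 ≠ 0 := by
    refine pow_ne_zero _ fun h => ?_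
    have := congrArg (PowerSeries.constantCoeff (R := ℂ)) h
    rw [← PowerSeries.coeff_zero_eq_constantCoeff_apply, PowerSeries.coeff_map,
      PowerSeries.coeff_zero_eq_constantCoeff_apply, ModularCurve.constantCoeff_etaProd] at this
    simp at this
  exact mul_right_cancel₀ h3 (h1.trans h2.symm)

/-- `j(τ) · q = ∑ jNumₙ qⁿ`, absolutely convergent. -/
theorem hasSum_jq0 (τ : ℍ) :
    Summable (fun n : ℕ => ‖((PowerSeries.coeff n ModularCurve.jNum : ℤ) : ℂ)‖ * ‖𝕢 1 τ‖ ^ n) ∧
    HasSum (fun n : ℕ => ((PowerSeries.coeff n ModularCurve.jNum : ℤ) : ℂ) * 𝕢 1 τ ^ n)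
      (jq0 τ) := by
  have h := hasSum_qExpansion one_pos isGood_jq0.periodic isGood_jq0.holo isGood_jq0.bdd τ
  rw [qExpansion_jq0] at h
  have e : (fun m : ℕ => (PowerSeries.coeff m)
        ((PowerSeries.map (Int.castRingHom ℂ)) ModularCurve.jNum) • 𝕢 1 (τ : ℂ) ^ m)
      = fun n : ℕ => ((PowerSeries.coeff n ModularCurve.jNum : ℤ) : ℂ) * 𝕢 1 τ ^ n := by
    funext m
    rw [PowerSeries.coeff_map, smul_eq_mul]
    simp
  rw [e] at h
  refine ⟨?_, h⟩
  have := h.summable.norm
  simpa [norm_mul, norm_pow] using this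

end Fermat.Agent.S24JFun
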