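/-
S24, AN-J: the analytic `j`-function: holomorphic, `SL(2,ℤ)`-invariant, and its `q`-expansion is
the Prelude's formal `jq` (`ModularCurve.jNum` = `E₄³ · (η²⁴)⁻¹` as a formal power series over `ℤ`).
-/
import Mathlib
import Fermat.Agent.S24.Expansion
import Fermat.Agent.S24.JFunAux2

set_option autoImplicit false

noncomputable section

namespace Fermat.Agent.S24

open UpperHalfPlane
open scoped MatrixGroups Manifold

/-- Holomorphic functions on the upper half plane. -/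
def IsHol (f : Fun) : Prop := MDifferentiable 𝓘(ℂ) 𝓘(ℂ) (f : ℍ → ℂ)

theorem jFun_apply (τ : ℍ) :
    jFun τ = ModularForm.E₄ τ ^ 3 / ModularForm.discriminant τ := rfl

theorem isHol_jFun : IsHol jFun := by
  show MDifferentiable 𝓘(ℂ) 𝓘(ℂ)
    (fun τ : ℍ => ModularForm.E₄ τ ^ 3 / ModularForm.discriminant τ)
  rw [UpperHalfPlane.mdifferentiable_iff]
  have h4 := (UpperHalfPlane.mdifferentiable_iff).1 (ModularFormClass.holo ModularForm.E₄)
  have hΔ := (UpperHalfPlane.mdifferentiable_iff).1 (ModularFormClass.holo CuspForm.discriminant)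
  have h : DifferentiableOn ℂ
      (fun z => ((ModularForm.E₄ : ℍ → ℂ) ∘ ofComplex) z ^ 3 /
        ((CuspForm.discriminant : ℍ → ℂ) ∘ ofComplex) z) upperHalfPlaneSet := by
    refine (h4.pow 3).div hΔ ?_
    intro z _
    exact ModularForm.discriminant_ne_zero _
  exact h

/-- `j (γ τ) = j τ`. -/
theorem jFun_smul_apply (γ : SL(2, ℤ)) (τ : ℍ) : jFun (γ • τ) = jFun τ := by
  have h4 : ModularForm.E₄ (γ • τ) = denom γ τ ^ (4 : ℤ) * ModularForm.E₄ τ :=
    SlashInvariantForm.slash_action_eqn'' (Γ := 𝒮ℒ) ModularForm.E₄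
      (γ := (γ : GL (Fin 2) ℝ)) (show (γ : GL (Fin 2) ℝ) ∈ 𝒮ℒ from ⟨γ, rfl⟩) τ
  have hΔ : CuspForm.discriminant (γ • τ) = denom γ τ ^ (12 : ℤ) * CuspForm.discriminant τ :=
    SlashInvariantForm.slash_action_eqn'' (Γ := 𝒮ℒ) CuspForm.discriminant
      (γ := (γ : GL (Fin 2) ℝ)) (show (γ : GL (Fin 2) ℝ) ∈ 𝒮ℒ from ⟨γ, rfl⟩) τ
  rw [jFun_apply, jFun_apply, h4]
  rw [CuspForm.coe_discriminant] at hΔ
  rw [hΔ]
  have hd : denom γ τ ≠ 0 := denom_ne_zero γ τ
  have hΔ0 := ModularForm.discriminant_ne_zero τ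
  have e : (denom γ τ ^ (4 : ℤ)) ^ 3 = denom γ τ ^ (12 : ℤ) := by
    rw [← zpow_natCast, ← zpow_mul]; norm_num
  rw [mul_pow, e]
  field_simp

theorem jFun_smul (γ : SL(2, ℤ)) : γ • jFun = jFun := by
  ext τ
  rw [Fun.sl_smul_apply]
  exact jFun_smul_apply γ⁻¹ τ

/-- `q · j(τ) = ∑ jNumₙ qⁿ`, absolutely convergent, `q = exp(2πiτ)`. -/
theorem hasPExp_jFun :
    HasPExp 1 (fun τ => jFun τ * uParam 1 τ)
      (PowerSeries.map (Int.castRingHom Kbar) ModularCurve.jNum) := by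
  intro τ
  have h := Fermat.Agent.S24JFun.hasSum_jq0 τ
  have e1 : uParam 1 τ = Function.Periodic.qParam 1 (τ : ℂ) := by
    simp [uParam]
  have e2 : ∀ n : ℕ, iota (PowerSeries.coeff n
      (PowerSeries.map (Int.castRingHom Kbar) ModularCurve.jNum))
      = ((PowerSeries.coeff n ModularCurve.jNum : ℤ) : ℂ) := by
    intro n
    rw [PowerSeries.coeff_map]
    simp
  simp only [e1, e2]
  exact h

end Fermat.Agent.S24
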