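/-
S24, analytic half: the field `LL M = Frac (AL M)` with its `SL(2,ℤ)`-action (helper84).
-/
import Mathlib
import Fermat.Agent.S24.JFun
import Fermat.Agent.S24.Hol

set_option autoImplicit false

noncomputable section

namespace Fermat.Agent.S24

open UpperHalfPlane
open scoped MatrixGroups Manifold

theorem isHol_of_mem_AL {M : ℕ} {f : Fun} (hf : f ∈ AL M) : IsHol f :=
  isHol_of_mem_AL_aux hf

/-- `AL M` is a domain (identity theorem, or through the expansion at `∞`). -/
instance instIsDomainAL (M : ℕ) : IsDomain (AL M) :=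
  isDomain_AL_aux M

/-- The field of fractions of `AL M`. -/
abbrev LL (M : ℕ) : Type := FractionRing (AL M)

instance instMulSemiringActionLL (M : ℕ) : MulSemiringAction SL(2, ℤ) (LL M) :=
  IsFractionRing.mulSemiringAction SL(2, ℤ) (AL M) (LL M)

theorem LL.smul_algebraMap (M : ℕ) (γ : SL(2, ℤ)) (f : AL M) :
    γ • (algebraMap (AL M) (LL M) f) = algebraMap (AL M) (LL M) (γ • f) := by
  have := (IsFractionRing.smulDistribClass SL(2, ℤ) (AL M) (LL M)).smul_distrib_smul γ f (1 : LL M)
  simpa [Algebra.smul_def] using this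

instance instSMulCommClassLL (M : ℕ) : SMulCommClass SL(2, ℤ) Kbar (LL M) where
  smul_comm γ a x := by
    have h1 : γ • (algebraMap Kbar (LL M) a) = algebraMap Kbar (LL M) a := by
      rw [IsScalarTower.algebraMap_apply Kbar (AL M) (LL M), LL.smul_algebraMap]
      rfl
    rw [Algebra.smul_def, Algebra.smul_def, smul_mul', h1]

example (M : ℕ) : Field (LL M) := inferInstance
example (M : ℕ) : Algebra Kbar (LL M) := inferInstance
example (M : ℕ) : IsScalarTower Kbar (AL M) (LL M) := inferInstance

/-- `jFun` as an element of `AL M`. -/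
def jAL (M : ℕ) : AL M := ⟨jFun, by
  have h := jd_mem_AL (M := M) (d := 1) (one_dvd M)
  have : jd 1 = jFun := by
    ext τ
    show jFun (scale 1 τ) = jFun τ
    congr 1
    ext
    simp
  rwa [this] at h⟩

/-- `jFun` as an element of `LL M`. -/
def jLL (M : ℕ) : LL M := algebraMap (AL M) (LL M) (jAL M)

end Fermat.Agent.S24
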