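/-
S24, AN-X (helper90): expansions at the cusp `∞` of the generators `γ • j_d` of `AL M`,
and triviality of the action of `Γ(M)`.
-/
import Mathlib
import Fermat.Prelude.Def_ModularCurve_ArithmeticGalois
import Fermat.Agent.S24.Field

set_option autoImplicit false

noncomputable section

namespace Fermat.Agent.S24

open UpperHalfPlane
open scoped MatrixGroups Manifold

namespace GensExp

/-- invariance of `jFun`, pointwise -/
theorem jFun_smul_pt (γ : SL(2, ℤ)) (τ : ℍ) : jFun (γ • τ) = jFun τ := by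
  have h := congrArg (fun f : Fun => f (γ • τ)) (jFun_smul γ)
  simp only [Fun.sl_smul_apply, inv_smul_smul] at h
  exact h.symm

/-- `τ ↦ (a τ + b) / e` on the upper half plane. -/
def aff (a e : ℕ) (b : ℤ) (ha : 0 < a) (he : 0 < e) (τ : ℍ) : ℍ :=
  ⟨((a : ℂ) * (τ : ℂ) + (b : ℂ)) / (e : ℂ), by
    have h1 : (((a : ℂ) * (τ : ℂ) + (b : ℂ)) / (e : ℂ)).im = (a : ℝ) * τ.im / (e : ℝ) := by
      rw [Complex.div_natCast_im]
      simp
    rw [h1]
    have := τ.im_pos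
    positivity⟩

@[simp] theorem coe_aff (a e : ℕ) (b : ℤ) (ha : 0 < a) (he : 0 < e) (τ : ℍ) :
    (aff a e b ha he τ : ℂ) = ((a : ℂ) * (τ : ℂ) + (b : ℂ)) / (e : ℂ) := rfl

/-- Every root of unity of `ℂ` is in the image of `iota`. -/
theorem exists_iota_eq_of_pow_eq_one {ζ : ℂ} {n : ℕ} (hn : 0 < n) (hζ : ζ ^ n = 1) :
    ∃ z : Kbar, iota z = ζ := by
  haveI : NeZero n := ⟨hn.ne'⟩
  haveI : NeZero (n : Kbar) := ⟨by exact_mod_cast hn.ne'⟩
  obtain ⟨ω, hω⟩ := HasEnoughRootsOfUnity.exists_primitiveRoot Kbar n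
  have hω' : IsPrimitiveRoot (iota ω) n := hω.map_of_injective iota.injective
  obtain ⟨i, -, hi⟩ := hω'.eq_pow_of_pow_eq_one hζ
  exact ⟨ω ^ i, by rw [map_pow, hi]⟩

/-- `q((aτ+b)/e) = ζ_e^b · u^(a·M/e)`. -/
theorem uParam_one_aff (M a e m' : ℕ) (b : ℤ) (ha : 0 < a) (he : 0 < e) (hM : M = e * m')
    (hm' : 0 < m') (τ : ℍ) :
    uParam 1 (aff a e b ha he τ)
      = Complex.exp (2 * Real.pi * Complex.I * (b : ℂ) / (e : ℂ)) * uParam M τ ^ (a * m') := by
  have he' : (e : ℂ) ≠ 0 := by exact_mod_cast he.ne'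
  have hm'' : (m' : ℂ) ≠ 0 := by exact_mod_cast hm'.ne'
  unfold uParam Function.Periodic.qParam
  rw [← Complex.exp_nat_mul, ← Complex.exp_add]
  congr 1
  rw [coe_aff, hM]
  push_cast
  field_simp
  ring

theorem norm_exp_two_pi_I_mul_div (b : ℤ) (e : ℕ) :
    ‖Complex.exp (2 * Real.pi * Complex.I * (b : ℂ) / (e : ℂ))‖ = 1 := by
  have : 2 * Real.pi * Complex.I * (b : ℂ) / (e : ℂ)
      = ((2 * Real.pi * (b : ℝ) / (e : ℝ) : ℝ) : ℂ) * Complex.I := by
    push_cast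
    ring
  rw [this, Complex.norm_exp_ofReal_mul_I]

theorem exp_two_pi_I_mul_div_pow (b : ℤ) (e : ℕ) (he : 0 < e) :
    Complex.exp (2 * Real.pi * Complex.I * (b : ℂ) / (e : ℂ)) ^ e = 1 := by
  have he' : (e : ℂ) ≠ 0 := by exact_mod_cast he.ne'
  rw [← Complex.exp_nat_mul]
  have : (e : ℂ) * (2 * Real.pi * Complex.I * (b : ℂ) / (e : ℂ))
      = (b : ℂ) * (2 * Real.pi * Complex.I) := by
    field_simp
  rw [this]
  exact Complex.exp_int_mul_two_pi_mul_I b

/-- the series `∑ pₙ zⁿ z⁻¹ X^(k n)` -/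
def twist (z : Kbar) (k : ℕ) (p : PowerSeries Kbar) : PowerSeries Kbar :=
  PowerSeries.mk fun m => if k ∣ m then PowerSeries.coeff (m / k) p * z ^ (m / k) * z⁻¹ else 0

theorem coeff_twist (z : Kbar) (k : ℕ) (p : PowerSeries Kbar) (m : ℕ) :
    PowerSeries.coeff m (twist z k p)
      = if k ∣ m then PowerSeries.coeff (m / k) p * z ^ (m / k) * z⁻¹ else 0 := by
  rw [twist, PowerSeries.coeff_mk]

theorem coeff_twist_mul (z : Kbar) (k : ℕ) (hk : 0 < k) (p : PowerSeries Kbar) (n : ℕ) :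
    PowerSeries.coeff (k * n) (twist z k p) = PowerSeries.coeff n p * z ^ n * z⁻¹ := by
  rw [coeff_twist, if_pos (dvd_mul_right k n), Nat.mul_div_cancel_left n hk]

theorem coeff_twist_of_not_dvd (z : Kbar) (k : ℕ) (p : PowerSeries Kbar) {m : ℕ}
    (h : ¬ k ∣ m) : PowerSeries.coeff m (twist z k p) = 0 := by
  rw [coeff_twist, if_neg h]

/-- Substitution `q ↦ ζ u^k` in an expansion. -/
theorem hasPExp_subst {M : ℕ} {g : Fun} {P : PowerSeries Kbar}
    (hg : HasPExp 1 (fun τ => g τ * uParam 1 τ) P)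
    (φ : ℍ → ℍ) (z : Kbar) (hz : ‖iota z‖ = 1) (k : ℕ) (hk : 0 < k)
    (hφ : ∀ τ, uParam 1 (φ τ) = iota z * uParam M τ ^ k) :
    HasPExp M (fun τ => g (φ τ) * uParam M τ ^ k) (twist z k P) := by
  intro τ
  obtain ⟨hS, hH⟩ := hg (φ τ)
  have hz0 : iota z ≠ 0 := by
    intro h
    rw [h, norm_zero] at hz
    exact zero_ne_one hz
  have hinj : Function.Injective (fun n : ℕ => k * n) := fun a b h =>
    Nat.eq_of_mul_eq_mul_left hk h
  have hrange : ∀ m : ℕ, m ∉ Set.range (fun n : ℕ => k * n) → ¬ k ∣ m := by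
    intro m hm hdvd
    obtain ⟨n, rfl⟩ := hdvd
    exact hm ⟨n, rfl⟩
  have hnorm : ‖uParam 1 (φ τ)‖ = ‖uParam M τ‖ ^ k := by
    rw [hφ τ, norm_mul, hz, one_mul, norm_pow]
  constructor
  · rw [← hinj.summable_iff]
    · refine hS.congr fun n => ?_
      simp only [Function.comp_apply]
      rw [coeff_twist_mul z k hk, map_mul, map_mul, map_pow, map_inv₀, norm_mul, norm_mul,
        norm_pow, norm_inv, hz, one_pow, inv_one, mul_one, mul_one, hnorm, pow_mul]
    · intro m hm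
      rw [coeff_twist_of_not_dvd z k P (hrange m hm), map_zero, norm_zero, zero_mul]
  · rw [← hinj.hasSum_iff]
    · have h2 := hH.mul_left (iota z)⁻¹
      have e1 : (iota z)⁻¹ * (g (φ τ) * uParam 1 (φ τ)) = g (φ τ) * uParam M τ ^ k := by
        rw [hφ τ]
        field_simp
      rw [e1] at h2
      have e2 : ((fun m => iota (PowerSeries.coeff m (twist z k P)) * uParam M τ ^ m) ∘
            fun n : ℕ => k * n)
          = fun n => (iota z)⁻¹ * (iota (PowerSeries.coeff n P) * uParam 1 (φ τ) ^ n) := by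
        funext n
        simp only [Function.comp_apply]
        rw [coeff_twist_mul z k hk, map_mul, map_mul, map_pow, map_inv₀, hφ τ, mul_pow, pow_mul]
        ring
      rw [e2]
      exact h2
    · intro m hm
      rw [coeff_twist_of_not_dvd z k P (hrange m hm), map_zero, zero_mul]

theorem hasExp_subst {M : ℕ} {g : Fun} {P : PowerSeries Kbar}
    (hg : HasPExp 1 (fun τ => g τ * uParam 1 τ) P)
    (φ : ℍ → ℍ) (z : Kbar) (hz : ‖iota z‖ = 1) (k : ℕ) (hk : 0 < k)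
    (hφ : ∀ τ, uParam 1 (φ τ) = iota z * uParam M τ ^ k) :
    HasExp M (fun τ => g (φ τ))
      (HahnSeries.single (-(k : ℤ)) (1 : Kbar) *
        HahnSeries.ofPowerSeries ℤ Kbar (twist z k P)) :=
  ⟨k, twist z k P, rfl, hasPExp_subst hg φ z hz k hk hφ⟩

theorem int_linear_ne_zero (c δ : ℤ) (h : c ≠ 0 ∨ δ ≠ 0) (τ : ℍ) :
    (c : ℂ) * (τ : ℂ) + (δ : ℂ) ≠ 0 := by
  have h0 : (![(c : ℝ), (δ : ℝ)] : Fin 2 → ℝ) ≠ 0 := by
    intro h0
    have h1 := congrFun h0 0
    have h2 := congrFun h0 1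
    simp only [Matrix.cons_val_zero, Pi.zero_apply, Int.cast_eq_zero] at h1
    simp only [Matrix.cons_val_one, Matrix.cons_val_zero, Pi.zero_apply, Int.cast_eq_zero] at h2
    rcases h with h | h
    · exact h h1
    · exact h h2
  have := UpperHalfPlane.linear_ne_zero τ h0
  simpa using this

theorem sl2_det (γ : SL(2, ℤ)) : γ 0 0 * γ 1 1 - γ 0 1 * γ 1 0 = 1 := by
  have h := γ.det_coe
  rwa [Matrix.det_fin_two] at h

theorem coe_sl2_smul (γ : SL(2, ℤ)) (τ : ℍ) :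
    ((γ • τ : ℍ) : ℂ)
      = ((γ 0 0 : ℂ) * (τ : ℂ) + (γ 0 1 : ℂ)) / ((γ 1 0 : ℂ) * (τ : ℂ) + (γ 1 1 : ℂ)) := by
  rw [UpperHalfPlane.coe_specialLinearGroup_apply]
  simp

theorem sl2_denom_ne_zero (γ : SL(2, ℤ)) (τ : ℍ) :
    (γ 1 0 : ℂ) * (τ : ℂ) + (γ 1 1 : ℂ) ≠ 0 := by
  apply int_linear_ne_zero
  by_contra h
  rw [not_or, not_not, not_not] at h
  have := sl2_det γ
  rw [h.1, h.2] at this
  simp at this

/-- Hermite normal form: `diag(d,1) γ = γ' [[a,b],[0,e]]`, in terms of the action on `ℍ`. -/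
theorem exists_hermite' (d : ℕ) [NeZero d] (γ : SL(2, ℤ)) :
    ∃ (γ' : SL(2, ℤ)) (a e : ℕ) (b : ℤ) (ha : 0 < a) (he : 0 < e), a * e = d ∧
      (e = 1 → (d : ℤ) ∣ γ 1 0) ∧
      ∀ τ : ℍ, scale d (γ • τ) = γ' • aff a e b ha he τ := by
  have hdet := sl2_det γ
  have hd : 0 < d := Nat.pos_of_ne_zero (NeZero.ne d)
  set α := γ 0 0 with hα
  set β := γ 0 1 with hβ
  set c := γ 1 0 with hc
  set δ := γ 1 1 with hδ
  set g : ℕ := Int.gcd ((d : ℤ) * α) c with hg
  have hg_pos : 0 < g := by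
    rw [Nat.pos_iff_ne_zero]
    intro h0
    rw [hg, Int.gcd_eq_zero_iff] at h0
    obtain ⟨h1, h2⟩ := h0
    have hα0 : α = 0 := by
      rcases mul_eq_zero.mp h1 with h | h
      · exact absurd (by exact_mod_cast h) hd.ne'
      · exact h
    rw [hα0, h2] at hdet
    simp at hdet
  obtain ⟨p, hp⟩ : (g : ℤ) ∣ (d : ℤ) * α := Int.gcd_dvd_left _ _
  obtain ⟨r, hr⟩ : (g : ℤ) ∣ c := Int.gcd_dvd_right _ _
  have hbez : (g : ℤ) = (d : ℤ) * α * Int.gcdA ((d : ℤ) * α) c + c * Int.gcdB ((d : ℤ) * α) c :=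
    Int.gcd_eq_gcd_ab _ _
  set u := Int.gcdA ((d : ℤ) * α) c with hu
  set v := Int.gcdB ((d : ℤ) * α) c with hv
  have hgz : (g : ℤ) ≠ 0 := by exact_mod_cast hg_pos.ne'
  have hpurv : p * u + r * v = 1 := by
    have : (g : ℤ) * (p * u + r * v) = (g : ℤ) * 1 := by
      rw [mul_one]
      conv_rhs => rw [hbez, hp, hr]
      ring
    exact mul_left_cancel₀ hgz this
  set e' : ℤ := p * δ - (d : ℤ) * β * r with he'
  have hge : (g : ℤ) * e' = d := by
    have : (g : ℤ) * e' = ((g : ℤ) * p) * δ - (d : ℤ) * β * ((g : ℤ) * r) := by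
      rw [he']; ring
    rw [this, ← hp, ← hr]
    linear_combination (d : ℤ) * hdet
  have he'_pos : 0 < e' := by
    have h1 : (0 : ℤ) < (g : ℤ) * e' := by rw [hge]; exact_mod_cast hd
    have h2 : (0 : ℤ) < g := by exact_mod_cast hg_pos
    exact (mul_pos_iff_of_pos_left h2).mp h1
  obtain ⟨e, he⟩ : ∃ e : ℕ, (e : ℤ) = e' := ⟨e'.toNat, Int.toNat_of_nonneg he'_pos.le⟩
  have he_pos : 0 < e := by
    have : (0 : ℤ) < e := by rw [he]; exact he'_pos
    exact_mod_cast this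
  have hged : g * e = d := by
    have : ((g * e : ℕ) : ℤ) = d := by push_cast; rw [he, hge]
    exact_mod_cast this
  refine ⟨⟨!![p, -v; r, u], ?_⟩, g, e, u * (d : ℤ) * β + v * δ, hg_pos, he_pos, hged, ?_, ?_⟩
  · rw [Matrix.det_fin_two_of]
    linear_combination hpurv
  · intro he1
    rw [he1, mul_one] at hged
    rw [← hged]
    exact ⟨r, hr⟩
  · intro τ
    apply UpperHalfPlane.ext
    rw [coe_scale, coe_sl2_smul, coe_sl2_smul, coe_aff]
    have hden : (c : ℂ) * (τ : ℂ) + (δ : ℂ) ≠ 0 := sl2_denom_ne_zero γ τ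
    have heC : (e : ℂ) ≠ 0 := by exact_mod_cast he_pos.ne'
    -- the integer identities, in `ℂ`
    have hpC : (d : ℂ) * (α : ℂ) = (g : ℂ) * (p : ℂ) := by exact_mod_cast hp
    have hrC : (c : ℂ) = (g : ℂ) * (r : ℂ) := by exact_mod_cast hr
    have hpurvC : (p : ℂ) * (u : ℂ) + (r : ℂ) * (v : ℂ) = 1 := by exact_mod_cast hpurv
    have heC' : (e : ℂ) = (p : ℂ) * (δ : ℂ) - (d : ℂ) * (β : ℂ) * (r : ℂ) := by
      have : (e : ℤ) = p * δ - (d : ℤ) * β * r := he
      exact_mod_cast this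
    have hdetC : (α : ℂ) * (δ : ℂ) - (β : ℂ) * (c : ℂ) = 1 := by exact_mod_cast hdet
    simp only [Matrix.of_apply, Matrix.cons_val_zero,
      Matrix.cons_val_one, Matrix.cons_val', Matrix.cons_val_fin_one]
    push_cast
    -- numerators and denominators
    have hnum : (p : ℂ) * (((g : ℂ) * (τ : ℂ) + ((u : ℂ) * (d : ℂ) * (β : ℂ) + (v : ℂ) * (δ : ℂ)))
          / (e : ℂ)) + -(v : ℂ)
        = ((d : ℂ) * ((α : ℂ) * (τ : ℂ) + (β : ℂ))) / (e : ℂ) := by
      field_simp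
      rw [heC']
      linear_combination (τ : ℂ) * (-hpC) + ((d : ℂ) * (β : ℂ)) * hpurvC
    have hdn : (r : ℂ) * (((g : ℂ) * (τ : ℂ) + ((u : ℂ) * (d : ℂ) * (β : ℂ) + (v : ℂ) * (δ : ℂ)))
          / (e : ℂ)) + (u : ℂ)
        = ((c : ℂ) * (τ : ℂ) + (δ : ℂ)) / (e : ℂ) := by
      field_simp
      rw [heC']
      linear_combination (τ : ℂ) * (-hrC) + (δ : ℂ) * hpurvC
    rw [hnum, hdn]
    field_simp
    simp only [hα, hβ, hc, hδ]
    ring

theorem exists_hermite (d : ℕ) [NeZero d] (γ : SL(2, ℤ)) :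
    ∃ (γ' : SL(2, ℤ)) (a e : ℕ) (b : ℤ) (ha : 0 < a) (he : 0 < e), a * e = d ∧
      ∀ τ : ℍ, scale d (γ • τ) = γ' • aff a e b ha he τ := by
  obtain ⟨γ', a, e, b, ha, he, h1, -, h2⟩ := exists_hermite' d γ
  exact ⟨γ', a, e, b, ha, he, h1, h2⟩

theorem twist_one_one (P : PowerSeries Kbar) : twist 1 1 P = P := by
  ext m
  rw [coeff_twist, if_pos (one_dvd m), Nat.div_one, one_pow, inv_one, mul_one, mul_one]

theorem ofPowerSeries_coeff_neg' (P : PowerSeries Kbar) {n : ℤ} (hn : n < 0) :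
    (HahnSeries.ofPowerSeries ℤ Kbar P).coeff n = 0 :=
  ModularCurve.ofPowerSeries_coeff_of_neg P hn

/-- `qExpand` of a power series is the expanded power series. -/
theorem qExpand_ofPowerSeries (k : ℕ) [NeZero k] (P : PowerSeries Kbar) :
    ModularCurve.qExpand Kbar k (HahnSeries.ofPowerSeries ℤ Kbar P)
      = HahnSeries.ofPowerSeries ℤ Kbar (twist 1 k P) := by
  have hk : 0 < k := Nat.pos_of_ne_zero (NeZero.ne k)
  ext n
  by_cases hdvd : (k : ℤ) ∣ n
  · obtain ⟨m, rfl⟩ := hdvd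
    rw [ModularCurve.qExpand_coeff_mul]
    rcases lt_or_ge m 0 with hm | hm
    · have hkm : (k : ℤ) * m < 0 := mul_neg_of_pos_of_neg (by exact_mod_cast hk) hm
      rw [ofPowerSeries_coeff_neg' _ hm, ofPowerSeries_coeff_neg' _ hkm]
    · lift m to ℕ using hm
      rw [HahnSeries.ofPowerSeries_apply_coeff,
        show (k : ℤ) * (m : ℤ) = ((k * m : ℕ) : ℤ) by push_cast; rfl,
        HahnSeries.ofPowerSeries_apply_coeff, coeff_twist_mul 1 k hk, one_pow, inv_one,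
        mul_one, mul_one]
  · rw [ModularCurve.qExpand_coeff_of_not_dvd k _ hdvd]
    rcases lt_or_ge n 0 with hn | hn
    · rw [ofPowerSeries_coeff_neg' _ hn]
    · lift n to ℕ using hn
      rw [HahnSeries.ofPowerSeries_apply_coeff, coeff_twist_of_not_dvd]
      intro h
      exact hdvd (by exact_mod_cast h)

theorem qExpand_jqModC (k : ℕ) [NeZero k] :
    ModularCurve.qExpand Kbar k (ModularCurve.jqModC Kbar)
      = HahnSeries.single (-(k : ℤ)) (1 : Kbar) *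
        HahnSeries.ofPowerSeries ℤ Kbar
          (twist 1 k (PowerSeries.map (Int.castRingHom Kbar) ModularCurve.jNum)) := by
  rw [ModularCurve.jqModC, map_mul, ModularCurve.qExpand_single, qExpand_ofPowerSeries,
    mul_neg_one]

theorem iota_one_norm : ‖iota (1 : Kbar)‖ = 1 := by
  rw [map_one, norm_one]

end GensExp

open GensExp

/-! ### AN-X : expansions of the generators at the cusp `∞` -/

/-- `j(dτ) = ∑ cₙ u^{M d n}`. -/
theorem hasExp_jd (M d : ℕ) [NeZero M] [NeZero d] (hd : d ∣ M) :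
    HasExp M (jd d) (ModularCurve.qExpand Kbar (M * d) (ModularCurve.jqModC Kbar)) := by
  have hM : 0 < M := Nat.pos_of_ne_zero (NeZero.ne M)
  have hd0 : 0 < d := Nat.pos_of_ne_zero (NeZero.ne d)
  rw [qExpand_jqModC]
  have hφ : ∀ τ : ℍ, uParam 1 (scale d τ) = iota 1 * uParam M τ ^ (M * d) := by
    intro τ
    have h1 : scale d τ = aff d 1 0 hd0 Nat.one_pos τ := by
      apply UpperHalfPlane.ext
      rw [coe_scale, coe_aff]
      simp
    rw [h1, uParam_one_aff M d 1 M 0 hd0 Nat.one_pos (one_mul M).symm hM, map_one, mul_comm d M]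
    simp
  exact hasExp_subst hasPExp_jFun (scale d) 1 iota_one_norm (M * d) (Nat.mul_pos hM hd0) hφ

/-- `(S • j_M)(τ) = j(τ/M) = ∑ cₙ uⁿ`. -/
theorem hasExp_S_smul_jd (M : ℕ) [NeZero M] :
    HasExp M (ModularGroup.S • jd M) (ModularCurve.jqModC Kbar) := by
  have hM : 0 < M := Nat.pos_of_ne_zero (NeZero.ne M)
  have hφ : ∀ τ : ℍ, uParam 1 (aff 1 M 0 Nat.one_pos hM τ) = iota 1 * uParam M τ ^ 1 := by
    intro τ
    rw [uParam_one_aff M 1 M 1 0 Nat.one_pos hM (mul_one M).symm Nat.one_pos, map_one]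
    simp
  have h := hasExp_subst hasPExp_jFun (aff 1 M 0 Nat.one_pos hM) 1 iota_one_norm 1 Nat.one_pos hφ
  rw [twist_one_one] at h
  have hfun : (ModularGroup.S • jd M : Fun) = fun τ => jFun (aff 1 M 0 Nat.one_pos hM τ) := by
    funext τ
    show jd M (ModularGroup.S⁻¹ • τ) = _
    show jFun (scale M (ModularGroup.S⁻¹ • τ)) = _
    have h1 : scale M (ModularGroup.S⁻¹ • τ) = ModularGroup.S⁻¹ • aff 1 M 0 Nat.one_pos hM τ := by
      apply UpperHalfPlane.ext
      have hτ : (τ : ℂ) ≠ 0 := UpperHalfPlane.ne_zero τ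
      have hMC : (M : ℂ) ≠ 0 := by exact_mod_cast hM.ne'
      rw [coe_scale, coe_sl2_smul, coe_sl2_smul, coe_aff]
      simp [ModularGroup.S, Matrix.SpecialLinearGroup.coe_inv, Matrix.adjugate_fin_two]
      field_simp
    rw [h1, jFun_smul_pt]
  rw [hfun]
  have e : (HahnSeries.single (-((1 : ℕ) : ℤ)) (1 : Kbar) *
      HahnSeries.ofPowerSeries ℤ Kbar (PowerSeries.map (Int.castRingHom Kbar) ModularCurve.jNum))
      = ModularCurve.jqModC Kbar := by
    rw [ModularCurve.jqModC]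
    norm_num
  rw [← e]
  exact h

/-- Hermite normal form: every generator has an expansion with coefficients in `Kbar`. -/
theorem exists_hasExp_of_mem_gens (M : ℕ) [NeZero M] {f : Fun} (hf : f ∈ gens M) :
    ∃ a : LaurentSeries Kbar, HasExp M f a := by
  have hM : 0 < M := Nat.pos_of_ne_zero (NeZero.ne M)
  obtain ⟨d, hdne, hdM, γ, rfl⟩ := hf
  obtain ⟨γ', a, e, b, ha, he, hae, hτ⟩ := exists_hermite d γ⁻¹
  have heM : e ∣ M := (Dvd.intro_left a hae).trans hdM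
  obtain ⟨m', hm'⟩ := heM
  have hm'pos : 0 < m' := by
    rcases Nat.eq_zero_or_pos m' with h | h
    · rw [h, mul_zero] at hm'
      exact absurd hm' hM.ne'
    · exact h
  obtain ⟨z, hz⟩ := exists_iota_eq_of_pow_eq_one he (exp_two_pi_I_mul_div_pow b e he)
  have hz1 : ‖iota z‖ = 1 := by rw [hz]; exact norm_exp_two_pi_I_mul_div b e
  have hφ : ∀ τ : ℍ, uParam 1 (aff a e b ha he τ) = iota z * uParam M τ ^ (a * m') := by
    intro τ
    rw [uParam_one_aff M a e m' b ha he hm' hm'pos, hz]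
  have h := hasExp_subst hasPExp_jFun (aff a e b ha he) z hz1 (a * m') (Nat.mul_pos ha hm'pos) hφ
  have hfun : (γ • jd d : Fun) = fun τ => jFun (aff a e b ha he τ) := by
    funext τ
    show jFun (scale d (γ⁻¹ • τ)) = _
    rw [hτ τ, jFun_smul_pt]
  rw [hfun]
  exact ⟨_, h⟩

end Fermat.Agent.S24
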