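/-
S24, AN-E, final form (helper24 + helper90): the Prelude's function field of `X₀(N)` over `ℚ̄`
embeds in `LL (2N)`, `j ↦ j`, and the stabiliser of the image is `Γ₀(N)`.
-/
import Mathlib
import Fermat.Prelude.Def_ModularCurve_ArithmeticGalois
import Fermat.Prelude.Def_ModularCurve_X0ModL
import Fermat.Agent.S24.EmbFHom
import Fermat.Agent.S24.EmbFStab

set_option autoImplicit false

noncomputable section

namespace Fermat.Agent.S24

open UpperHalfPlane
open scoped MatrixGroups Manifold

/-- The element `j` of the Prelude's function field. -/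
def jBar (N : ℕ) [NeZero N] : ↥(ModularCurve.modularFunctionFieldBar N) :=
  ⟨ModularCurve.coeffEmb Kbar ModularCurve.jq,
    ModularCurve.coeffEmb_mem_laurentBaseChange Kbar (by
      have h := ModularCurve.jqd_mem_full N (one_dvd N)
      rwa [ModularCurve.qExpand_one_apply] at h)⟩

theorem coe_jBar (N : ℕ) [NeZero N] :
    ((jBar N : ↥(ModularCurve.modularFunctionFieldBar N)) : LaurentSeries Kbar)
      = ModularCurve.coeffEmb Kbar ModularCurve.jq := rfl

theorem exists_embF (N : ℕ) [NeZero N] :
    ∃ φ : ↥(ModularCurve.modularFunctionFieldBar N) →ₐ[Kbar] LL (2 * N),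
      φ (jBar N) = jLL (2 * N) ∧
      ∀ γ : SL(2, ℤ), γ ∈ CongruenceSubgroup.Gamma0 N ↔ ∀ x, γ • φ x = φ x :=
  exists_embF_of_hom N (jBar N) (EmbFHom.exists_embF_hom N (jBar N) rfl)

theorem coe_jBar_eq_jqModC (N : ℕ) [NeZero N] :
    ((jBar N : ↥(ModularCurve.modularFunctionFieldBar N)) : LaurentSeries Kbar) =
      ModularCurve.jqModC Kbar := by
  rw [coe_jBar]
  unfold ModularCurve.coeffEmb
  rw [← ModularCurve.jqModC_rat, ModularCurve.coeffMap_jqModC]

/-- `j` is transcendental over `Kbar`: it has a pole at `∞` (helper24). -/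
theorem transcendental_jBar (N : ℕ) [NeZero N] : Transcendental Kbar (jBar N) := by
  intro halg
  have hint : IsIntegral Kbar (jBar N) := halg.isIntegral
  have hdeg : (minpoly Kbar (jBar N)).degree = 1 :=
    IsAlgClosed.degree_eq_one_of_irreducible Kbar (minpoly.irreducible hint)
  obtain ⟨c, hc⟩ := minpoly.mem_range_of_degree_eq_one Kbar (jBar N) hdeg
  have h1 := congrArg
    (fun x : ↥(ModularCurve.modularFunctionFieldBar N) => (x : LaurentSeries Kbar).coeff (-1)) hc
  simp only [coe_jBar_eq_jqModC, ModularCurve.coeff_jqModC_neg_one] at h1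
  have h2 : ((algebraMap Kbar ↥(ModularCurve.modularFunctionFieldBar N) c :
      ↥(ModularCurve.modularFunctionFieldBar N)) : LaurentSeries Kbar) =
      algebraMap Kbar (LaurentSeries Kbar) c := rfl
  rw [h2, ModularCurve.algebraMap_laurentSeries_eq_single,
    HahnSeries.coeff_single_of_ne (by norm_num)] at h1
  exact zero_ne_one h1

end Fermat.Agent.S24
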