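import Mathlib
import Fermat.Prelude.Def_AlgebraicCurve_CanonicalDivisor

set_option autoImplicit false

/-!
# S24, ALG-G: the finite Galois group attached to a "Galois datum"

`Γ` acts on the field `L` through a finite quotient, fixes `t`, and the invariants lie in `K(t)`.
We pass to the image `G` of `Γ` in `RingAut L` and show `IsGaloisGroup G K(t) L`.
-/

open IntermediateField

namespace Fermat.Agent.S24Gal

variable {Γ L : Type*} [Group Γ] [Field L] [MulSemiringAction Γ L]
variable {K F : Type*} [Field K] [Field F] [Algebra K F] [Algebra K L] [Algebra F L]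
    [IsScalarTower K F L] [SMulCommClass Γ K L]

variable (Γ L) in
/-- The image of `Γ` in the ring automorphisms of `L`. -/
abbrev imageGroup : Subgroup (RingAut L) := (MulSemiringAction.toRingAut Γ L).range

variable (Γ L) in
/-- The projection of `Γ` onto its image. -/
def toImage : Γ →* imageGroup Γ L := (MulSemiringAction.toRingAut Γ L).rangeRestrict

theorem toImage_smul (g : Γ) (x : L) : toImage Γ L g • x = g • x := rfl

theorem toImage_surjective : Function.Surjective (toImage Γ L) :=
  (MulSemiringAction.toRingAut Γ L).rangeRestrict_surjective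

theorem imageGroup_smul_eq (σ : imageGroup Γ L) : ∃ g : Γ, ∀ x : L, σ • x = g • x := by
  obtain ⟨g, hg⟩ := toImage_surjective σ
  exact ⟨g, fun x => by rw [← hg]; rfl⟩

theorem mem_ker_toRingAut_iff (g : Γ) :
    g ∈ (MulSemiringAction.toRingAut Γ L).ker ↔ ∀ x : L, g • x = x := by
  rw [MonoidHom.mem_ker]
  constructor
  · intro h x
    have := congrArg (fun σ : RingAut L => σ x) h
    simpa using this
  · intro h
    ext x
    simpa using h x

theorem finite_imageGroup
    (hfin : ∃ Γ' : Subgroup Γ, Γ'.FiniteIndex ∧ ∀ g ∈ Γ', ∀ x : L, g • x = x) :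
    Finite (imageGroup Γ L) := by
  obtain ⟨Γ', hΓ', htriv⟩ := hfin
  have hle : Γ' ≤ (MulSemiringAction.toRingAut Γ L).ker := fun g hg =>
    (mem_ker_toRingAut_iff g).mpr (htriv g hg)
  have : (MulSemiringAction.toRingAut Γ L).ker.FiniteIndex := Subgroup.finiteIndex_of_le hle
  have : Finite (Γ ⧸ (MulSemiringAction.toRingAut Γ L).ker) :=
    Subgroup.finite_quotient_of_finiteIndex
  exact Finite.of_equiv _ (QuotientGroup.quotientKerEquivRange
    (MulSemiringAction.toRingAut Γ L)).toEquiv

/-- every element of `K(t)` is fixed by `Γ`. -/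
theorem smul_algebraMap_adjoin (t : F)
    (ht : ∀ g : Γ, g • algebraMap F L t = algebraMap F L t) (g : Γ) (a : K⟮t⟯) :
    g • algebraMap K⟮t⟯ L a = algebraMap K⟮t⟯ L a := by
  obtain ⟨a, ha⟩ := a
  show g • algebraMap F L a = algebraMap F L a
  induction ha using IntermediateField.adjoin_induction with
  | mem x hx =>
    rw [Set.mem_singleton_iff] at hx
    rw [hx]; exact ht g
  | algebraMap c =>
    rw [← IsScalarTower.algebraMap_apply, Algebra.algebraMap_eq_smul_one, smul_comm, smul_one]
  | add x y _ _ hx hy => rw [map_add, smul_add, hx, hy]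
  | inv x _ hx => rw [map_inv₀, smul_inv'', hx]
  | mul x y _ _ hx hy => rw [map_mul, smul_mul', hx, hy]

theorem isGaloisGroup_imageGroup (t : F)
    (ht : ∀ g : Γ, g • algebraMap F L t = algebraMap F L t)
    (hfix : ∀ x : L, (∀ g : Γ, g • x = x) →
      x ∈ IntermediateField.adjoin K {algebraMap F L t}) :
    IsGaloisGroup (imageGroup Γ L) K⟮t⟯ L where
  faithful := inferInstance
  commutes := ⟨fun σ a x => by
    obtain ⟨g, hg⟩ := imageGroup_smul_eq σ
    rw [hg, hg, Algebra.smul_def, Algebra.smul_def, smul_mul', smul_algebraMap_adjoin t ht]⟩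
  isInvariant := ⟨fun x hx => by
    have hx' : ∀ g : Γ, g • x = x := fun g => by
      have := hx (toImage Γ L g)
      rwa [toImage_smul] at this
    have hmem := hfix x hx'
    have hmap : IntermediateField.adjoin K {algebraMap F L t}
        = (K⟮t⟯).map (IsScalarTower.toAlgHom K F L) := by
      rw [IntermediateField.adjoin_map, Set.image_singleton]
      rfl
    rw [hmap] at hmem
    obtain ⟨a, ha, rfl⟩ := hmem
    exact ⟨⟨a, ha⟩, rfl⟩⟩

/-! ## (G1) the degree `[F : K(t)] = [Γ : H]` -/

variable (Γ L F) in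
/-- The subgroup of the image group fixing `F` pointwise. -/
abbrev fixF : Subgroup (imageGroup Γ L) :=
  fixingSubgroup (imageGroup Γ L) (Set.range (algebraMap F L))

theorem mem_fixF_iff (σ : imageGroup Γ L) :
    σ ∈ fixF Γ L F ↔ ∀ x : F, σ • algebraMap F L x = algebraMap F L x := by
  rw [_root_.mem_fixingSubgroup_iff]
  constructor
  · intro h x; exact h _ ⟨x, rfl⟩
  · rintro h _ ⟨x, rfl⟩; exact h x

theorem comap_fixF (H : Subgroup Γ)
    (hH : ∀ g : Γ, g ∈ H ↔ ∀ x : F, g • algebraMap F L x = algebraMap F L x) :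
    (fixF Γ L F).comap (toImage Γ L) = H := by
  ext g
  rw [Subgroup.mem_comap, mem_fixF_iff, hH]
  rfl

theorem index_fixF (H : Subgroup Γ)
    (hH : ∀ g : Γ, g ∈ H ↔ ∀ x : F, g • algebraMap F L x = algebraMap F L x) :
    (fixF Γ L F).index = H.index := by
  rw [← comap_fixF H hH, Subgroup.index_comap_of_surjective _ toImage_surjective]

theorem finrank_eq_index (t : F)
    (hfin : ∃ Γ' : Subgroup Γ, Γ'.FiniteIndex ∧ ∀ g ∈ Γ', ∀ x : L, g • x = x)
    (ht : ∀ g : Γ, g • algebraMap F L t = algebraMap F L t)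
    (hfix : ∀ x : L, (∀ g : Γ, g • x = x) →
      x ∈ IntermediateField.adjoin K {algebraMap F L t})
    (H : Subgroup Γ)
    (hH : ∀ g : Γ, g ∈ H ↔ ∀ x : F, g • algebraMap F L x = algebraMap F L x) :
    FiniteDimensional K⟮t⟯ F ∧ Module.finrank K⟮t⟯ F = H.index := by
  haveI : Finite (imageGroup Γ L) := finite_imageGroup hfin
  have hG : IsGaloisGroup (imageGroup Γ L) K⟮t⟯ L := isGaloisGroup_imageGroup t ht hfix
  have hGF : IsGaloisGroup (fixF Γ L F) F L := IsGaloisGroup.of_isScalarTower _ K⟮t⟯ L F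
  haveI : FiniteDimensional K⟮t⟯ L := hG.finiteDimensional
  haveI : FiniteDimensional F L := hGF.finiteDimensional
  haveI : FiniteDimensional K⟮t⟯ F := FiniteDimensional.left K⟮t⟯ F L
  refine ⟨inferInstance, ?_⟩
  have h1 := hG.card_eq_finrank
  have h2 := hGF.card_eq_finrank
  have h3 := Module.finrank_mul_finrank K⟮t⟯ F L
  have h4 := Subgroup.card_mul_index (fixF Γ L F)
  rw [index_fixF H hH] at h4
  have hpos : 0 < Module.finrank F L := Module.finrank_pos
  rw [← h1, ← h2, ← h4, mul_comm] at h3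
  exact Nat.eq_of_mul_eq_mul_left (h2 ▸ hpos) h3

end Fermat.Agent.S24Gal
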