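/-
S24, AN-D (second half, helper53): invariants of the fraction field.
If the principal congruence subgroup acts trivially on `LL M` and the invariants of `AL M` are
polynomials in `j`, then the invariants of `LL M = Frac (AL M)` are rational functions of `j`.
(Norm trick: multiply numerator and denominator by the other conjugates of the denominator.)
-/
import Mathlib
import Fermat.Agent.S24.Field

set_option autoImplicit false

noncomputable section

namespace Fermat.Agent.S24

open UpperHalfPlane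
open scoped MatrixGroups

namespace InvFrac

variable {M : ℕ}

/-- If `Γ(M)` acts trivially on `LL M`, it acts trivially on `AL M`. -/
theorem smul_AL_eq_of_LL [NeZero M]
    (hΓ : ∀ γ : SL(2, ℤ), γ ∈ CongruenceSubgroup.Gamma M → ∀ x : LL M, γ • x = x)
    (γ : SL(2, ℤ)) (hγ : γ ∈ CongruenceSubgroup.Gamma M) (f : AL M) : γ • f = f := by
  have h := hΓ γ hγ (algebraMap (AL M) (LL M) f)
  rw [LL.smul_algebraMap] at h
  exact IsFractionRing.injective (AL M) (LL M) h

/-- The orbit of an element of `AL M` is finite. -/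
theorem finite_orbit [NeZero M]
    (hΓ : ∀ γ : SL(2, ℤ), γ ∈ CongruenceSubgroup.Gamma M → ∀ x : LL M, γ • x = x)
    (b : AL M) : (MulAction.orbit SL(2, ℤ) b).Finite := by
  have hle : CongruenceSubgroup.Gamma M ≤ MulAction.stabilizer SL(2, ℤ) b := by
    intro γ hγ
    exact smul_AL_eq_of_LL hΓ γ hγ b
  have : (MulAction.stabilizer SL(2, ℤ) b).FiniteIndex := Subgroup.finiteIndex_of_le hle
  have : Finite (SL(2, ℤ) ⧸ MulAction.stabilizer SL(2, ℤ) b) :=
    Subgroup.finite_quotient_of_finiteIndex
  have e := MulAction.orbitEquivQuotientStabilizer SL(2, ℤ) b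
  have : Finite (MulAction.orbit SL(2, ℤ) b) := Finite.of_equiv _ e.symm
  exact Set.toFinite _

end InvFrac

open InvFrac in
/-- AN-D, fraction field: the invariants of `LL M` are `Kbar(j)`, given the two inputs. -/
theorem mem_adjoin_jLL_of_invariant_of (M : ℕ) [NeZero M]
    (hΓ : ∀ γ : SL(2, ℤ), γ ∈ CongruenceSubgroup.Gamma M → ∀ x : LL M, γ • x = x)
    (hinv : ∀ f : AL M, (∀ γ : SL(2, ℤ), γ • f = f) →
      ∃ P : Polynomial Kbar, Polynomial.aeval (jAL M) P = f)
    (x : LL M) (hx : ∀ γ : SL(2, ℤ), γ • x = x) :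
    x ∈ IntermediateField.adjoin Kbar {jLL M} := by
  classical
  obtain ⟨a, b, hb, rfl⟩ := IsFractionRing.div_surjective (A := AL M) x
  have hb0 : b ≠ 0 := nonZeroDivisors.ne_zero hb
  -- the orbit of the denominator
  have hfin := finite_orbit hΓ b
  set O : Finset (AL M) := hfin.toFinset with hO
  have hmemO : ∀ y : AL M, y ∈ O ↔ ∃ g : SL(2, ℤ), g • b = y := by
    intro y
    rw [hO, Set.Finite.mem_toFinset]
    exact MulAction.mem_orbit_iff
  have hbO : b ∈ O := (hmemO b).mpr ⟨1, one_smul _ b⟩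
  -- the norm and the cofactor
  set Nm : AL M := ∏ y ∈ O, y with hNm
  set c : AL M := ∏ y ∈ O.erase b, y with hc
  have hNmc : Nm = b * c := by
    rw [hNm, hc, Finset.mul_prod_erase O (fun y => y) hbO]
  have hNm_inv : ∀ γ : SL(2, ℤ), γ • Nm = Nm := by
    intro γ
    rw [hNm, Finset.smul_prod']
    refine Finset.prod_nbij (fun y => γ • y) ?_ ?_ ?_ ?_
    · intro y hy
      obtain ⟨g, rfl⟩ := (hmemO y).mp hy
      exact (hmemO _).mpr ⟨γ * g, mul_smul γ g b⟩
    · intro y _ z _ hyz
      exact MulAction.injective γ hyz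
    · intro z hz
      obtain ⟨g, rfl⟩ := (hmemO z).mp hz
      refine ⟨(γ⁻¹ * g) • b, ?_, ?_⟩
      · exact (hmemO _).mpr ⟨γ⁻¹ * g, rfl⟩
      · simp [mul_smul]
    · intro y _
      rfl
  have hNm0 : Nm ≠ 0 := by
    rw [hNm, Finset.prod_ne_zero_iff]
    intro y hy
    obtain ⟨g, rfl⟩ := (hmemO y).mp hy
    exact (smul_ne_zero_iff_ne g).mpr hb0
  -- the numerator `a * c` is invariant
  have hxeq : algebraMap (AL M) (LL M) a / algebraMap (AL M) (LL M) b
      = algebraMap (AL M) (LL M) (a * c) / algebraMap (AL M) (LL M) Nm := by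
    have hb' : algebraMap (AL M) (LL M) b ≠ 0 := by
      simpa using (IsFractionRing.injective (AL M) (LL M)).ne hb0
    have hc0 : c ≠ 0 := by
      intro h0
      apply hNm0
      rw [hNmc, h0, mul_zero]
    have hc' : algebraMap (AL M) (LL M) c ≠ 0 := by
      simpa using (IsFractionRing.injective (AL M) (LL M)).ne hc0
    rw [hNmc, map_mul, map_mul]
    field_simp
  have hNm' : algebraMap (AL M) (LL M) Nm ≠ 0 := by
    simpa using (IsFractionRing.injective (AL M) (LL M)).ne hNm0
  have hac_inv : ∀ γ : SL(2, ℤ), γ • (a * c) = a * c := by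
    intro γ
    apply IsFractionRing.injective (AL M) (LL M)
    rw [← LL.smul_algebraMap]
    have h1 : algebraMap (AL M) (LL M) (a * c)
        = (algebraMap (AL M) (LL M) a / algebraMap (AL M) (LL M) b)
          * algebraMap (AL M) (LL M) Nm := by
      rw [hxeq]
      field_simp
    rw [h1, smul_mul', hx γ, LL.smul_algebraMap, hNm_inv γ]
  obtain ⟨P, hP⟩ := hinv (a * c) hac_inv
  obtain ⟨Q, hQ⟩ := hinv Nm hNm_inv
  rw [hxeq, IntermediateField.mem_adjoin_simple_iff]
  refine ⟨P, Q, ?_⟩
  have hj : ∀ R : Polynomial Kbar, Polynomial.aeval (jLL M) R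
      = algebraMap (AL M) (LL M) (Polynomial.aeval (jAL M) R) := by
    intro R
    rw [jLL, ← Polynomial.aeval_algebraMap_apply]
  rw [hj, hj, hP, hQ]

end Fermat.Agent.S24
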