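/-
S24, analytic half: the principal congruence subgroup acts trivially on `LL M`; the exact periods
of `S`, `S * T`, `T` on `LL M` (helper17).
-/
import Mathlib
import Fermat.Agent.S24.Field
import Fermat.Agent.S20.Ramanujan

set_option autoImplicit false

noncomputable section

namespace Fermat.Agent.S24

open UpperHalfPlane CongruenceSubgroup
open scoped MatrixGroups Manifold

namespace Periods

/-- `jFun` is invariant under `SL(2,ℤ)`, pointwise form. -/
theorem jFun_apply_smul (γ : SL(2, ℤ)) (τ : ℍ) : jFun (γ • τ) = jFun τ := by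
  have h := congrArg (fun f : Fun => f τ) (jFun_smul γ⁻¹)
  simpa using h

/-- The matrix `diag(d,1) δ diag(d,1)⁻¹` for `δ ∈ Γ₀(d)`. -/
theorem exists_conj_scale (d : ℕ) [NeZero d] (δ : SL(2, ℤ)) (hδ : δ ∈ Gamma0 d) :
    ∃ δ' : SL(2, ℤ), ∀ τ : ℍ, scale d (δ • τ) = δ' • scale d τ := by
  rw [Gamma0_mem] at hδ
  obtain ⟨c', hc'⟩ := (ZMod.intCast_zmod_eq_zero_iff_dvd _ _).mp hδ
  have hdet := δ.det_coe
  rw [Matrix.det_fin_two] at hdet
  refine ⟨⟨!![δ 0 0, d * δ 0 1; c', δ 1 1], ?_⟩, fun τ => ?_⟩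
  · rw [Matrix.det_fin_two_of]
    rw [hc'] at hdet
    linear_combination hdet
  · apply UpperHalfPlane.ext
    rw [coe_scale, coe_specialLinearGroup_apply, coe_specialLinearGroup_apply, coe_scale]
    have h10 : ((δ 1 0 : ℤ) : ℂ) = (d : ℂ) * ((c' : ℤ) : ℂ) := by
      rw [hc']
      push_cast
      rfl
    simp only [Matrix.of_apply, Matrix.cons_val', Matrix.cons_val_zero,
      Matrix.cons_val_one, Matrix.cons_val_fin_one, algebraMap_int_eq, Int.coe_castRingHom]
    push_cast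
    rw [h10, ← mul_div_assoc]
    congr 1 <;> ring


theorem jd_apply_smul_of_mem_Gamma0 (d : ℕ) [NeZero d] (δ : SL(2, ℤ)) (hδ : δ ∈ Gamma0 d)
    (τ : ℍ) : jd d (δ • τ) = jd d τ := by
  obtain ⟨δ', h⟩ := exists_conj_scale d δ hδ
  show jFun (scale d (δ • τ)) = jFun (scale d τ)
  rw [h, jFun_apply_smul]

theorem smul_jd_of_mem_Gamma0 (d : ℕ) [NeZero d] (δ : SL(2, ℤ)) (hδ : δ ∈ Gamma0 d) :
    δ • jd d = jd d := by
  ext τ
  rw [Fun.sl_smul_apply]
  exact jd_apply_smul_of_mem_Gamma0 d δ⁻¹ (inv_mem hδ) τ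

theorem Gamma_le_Gamma0_of_dvd {d M : ℕ} (h : d ∣ M) : Gamma M ≤ Gamma0 d := by
  intro γ hγ
  rw [Gamma_mem] at hγ
  rw [Gamma0_mem]
  obtain ⟨-, -, h10, -⟩ := hγ
  rw [ZMod.intCast_zmod_eq_zero_iff_dvd] at h10 ⊢
  exact (Int.natCast_dvd_natCast.mpr h).trans h10

/-- An element of `SL(2,ℤ)` that fixes all the generators acts trivially on `LL M`. -/
theorem smul_eq_of_forall_gens (M : ℕ) (γ : SL(2, ℤ)) (h : ∀ f ∈ gens M, γ • f = f) (x : LL M) :
    γ • x = x := by
  have hAL : ∀ f : Fun, f ∈ AL M → γ • f = f := by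
    intro f hf
    induction hf using Algebra.adjoin_induction with
    | mem x hx => exact h x hx
    | algebraMap a =>
      ext τ
      simp
    | add x y _ _ hx hy => rw [smul_add, hx, hy]
    | mul x y _ _ hx hy => rw [smul_mul', hx, hy]
  have hAL' : ∀ f : AL M, γ • f = f := fun f => Subtype.ext (hAL f.1 f.2)
  obtain ⟨a, b, -, rfl⟩ := IsFractionRing.div_surjective (A := AL M) x
  rw [div_eq_mul_inv, smul_mul', smul_inv'', LL.smul_algebraMap, LL.smul_algebraMap, hAL' a,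
    hAL' b]

end Periods

open Periods in
/-- The principal congruence subgroup acts trivially (finite quotient). -/
theorem Gamma_smul_eq (M : ℕ) [NeZero M] (γ : SL(2, ℤ)) (hγ : γ ∈ CongruenceSubgroup.Gamma M)
    (x : LL M) : γ • x = x := by
  apply smul_eq_of_forall_gens
  rintro f ⟨d, hd, hdM, γ', rfl⟩
  have hconj : γ'⁻¹ * γ * γ' ∈ Gamma M := by
    have hn : (Gamma M).Normal := Gamma_normal M
    have := hn.conj_mem γ hγ γ'⁻¹
    simpa using this
  have h1 := smul_jd_of_mem_Gamma0 d _ (Gamma_le_Gamma0_of_dvd hdM hconj)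
  calc γ • γ' • jd d = γ' • ((γ'⁻¹ * γ * γ') • jd d) := by
        rw [← mul_smul, ← mul_smul]
        congr 1
        group
    _ = γ' • jd d := by rw [h1]

namespace Periods

/-- The subgroup of `SL(2,ℤ)` acting trivially on `LL M`. -/
def fixer (M : ℕ) : Subgroup SL(2, ℤ) where
  carrier := {γ | ∀ x : LL M, γ • x = x}
  one_mem' x := one_smul _ x
  mul_mem' {a b} ha hb x := by rw [mul_smul, hb x, ha x]
  inv_mem' {a} ha x := by
    rw [inv_smul_eq_iff, ha x]

theorem mem_fixer {M : ℕ} {γ : SL(2, ℤ)} : γ ∈ fixer M ↔ ∀ x : LL M, γ • x = x := Iff.rfl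

/-- Order of an element of prime order modulo a subgroup. -/
theorem zpow_mem_iff_of_prime {G : Type*} [Group G] (H : Subgroup G) (g : G) (p : ℕ)
    (hp : p.Prime) (hgp : g ^ p ∈ H) (hg : g ∉ H) (k : ℤ) : g ^ k ∈ H ↔ (p : ℤ) ∣ k := by
  constructor
  · intro hk
    by_contra hnd
    have hcop : IsCoprime k (p : ℤ) :=
      ((Prime.coprime_iff_not_dvd (Nat.prime_iff_prime_int.mp hp)).mpr hnd).symm
    obtain ⟨a, b, hab⟩ := hcop
    apply hg
    have : g = (g ^ k) ^ a * (g ^ (p : ℤ)) ^ b := by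
      rw [← zpow_mul, ← zpow_mul, ← zpow_add, mul_comm k a, mul_comm (p : ℤ) b, hab, zpow_one]
    rw [this]
    exact H.mul_mem (H.zpow_mem hk a) (H.zpow_mem (by rwa [zpow_natCast]) b)
  · rintro ⟨m, rfl⟩
    rw [zpow_mul, zpow_natCast]
    exact H.zpow_mem hgp m


/-! ### Asymptotics of `jFun` at `i∞` -/

section asymptotics

open Filter Topology Complex
open scoped Real

local notation "𝕢" => Function.Periodic.qParam

/-- `j q → 1` at `i∞`. -/
theorem tendsto_jFun_mul_qParam :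
    Tendsto (fun τ : ℍ => jFun τ * 𝕢 1 (τ : ℂ)) atImInfty (𝓝 1) := by
  have hE : Tendsto (fun τ : ℍ => ModularForm.E₄ τ) atImInfty (𝓝 1) :=
    Fermat.Agent.S20.ramanujanAux_tendsto_E (k := 4) (by norm_num) ⟨2, rfl⟩
  have hP := ModularForm.tendsto_atImInfty_tprod_one_sub_eta_q_pow
  have h := (hE.pow 3).div hP one_ne_zero
  simp only [one_pow, div_one] at h
  refine h.congr (fun τ => ?_)
  show _ = ModularForm.E₄ τ ^ 3 / ModularForm.discriminant τ * _
  rw [ModularForm.discriminant_eq_q_prod]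
  have hq : 𝕢 1 (τ : ℂ) ≠ 0 := Complex.exp_ne_zero _
  rw [mul_comm (𝕢 1 (τ : ℂ)), ← div_div, div_mul_cancel₀ _ hq]
  rfl

theorem tendsto_vadd_atImInfty (r : ℝ) : Tendsto (fun σ : ℍ => r +ᵥ σ) atImInfty atImInfty := by
  simp only [atImInfty, tendsto_comap_iff, Function.comp_def, UpperHalfPlane.vadd_im]
  exact tendsto_comap

/-- `jFun` has no real periods other than the integers. -/
theorem int_of_jFun_vadd (r : ℝ) (h : ∀ σ : ℍ, jFun (r +ᵥ σ) = jFun σ) : ∃ n : ℤ, r = n := by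
  have h1 := tendsto_jFun_mul_qParam
  have h2 := h1.comp (tendsto_vadd_atImInfty r)
  have h3 : Tendsto (fun σ : ℍ => Complex.exp (2 * π * Complex.I * r) * (jFun σ * 𝕢 1 (σ : ℂ)))
      atImInfty (𝓝 1) := by
    refine h2.congr (fun σ => ?_)
    simp only [Function.comp]
    rw [h σ, mul_left_comm]
    congr 1
    rw [Function.Periodic.qParam, Function.Periodic.qParam, ← Complex.exp_add, coe_vadd]
    congr 1
    push_cast
    ring
  have h4 := h1.const_mul (Complex.exp (2 * π * Complex.I * r))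
  have h5 := tendsto_nhds_unique h3 h4
  rw [mul_one] at h5
  obtain ⟨n, hn⟩ := Complex.exp_eq_one_iff.mp h5.symm
  refine ⟨n, ?_⟩
  have h2pi : (2 * π * Complex.I : ℂ) ≠ 0 := by
    simp [Real.pi_ne_zero]
  have : (r : ℂ) = n := by
    apply mul_left_cancel₀ h2pi
    rw [hn]
    ring
  exact_mod_cast this

/-- `τ ↦ τ / d` on the upper half plane. -/
def unscale (d : ℕ) [NeZero d] (τ : ℍ) : ℍ :=
  ⟨(τ : ℂ) / (d : ℂ), by
    have hd : (0 : ℝ) < d := Nat.cast_pos.mpr (Nat.pos_of_ne_zero (NeZero.ne d))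
    have : ((τ : ℂ) / (d : ℂ)).im = τ.im / d := by
      rw [← Complex.ofReal_natCast, Complex.div_ofReal_im]
      rfl
    rw [this]
    exact div_pos τ.im_pos hd⟩

@[simp] theorem coe_unscale (d : ℕ) [NeZero d] (τ : ℍ) :
    (unscale d τ : ℂ) = (τ : ℂ) / (d : ℂ) := rfl

theorem unscale_scale (d : ℕ) [NeZero d] (τ : ℍ) : unscale d (scale d τ) = τ := by
  apply UpperHalfPlane.ext
  have hd0 : (d : ℂ) ≠ 0 := Nat.cast_ne_zero.mpr (NeZero.ne d)
  rw [coe_unscale, coe_scale, mul_div_cancel_left₀ _ hd0]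

theorem scale_unscale (d : ℕ) [NeZero d] (τ : ℍ) : scale d (unscale d τ) = τ := by
  apply UpperHalfPlane.ext
  have hd0 : (d : ℂ) ≠ 0 := Nat.cast_ne_zero.mpr (NeZero.ne d)
  rw [coe_scale, coe_unscale, mul_div_cancel₀ _ hd0]

theorem im_scale (d : ℕ) [NeZero d] (τ : ℍ) : (scale d τ).im = d * τ.im := by
  show ((d : ℂ) * (τ : ℂ)).im = _
  simp

theorem im_unscale (d : ℕ) [NeZero d] (τ : ℍ) : (unscale d τ).im = τ.im / d := by
  show ((τ : ℂ) / (d : ℂ)).im = _
  rw [← Complex.ofReal_natCast, Complex.div_ofReal_im]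
  rfl

theorem tendsto_scale_atImInfty (d : ℕ) [NeZero d] : Tendsto (scale d) atImInfty atImInfty := by
  have hd : (0 : ℝ) < d := Nat.cast_pos.mpr (Nat.pos_of_ne_zero (NeZero.ne d))
  simp only [atImInfty, tendsto_comap_iff, Function.comp_def, im_scale]
  exact (tendsto_id.const_mul_atTop hd).comp tendsto_comap

theorem tendsto_unscale_atImInfty (d : ℕ) [NeZero d] :
    Tendsto (unscale d) atImInfty atImInfty := by
  have hd : (0 : ℝ) < d := Nat.cast_pos.mpr (Nat.pos_of_ne_zero (NeZero.ne d))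
  simp only [atImInfty, tendsto_comap_iff, Function.comp_def, im_unscale]
  exact (tendsto_id.atTop_div_const hd).comp tendsto_comap

/-- `j(τ/M)` and `j(Mτ)` are different functions for `M ≥ 2`. -/
theorem not_forall_jFun_unscale_eq (M : ℕ) [NeZero M] (hM : 2 ≤ M) :
    ¬ ∀ τ : ℍ, jFun (unscale M τ) = jFun (scale M τ) := by
  intro h
  have h1 := tendsto_jFun_mul_qParam
  have a := h1.comp (tendsto_scale_atImInfty M)
  have b := h1.comp (tendsto_unscale_atImInfty M)
  have hM2 : (2 : ℝ) ≤ M := by exact_mod_cast hM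
  have hMpos : (0 : ℝ) < M := by linarith
  have hh : (0 : ℝ) < (M : ℝ) - 1 / M := by
    have : (1 : ℝ) / M ≤ 1 / 2 := by
      apply div_le_div_of_nonneg_left (by norm_num) (by norm_num) hM2
    linarith
  have hR := UpperHalfPlane.qParam_tendsto_atImInfty (h := 1 / ((M : ℝ) - 1 / M)) (by positivity)
  have c := b.mul hR
  have hc : ∀ τ : ℍ, ((fun τ : ℍ => jFun τ * 𝕢 1 (τ : ℂ)) ∘ unscale M) τ *
      𝕢 (1 / ((M : ℝ) - 1 / M)) (τ : ℂ) =
      ((fun τ : ℍ => jFun τ * 𝕢 1 (τ : ℂ)) ∘ scale M) τ := by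
    intro τ
    simp only [Function.comp]
    rw [h τ, mul_assoc]
    congr 1
    rw [Function.Periodic.qParam, Function.Periodic.qParam, Function.Periodic.qParam,
      ← Complex.exp_add, coe_unscale, coe_scale]
    congr 1
    have hM0 : (M : ℂ) ≠ 0 := Nat.cast_ne_zero.mpr (NeZero.ne M)
    have hh0 : ((M : ℝ) - 1 / M : ℝ) ≠ 0 := hh.ne'
    push_cast
    field_simp
    ring
  have h5 := tendsto_nhds_unique (c.congr hc) a
  simp at h5

end asymptotics


/-! ### The elements `S`, `S * T`, `T` -/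

theorem S_smul_S_smul (τ : ℍ) : ModularGroup.S • ModularGroup.S • τ = τ := by
  apply UpperHalfPlane.ext
  rw [modular_S_smul, modular_S_smul]
  simp

theorem S_inv_smul (τ : ℍ) : ModularGroup.S⁻¹ • τ = ModularGroup.S • τ := by
  rw [inv_smul_eq_iff, S_smul_S_smul]

theorem ST_pow_three : (ModularGroup.S * ModularGroup.T) ^ 3 = -1 := by
  ext i j
  simp only [pow_succ, pow_zero, one_mul, Matrix.SpecialLinearGroup.coe_mul, ModularGroup.coe_S,
    ModularGroup.coe_T, Matrix.SpecialLinearGroup.coe_neg, Matrix.SpecialLinearGroup.coe_one]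
  fin_cases i <;> fin_cases j <;> simp [Matrix.mul_apply, Fin.sum_univ_two]

/-- An element acting trivially on the upper half plane acts trivially on `LL M`. -/
theorem mem_fixer_of_forall_smul (M : ℕ) (γ : SL(2, ℤ)) (h : ∀ τ : ℍ, γ • τ = τ) :
    γ ∈ fixer M := by
  intro x
  apply smul_eq_of_forall_gens
  intro f _
  ext τ
  rw [Fun.sl_smul_apply]
  congr 1
  rw [inv_smul_eq_iff, h τ]

theorem S_sq_mem_fixer (M : ℕ) : ModularGroup.S ^ 2 ∈ fixer M := by
  apply mem_fixer_of_forall_smul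
  intro τ
  rw [pow_two, mul_smul, S_smul_S_smul]

theorem ST_cube_mem_fixer (M : ℕ) : (ModularGroup.S * ModularGroup.T) ^ 3 ∈ fixer M := by
  apply mem_fixer_of_forall_smul
  intro τ
  rw [ST_pow_three, ModularGroup.SL_neg_smul, one_smul]

theorem jd_S_inv_smul (M : ℕ) [NeZero M] (τ : ℍ) :
    jd M (ModularGroup.S⁻¹ • τ) = jFun (unscale M τ) := by
  show jFun (scale M (ModularGroup.S⁻¹ • τ)) = jFun (unscale M τ)
  have : scale M (ModularGroup.S⁻¹ • τ) = ModularGroup.S • unscale M τ := by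
    apply UpperHalfPlane.ext
    rw [S_inv_smul, coe_scale, modular_S_smul, modular_S_smul]
    have hM0 : (M : ℂ) ≠ 0 := Nat.cast_ne_zero.mpr (NeZero.ne M)
    have hτ : (τ : ℂ) ≠ 0 := UpperHalfPlane.ne_zero τ
    simp only [coe_unscale]
    field_simp
  rw [this, jFun_apply_smul]

theorem eq_of_mem_fixer {M : ℕ} {γ : SL(2, ℤ)} (h : γ ∈ fixer M) {f : Fun} (hf : f ∈ AL M) :
    γ • f = f := by
  have hx := h (algebraMap (AL M) (LL M) ⟨f, hf⟩)
  rw [LL.smul_algebraMap] at hx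
  have hx' := IsFractionRing.injective (AL M) (LL M) hx
  exact congrArg Subtype.val hx'

theorem S_not_mem_fixer (M : ℕ) [NeZero M] (hM : 2 ≤ M) : ModularGroup.S ∉ fixer M := by
  intro h
  apply not_forall_jFun_unscale_eq M hM
  intro τ
  have h1 := eq_of_mem_fixer h (jd_mem_AL (M := M) (d := M) dvd_rfl)
  have h2 := congrArg (fun f : Fun => f τ) h1
  simp only [Fun.sl_smul_apply] at h2
  rw [jd_S_inv_smul] at h2
  exact h2

theorem T_mem_Gamma0 (M : ℕ) : ModularGroup.T ∈ Gamma0 M := by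
  rw [Gamma0_mem, ModularGroup.coe_T]
  simp

theorem ST_not_mem_fixer (M : ℕ) [NeZero M] (hM : 2 ≤ M) :
    ModularGroup.S * ModularGroup.T ∉ fixer M := by
  intro h
  apply not_forall_jFun_unscale_eq M hM
  intro τ
  have h1 := eq_of_mem_fixer h (jd_mem_AL (M := M) (d := M) dvd_rfl)
  have h2 := congrArg (fun f : Fun => f τ) h1
  simp only [Fun.sl_smul_apply] at h2
  rw [mul_inv_rev, mul_smul,
    jd_apply_smul_of_mem_Gamma0 M _ (inv_mem (T_mem_Gamma0 M)), jd_S_inv_smul] at h2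
  exact h2

end Periods

open Periods in
theorem S_zpow_smul_eq_iff (M : ℕ) (hM : 2 ≤ M) (k : ℤ) :
    (∀ x : LL M, (ModularGroup.S ^ k) • x = x) ↔ (2 : ℤ) ∣ k := by
  have : NeZero M := ⟨by omega⟩
  have h := zpow_mem_iff_of_prime (fixer M) ModularGroup.S 2 Nat.prime_two (S_sq_mem_fixer M)
    (S_not_mem_fixer M hM) k
  exact h

open Periods in
theorem ST_zpow_smul_eq_iff (M : ℕ) (hM : 2 ≤ M) (k : ℤ) :
    (∀ x : LL M, ((ModularGroup.S * ModularGroup.T) ^ k) • x = x) ↔ (3 : ℤ) ∣ k := by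
  have : NeZero M := ⟨by omega⟩
  have h := zpow_mem_iff_of_prime (fixer M) (ModularGroup.S * ModularGroup.T) 3 Nat.prime_three
    (ST_cube_mem_fixer M) (ST_not_mem_fixer M hM) k
  exact h

open Periods in
theorem T_zpow_smul_eq_iff (M : ℕ) [NeZero M] (k : ℤ) :
    (∀ x : LL M, (ModularGroup.T ^ k) • x = x) ↔ (M : ℤ) ∣ k := by
  constructor
  · intro h
    have hmem : ModularGroup.T ^ k ∈ fixer M := h
    have h1 := eq_of_mem_fixer hmem (smul_mem_AL M ModularGroup.S (jd_mem_AL (M := M) (d := M) dvd_rfl))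
    have hM0 : (M : ℝ) ≠ 0 := Nat.cast_ne_zero.mpr (NeZero.ne M)
    have key : ∀ σ : ℍ, jFun ((-(k : ℝ) / M) +ᵥ σ) = jFun σ := by
      intro σ
      have h2 := congrArg (fun f : Fun => f (scale M σ)) h1
      simp only [Fun.sl_smul_apply] at h2
      rw [jd_S_inv_smul, jd_S_inv_smul, unscale_scale] at h2
      rw [← h2]
      congr 1
      apply UpperHalfPlane.ext
      rw [← zpow_neg, coe_vadd, coe_unscale, ModularGroup.coe_T_zpow_smul_eq, coe_scale]
      have hM0' : (M : ℂ) ≠ 0 := Nat.cast_ne_zero.mpr (NeZero.ne M)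
      push_cast
      field_simp
      ring
    obtain ⟨n, hn⟩ := int_of_jFun_vadd _ key
    refine ⟨-n, ?_⟩
    have h3 : (k : ℝ) = (M : ℝ) * ((-n : ℤ) : ℝ) := by
      push_cast
      field_simp at hn
      linarith
    exact_mod_cast h3
  · intro hk x
    apply Gamma_smul_eq M
    have := ModularGroup_T_pow_mem_Gamma (M : ℤ) k hk
    simpa using this

end Fermat.Agent.S24
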