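/-
S24, component COMB (helper83), part 2: the sign of a permutation in terms of its number of orbits.
-/
import Mathlib

set_option autoImplicit false
set_option linter.unusedSectionVars false

noncomputable section

namespace Fermat.Agent.S24

open Equiv Equiv.Perm

section Sign

variable {X : Type} [Fintype X] [DecidableEq X]

/-- the class map: fixed points go to themselves, the other points to their cycle. -/
def cycleClass (σ : Perm X) (x : X) : (Function.fixedPoints σ) ⊕ σ.cycleFactorsFinset :=
  if h : σ x = x then Sum.inl ⟨x, h⟩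
  else Sum.inr ⟨σ.cycleOf x, cycleOf_mem_cycleFactorsFinset_iff.2 (mem_support.2 h)⟩

lemma cycleClass_eq_iff (σ : Perm X) (x y : X) :
    cycleClass σ x = cycleClass σ y ↔ σ.SameCycle x y := by
  unfold cycleClass
  by_cases hx : σ x = x
  · by_cases hy : σ y = y
    · simp only [hx, hy, dite_true, Sum.inl.injEq]
      constructor
      · intro h
        have h' : x = y := congrArg Subtype.val h
        rw [h']
      · rintro ⟨i, hi⟩
        apply Subtype.ext
        show x = y
        rw [← hi]
        exact ((zpow_apply_eq_self_of_apply_eq_self hx i)).symm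
    · simp only [hx, hy, dite_true, dite_false, reduceCtorEq, false_iff]
      intro h
      exact hy (h.apply_eq_self_iff.1 hx)
  · by_cases hy : σ y = y
    · simp only [hx, hy, dite_true, dite_false, reduceCtorEq, false_iff]
      intro h
      exact hx (h.apply_eq_self_iff.2 hy)
    · simp only [hx, hy, dite_false, Sum.inr.injEq, Subtype.mk.injEq]
      exact (sameCycle_iff_cycleOf_eq_of_mem_support (mem_support.2 hx) (mem_support.2 hy)).symm

lemma cycleClass_surjective (σ : Perm X) : Function.Surjective (cycleClass σ) := by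
  rintro (⟨x, hx⟩ | ⟨c, hc⟩)
  · refine ⟨x, ?_⟩
    have hx' : σ x = x := hx
    simp [cycleClass, hx']
  · have hcyc := (mem_cycleFactorsFinset_iff.1 hc).1
    obtain ⟨a, ha⟩ := hcyc.nonempty_support
    have ha' : a ∈ σ.support := mem_cycleFactorsFinset_support_le hc ha
    refine ⟨a, ?_⟩
    have h1 : ¬ σ a = a := mem_support.1 ha'
    have h2 : c = σ.cycleOf a := cycle_is_cycleOf ha hc
    simp only [cycleClass, h1, dite_false, Sum.inr.injEq, Subtype.mk.injEq]
    exact h2.symm

/-- the classes of `SameCycle` are the fixed points and the cycles. -/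
def sameCycleQuotEquiv (σ : Perm X) :
    Quotient (SameCycle.setoid σ) ≃ (Function.fixedPoints σ) ⊕ σ.cycleFactorsFinset :=
  Equiv.ofBijective
    (Quotient.lift (cycleClass σ) (fun x y h => (cycleClass_eq_iff σ x y).2 h))
    ⟨by
      rintro ⟨x⟩ ⟨y⟩ h
      exact Quotient.sound ((cycleClass_eq_iff σ x y).1 h),
     by
      intro z
      obtain ⟨x, rfl⟩ := cycleClass_surjective σ z
      exact ⟨Quotient.mk _ x, rfl⟩⟩

lemma card_sameCycle_quotient (σ : Perm X) :
    Nat.card (Quotient (SameCycle.setoid σ)) + σ.cycleType.sum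
      = Fintype.card X + Multiset.card σ.cycleType := by
  classical
  rw [Nat.card_congr (sameCycleQuotEquiv σ), Nat.card_eq_fintype_card, Fintype.card_sum,
    card_fixedPoints, Fintype.card_coe, cycleType_def, Multiset.card_map]
  have := sum_cycleType_le σ
  rw [cycleType_def] at this
  have h2 : Multiset.card σ.cycleFactorsFinset.val = σ.cycleFactorsFinset.card := rfl
  omega

/-- the sign of a permutation is `(-1) ^ (n + number of orbits)`. -/
lemma sign_eq_neg_one_pow (σ : Perm X) :
    Perm.sign σ = (-1 : ℤˣ) ^ (Fintype.card X + Nat.card (Quotient (SameCycle.setoid σ))) := by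
  rw [sign_of_cycleType]
  have h := card_sameCycle_quotient σ
  have h2 : Fintype.card X + Nat.card (Quotient (SameCycle.setoid σ)) + 2 * σ.cycleType.sum
      = σ.cycleType.sum + Multiset.card σ.cycleType + 2 * Fintype.card X := by omega
  have h3 : ((-1 : ℤˣ) ^ (Fintype.card X + Nat.card (Quotient (SameCycle.setoid σ))))
      * (-1 : ℤˣ) ^ (2 * σ.cycleType.sum)
      = (-1 : ℤˣ) ^ (σ.cycleType.sum + Multiset.card σ.cycleType)
        * (-1 : ℤˣ) ^ (2 * Fintype.card X) := by
    rw [← pow_add, ← pow_add, h2]
  simpa [pow_mul] using h3.symm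

end Sign

end Fermat.Agent.S24

namespace Fermat.Agent.S24

open Equiv Equiv.Perm

section Orbits

variable {G : Type*} [Group G] {X : Type} [Fintype X] [DecidableEq X] [MulAction G X]

lemma toPerm_zpow_apply (g : G) (i : ℤ) (x : X) :
    ((MulAction.toPerm g : Perm X) ^ i) x = g ^ i • x := by
  have h : (MulAction.toPerm g : Perm X) ^ i = MulAction.toPerm (g ^ i) :=
    (map_zpow (MulAction.toPermHom G X) g i).symm
  rw [h]
  rfl

/-- orbits of `⟨g⟩` are the `SameCycle` classes of the permutation `x ↦ g • x`. -/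
def orbitQuotEquiv (g : G) :
    MulAction.orbitRel.Quotient (Subgroup.zpowers g) X
      ≃ Quotient (SameCycle.setoid (MulAction.toPerm g : Perm X)) :=
  Quotient.congr (Equiv.refl X) (by
    intro x y
    show x ∈ MulAction.orbit (Subgroup.zpowers g) y ↔ SameCycle (MulAction.toPerm g : Perm X) x y
    constructor
    · rintro ⟨⟨t, ht⟩, rfl⟩
      obtain ⟨k, rfl⟩ := Subgroup.mem_zpowers_iff.mp ht
      refine ⟨-k, ?_⟩
      rw [toPerm_zpow_apply]
      show g ^ (-k) • (g ^ k • y) = y
      rw [smul_smul, ← zpow_add]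
      simp
    · rintro ⟨i, hi⟩
      rw [toPerm_zpow_apply] at hi
      refine ⟨⟨g ^ (-i), Subgroup.zpow_mem_zpowers g _⟩, ?_⟩
      show g ^ (-i) • y = x
      rw [← hi, smul_smul, ← zpow_add]
      simp)

lemma sign_toPerm (g : G) :
    Perm.sign (MulAction.toPerm g : Perm X)
      = (-1 : ℤˣ) ^ (Fintype.card X
          + Nat.card (MulAction.orbitRel.Quotient (Subgroup.zpowers g) X)) := by
  rw [sign_eq_neg_one_pow, Nat.card_congr (orbitQuotEquiv (X := X) g)]

lemma neg_one_pow_eq_iff (a b : ℕ) : (-1 : ℤˣ) ^ a = (-1 : ℤˣ) ^ b ↔ Even (a + b) := by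
  rcases Nat.even_or_odd a with ha | ha <;> rcases Nat.even_or_odd b with hb | hb
  · simp [ha.neg_one_pow, hb.neg_one_pow, ha.add hb]
  · have : ¬ Even (a + b) := by
      rw [Nat.not_even_iff_odd]; exact ha.add_odd hb
    simp [ha.neg_one_pow, hb.neg_one_pow, this]
  · have : ¬ Even (a + b) := by
      rw [Nat.not_even_iff_odd]; exact ha.add_even hb
    simp [ha.neg_one_pow, hb.neg_one_pow, this]
  · simp [ha.neg_one_pow, hb.neg_one_pow, ha.add_odd hb]

/-- parity of the orbit counts of `s`, `t`, `s * t`. -/
theorem even_card_add_orbits (s t : G) :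
    Even (Fintype.card X
      + Nat.card (MulAction.orbitRel.Quotient (Subgroup.zpowers s) X)
      + Nat.card (MulAction.orbitRel.Quotient (Subgroup.zpowers (s * t)) X)
      + Nat.card (MulAction.orbitRel.Quotient (Subgroup.zpowers t) X)) := by
  have h1 : (MulAction.toPerm (s * t) : Perm X) = MulAction.toPerm s * MulAction.toPerm t :=
    map_mul (MulAction.toPermHom G X) s t
  have h2 := congrArg Perm.sign h1
  rw [map_mul, sign_toPerm, sign_toPerm, sign_toPerm, ← pow_add, neg_one_pow_eq_iff] at h2
  obtain ⟨k, hk⟩ := h2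
  refine ⟨k - Fintype.card X, ?_⟩
  omega

end Orbits

end Fermat.Agent.S24
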