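/-
S24 blueprint, top-level interface (helper84).

`Fermat.Agent.S24Glue.degree_canonical_of_galois_datum'` (Glue.lean) is the PURE ALGEBRA half of S24: from a "Galois datum"
(a field `L ⊇ F` with a group `Γ` acting through a finite quotient, invariants `K(j)`,
and one integer valued valuation of `L` above every point of the `j`-line, preserved by a
cyclic subgroup whose image has as many elements as the order of vanishing of the local parameter)
it computes the degree of every canonical divisor of `F` by Riemann-Hurwitz.
The ANALYTIC half of S24 has to construct such a datum for `F = modularFunctionFieldBar N`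
with `Γ = SL(2,ℤ)`, `H = Γ₀(N)`; see the S24 blueprint note on the board.
-/
import Mathlib
import Fermat.Prelude.Def_AlgebraicCurve_CanonicalDivisor

set_option autoImplicit false

open KaehlerDifferential

namespace Fermat.Agent.S24

open AlgebraicCurve

/-- Number of orbits of the cyclic group generated by `g` on the left cosets `Γ ⧸ H`. -/
noncomputable def orbCount {Γ : Type*} [Group Γ] (H : Subgroup Γ) (g : Γ) : ℕ :=
  Nat.card (MulAction.orbitRel.Quotient (Subgroup.zpowers g) (Γ ⧸ H))

end Fermat.Agent.S24
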