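/-
S24, component COMB (helper83): orbit counts of `S`, `S * T`, `T` on `SL(2,ℤ) ⧸ Γ₀(N)` and the
arithmetic of the Riemann–Hurwitz sum.
-/
import Mathlib
import Fermat.Agent.S20.PermEigen
import Fermat.Agent.S20.Cosets
import Fermat.Agent.S24.Interface
import Fermat.Agent.S21.GroupFinal
import Fermat.Agent.S24.CombSign

set_option autoImplicit false
set_option linter.unusedSectionVars false

noncomputable section

namespace Fermat.Agent.S24

open Module CongruenceSubgroup
open scoped MatrixGroups

section Abstract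

variable {G : Type*} [Group G] {X : Type} [Fintype X] [DecidableEq X] [MulAction G X]

lemma pull_mem_permEigen (g : G) (F : MulAction.orbitRel.Quotient (Subgroup.zpowers g) X → ℂ) :
    (fun x : X => F (Quotient.mk'' x))
      ∈ Fermat.Agent.S20.permEigen (MulAction.toPerm g : Equiv.Perm X) 1 := by
  intro x
  simp only [MulAction.toPerm_apply, one_mul]
  congr 1
  apply Quotient.sound'
  exact ⟨⟨g, Subgroup.mem_zpowers g⟩, rfl⟩

/-- pull back of functions on the orbit space. -/
def orbitFunMap (g : G) :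
    (MulAction.orbitRel.Quotient (Subgroup.zpowers g) X → ℂ) →ₗ[ℂ]
      Fermat.Agent.S20.permEigen (MulAction.toPerm g : Equiv.Perm X) 1 where
  toFun F := ⟨fun x => F (Quotient.mk'' x), pull_mem_permEigen g F⟩
  map_add' F F' := rfl
  map_smul' c F := rfl

lemma orbitFunMap_bijective (g : G) : Function.Bijective (orbitFunMap (X := X) g) := by
  constructor
  · intro F F' h
    funext ω
    obtain ⟨x, rfl⟩ := Quotient.mk''_surjective ω
    have := congrArg (fun v : Fermat.Agent.S20.permEigen (MulAction.toPerm g : Equiv.Perm X) 1 =>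
      (v : X → ℂ) x) h
    exact this
  · rintro ⟨v, hv⟩
    have hv' : ∀ x, v (g • x) = v x := by
      intro x
      have := hv x
      simpa using this
    have hinv : ∀ x, v (g⁻¹ • x) = v x := by
      intro x
      have := hv' (g⁻¹ • x)
      rw [smul_inv_smul] at this
      exact this.symm
    have hz : ∀ (k : ℤ) (x : X), v (g ^ k • x) = v x := by
      intro k
      induction k using Int.induction_on with
      | zero => intro x; simp
      | succ n ih =>
        intro x
        rw [zpow_add_one, mul_smul, ih, hv']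
      | pred n ih =>
        intro x
        rw [zpow_sub_one, mul_smul, ih, hinv]
    refine ⟨Quotient.lift v ?_, ?_⟩
    · rintro a b ⟨⟨t, ht⟩, rfl⟩
      obtain ⟨k, rfl⟩ := Subgroup.mem_zpowers_iff.mp ht
      exact hz k b
    · apply Subtype.ext
      funext x
      rfl

/-- invariant functions are the functions on the orbit space. -/
def orbitFunEquiv (g : G) :
    (MulAction.orbitRel.Quotient (Subgroup.zpowers g) X → ℂ) ≃ₗ[ℂ]
      Fermat.Agent.S20.permEigen (MulAction.toPerm g : Equiv.Perm X) 1 :=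
  LinearEquiv.ofBijective (orbitFunMap g) (orbitFunMap_bijective g)

lemma card_orbits_eq_finrank (g : G) :
    Nat.card (MulAction.orbitRel.Quotient (Subgroup.zpowers g) X)
      = finrank ℂ (Fermat.Agent.S20.permEigen (MulAction.toPerm g : Equiv.Perm X) 1) := by
  classical
  rw [← (orbitFunEquiv (X := X) g).finrank_eq, Module.finrank_fintype_fun_eq_card,
    Nat.card_eq_fintype_card]

lemma two_mul_card_orbits (g : G) (hg : ∀ x : X, g • g • x = x) :
    2 * Nat.card (MulAction.orbitRel.Quotient (Subgroup.zpowers g) X)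
      = Fintype.card X + Fintype.card {x : X // g • x = x} := by
  rw [card_orbits_eq_finrank]
  have hσ : MulAction.toPerm g * MulAction.toPerm g = (1 : Equiv.Perm X) := by
    ext x; simp [hg]
  exact Fermat.Agent.S20.finrank_permEigen_two_one (MulAction.toPerm g : Equiv.Perm X) hσ

lemma three_mul_card_orbits (g : G) (hg : ∀ x : X, g • g • g • x = x) :
    3 * Nat.card (MulAction.orbitRel.Quotient (Subgroup.zpowers g) X)
      = Fintype.card X + 2 * Fintype.card {x : X // g • x = x} := by
  rw [card_orbits_eq_finrank]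
  have hσ : MulAction.toPerm g * MulAction.toPerm g * MulAction.toPerm g
      = (1 : Equiv.Perm X) := by
    ext x; simp [hg]
  exact Fermat.Agent.S20.finrank_permEigen_three_one (MulAction.toPerm g : Equiv.Perm X) hσ

end Abstract

section Concrete

open Fermat.Agent.S21 in
lemma smul_S_S (Γ : Subgroup SL(2, ℤ)) (hneg : (-1 : SL(2, ℤ)) ∈ Γ) (x : SL(2, ℤ) ⧸ Γ) :
    ModularGroup.S • ModularGroup.S • x = x := by
  obtain ⟨g, rfl⟩ := QuotientGroup.mk_surjective x
  rw [smul_smul, sl2_S_mul_S]
  show (((-1 : SL(2, ℤ)) * g : SL(2, ℤ)) : SL(2, ℤ) ⧸ Γ) = g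
  rw [sl2_neg_one_central, QuotientGroup.eq]
  simpa using hneg

open Fermat.Agent.S21 in
lemma smul_ST_ST_ST (Γ : Subgroup SL(2, ℤ)) (hneg : (-1 : SL(2, ℤ)) ∈ Γ) (x : SL(2, ℤ) ⧸ Γ) :
    (ModularGroup.S * ModularGroup.T) • (ModularGroup.S * ModularGroup.T) •
      (ModularGroup.S * ModularGroup.T) • x = x := by
  obtain ⟨g, rfl⟩ := QuotientGroup.mk_surjective x
  rw [smul_smul, smul_smul, sl2_ST_cube]
  show (((-1 : SL(2, ℤ)) * g : SL(2, ℤ)) : SL(2, ℤ) ⧸ Γ) = g
  rw [sl2_neg_one_central, QuotientGroup.eq]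
  simpa using hneg

theorem index_Gamma0 (N : ℕ) [NeZero N] : (Gamma0 N).index = ModularCurve.dedekindPsi N :=
  Fermat.Agent.S20.card_cosetX N

theorem two_mul_orbCount_S (N : ℕ) [NeZero N] :
    2 * orbCount (Gamma0 N) ModularGroup.S
      = ModularCurve.dedekindPsi N + ModularCurve.nuTwo N := by
  classical
  letI : Fintype (SL(2, ℤ) ⧸ Gamma0 N) := Fintype.ofFinite _
  have h := two_mul_card_orbits (X := SL(2, ℤ) ⧸ Gamma0 N) ModularGroup.S
    (smul_S_S (Gamma0 N) (Fermat.Agent.S21.neg_one_mem_Gamma0 N))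
  have h1 := Fermat.Agent.S20.card_cosetX N
  have h2 := Fermat.Agent.S20.card_fixedBy_S N
  simp only [Fermat.Agent.S20.CosetX] at h1 h2
  have h3 : Nat.card (MulAction.fixedBy (SL(2, ℤ) ⧸ Gamma0 N) ModularGroup.S)
      = Fintype.card {x : SL(2, ℤ) ⧸ Gamma0 N // ModularGroup.S • x = x} := by
    rw [← Nat.card_eq_fintype_card]
    rfl
  rw [Nat.card_eq_fintype_card] at h1
  have h' : 2 * orbCount (Gamma0 N) ModularGroup.S
      = Fintype.card (SL(2, ℤ) ⧸ Gamma0 N)
        + Fintype.card {x : SL(2, ℤ) ⧸ Gamma0 N // ModularGroup.S • x = x} := h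
  rw [h', h1, ← h3, h2]

theorem three_mul_orbCount_ST (N : ℕ) [NeZero N] :
    3 * orbCount (Gamma0 N) (ModularGroup.S * ModularGroup.T)
      = ModularCurve.dedekindPsi N + 2 * ModularCurve.nuThree N := by
  classical
  letI : Fintype (SL(2, ℤ) ⧸ Gamma0 N) := Fintype.ofFinite _
  have h := three_mul_card_orbits (X := SL(2, ℤ) ⧸ Gamma0 N) (ModularGroup.S * ModularGroup.T)
    (smul_ST_ST_ST (Gamma0 N) (Fermat.Agent.S21.neg_one_mem_Gamma0 N))
  have h1 := Fermat.Agent.S20.card_cosetX N
  have h2 := Fermat.Agent.S20.card_fixedBy_ST N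
  simp only [Fermat.Agent.S20.CosetX] at h1 h2
  have h3 : Nat.card (MulAction.fixedBy (SL(2, ℤ) ⧸ Gamma0 N) (ModularGroup.S * ModularGroup.T))
      = Fintype.card {x : SL(2, ℤ) ⧸ Gamma0 N // (ModularGroup.S * ModularGroup.T) • x = x} := by
    rw [← Nat.card_eq_fintype_card]
    rfl
  rw [Nat.card_eq_fintype_card] at h1
  have h' : 3 * orbCount (Gamma0 N) (ModularGroup.S * ModularGroup.T)
      = Fintype.card (SL(2, ℤ) ⧸ Gamma0 N)
        + 2 * Fintype.card {x : SL(2, ℤ) ⧸ Gamma0 N //
            (ModularGroup.S * ModularGroup.T) • x = x} := h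
  rw [h', h1, ← h3, h2]

theorem orbCount_T (N : ℕ) [NeZero N] :
    orbCount (Gamma0 N) ModularGroup.T = ModularCurve.cuspCount N :=
  Fermat.Agent.S20.card_orbits_T N

/-- parity of the orbit counts. -/
theorem even_index_add_orbCount (N : ℕ) [NeZero N] :
    Even ((Gamma0 N).index + orbCount (Gamma0 N) ModularGroup.S
      + orbCount (Gamma0 N) (ModularGroup.S * ModularGroup.T)
      + orbCount (Gamma0 N) ModularGroup.T) := by
  classical
  letI : Fintype (SL(2, ℤ) ⧸ Gamma0 N) := Fintype.ofFinite _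
  have h := even_card_add_orbits (X := SL(2, ℤ) ⧸ Gamma0 N) ModularGroup.S ModularGroup.T
  have h1 : (Gamma0 N).index = Fintype.card (SL(2, ℤ) ⧸ Gamma0 N) := by
    rw [Subgroup.index, Nat.card_eq_fintype_card]
  rw [h1]
  exact h

/-- COMB: `genusFormula N` is a natural number `g`, and the Riemann–Hurwitz sum is `2 g - 2`. -/
theorem comb_degree (N : ℕ) [NeZero N] :
    ∃ g : ℕ, (g : ℚ) = ModularCurve.genusFormula N ∧
      (((Gamma0 N).index : ℤ) - orbCount (Gamma0 N) ModularGroup.S)
        + (((Gamma0 N).index : ℤ) - orbCount (Gamma0 N) (ModularGroup.S * ModularGroup.T))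
        - (Gamma0 N).index - orbCount (Gamma0 N) ModularGroup.T = 2 * (g : ℤ) - 2 := by
  have hpar := even_index_add_orbCount N
  have hn := index_Gamma0 N
  have ha := two_mul_orbCount_S N
  have hb := three_mul_orbCount_ST N
  have hc := orbCount_T N
  have hD := Fermat.Agent.S21.finrank_parabolicHoms_counts N
  set n := (Gamma0 N).index with hn'
  set a := orbCount (Gamma0 N) ModularGroup.S with ha'
  set b := orbCount (Gamma0 N) (ModularGroup.S * ModularGroup.T) with hb'
  set c := orbCount (Gamma0 N) ModularGroup.T with hc'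
  obtain ⟨k, hk⟩ := hpar
  -- `m = n + 2 - a - b - c` is a nonnegative even number
  have hle : a + b + c ≤ n + 2 := by omega
  have hg : ∃ g : ℕ, n + 2 = a + b + c + 2 * g := by
    refine ⟨k + 1 - (a + b + c), ?_⟩
    omega
  obtain ⟨g, hg⟩ := hg
  refine ⟨g, ?_, ?_⟩
  · unfold ModularCurve.genusFormula
    have e1 : ((n : ℚ)) = ModularCurve.dedekindPsi N := by exact_mod_cast hn
    have e2 : (2 : ℚ) * a = ModularCurve.dedekindPsi N + ModularCurve.nuTwo N := by
      exact_mod_cast ha
    have e3 : (3 : ℚ) * b = ModularCurve.dedekindPsi N + 2 * ModularCurve.nuThree N := by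
      exact_mod_cast hb
    have e4 : (c : ℚ) = ModularCurve.cuspCount N := by exact_mod_cast hc
    have e5 : (n : ℚ) + 2 = a + b + c + 2 * g := by exact_mod_cast hg
    linarith
  · omega

end Concrete

end Fermat.Agent.S24
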