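import Mathlib
import Fermat.Prelude.Def_AlgebraicCurve_CanonicalDivisor
import Fermat.Agent.S24.Bridge
import Fermat.Agent.S24.Residue

set_option autoImplicit false

/-!
# S24, ALG-G: the concrete rings `A = K[t] ⊆ B_F ⊆ B_L`

`A := Algebra.adjoin K {t}` (a principal ideal domain with fraction field `K(t)`),
`B_E := integralClosure A E` for a finite extension `E` of `K(t)` containing `F`
(Dedekind, finite and flat over `A`, fraction field `E`), `p := (t)` (maximal, residue field `K`),
and the bijection between the places of `F` at which `t` vanishes and the primes of `B_F`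
over `p`.
-/

noncomputable section

open IntermediateField Polynomial AlgebraicCurve IsDedekindDomain
open scoped IntermediateField.algebraAdjoinAdjoin

namespace Fermat.Agent.S24Fib

variable {K F : Type*} [Field K] [Field F] [Algebra K F]

/-! ### the ring `A = K[t]` -/

variable (K) in
/-- `t` as an element of `K[t]`. -/
def tA (t : F) : Algebra.adjoin K {t} := ⟨t, Algebra.self_mem_adjoin_singleton K t⟩

@[simp] theorem coe_tA (t : F) : ((tA K t : Algebra.adjoin K {t}) : F) = t := rfl

theorem algebraMap_tA (t : F) : algebraMap (Algebra.adjoin K {t}) F (tA K t) = t := rfl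

theorem tA_ne_zero {t : F} (ht : Transcendental K t) : tA K t ≠ 0 := by
  intro h
  have h0 : t = 0 := congrArg Subtype.val h
  exact ht (h0 ▸ isAlgebraic_zero)

theorem isPrincipalIdealRing_adjoin {t : F} (ht : Transcendental K t) :
    IsPrincipalIdealRing (Algebra.adjoin K {t}) :=
  IsPrincipalIdealRing.of_surjective (algEquivOfTranscendental K t ht).toRingEquiv.toRingHom
    (algEquivOfTranscendental K t ht).surjective

theorem irreducible_tA {t : F} (ht : Transcendental K t) : Irreducible (tA K t) := by
  have h : tA K t = (algEquivOfTranscendental K t ht) X := by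
    rw [algEquivOfTranscendental_apply_X]; rfl
  rw [h]
  exact (MulEquiv.irreducible_iff (algEquivOfTranscendental K t ht).toMulEquiv).mpr irreducible_X

theorem isMaximal_span_tA {t : F} (ht : Transcendental K t) :
    (Ideal.span {tA K t}).IsMaximal := by
  haveI := isPrincipalIdealRing_adjoin ht
  exact PrincipalIdealRing.isMaximal_of_irreducible (irreducible_tA ht)

theorem span_tA_ne_bot {t : F} (ht : Transcendental K t) :
    (Ideal.span {tA K t} : Ideal (Algebra.adjoin K {t})) ≠ ⊥ := by
  rw [Ne, Ideal.span_singleton_eq_bot]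
  exact tA_ne_zero ht

/-- the residue field of `(t)` is `K`. -/
theorem surjective_mk_span_tA (t : F) :
    Function.Surjective ((Ideal.Quotient.mk (Ideal.span {tA K t})).comp
      (algebraMap K (Algebra.adjoin K {t}))) := by
  intro x
  obtain ⟨a, rfl⟩ := Ideal.Quotient.mk_surjective x
  obtain ⟨a, ha⟩ := a
  have ha' := ha
  rw [Algebra.adjoin_singleton_eq_range_aeval] at ha'
  obtain ⟨q, rfl⟩ := ha'
  refine ⟨q.coeff 0, ?_⟩
  rw [RingHom.comp_apply, Ideal.Quotient.eq, Ideal.mem_span_singleton]
  have hmem : aeval t q.divX ∈ Algebra.adjoin K {t} := by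
    rw [Algebra.adjoin_singleton_eq_range_aeval]; exact ⟨_, rfl⟩
  refine ⟨-⟨aeval t q.divX, hmem⟩, ?_⟩
  · apply Subtype.ext
    have hq : aeval t q = aeval t q.divX * t + algebraMap K F (q.coeff 0) := by
      conv_lhs => rw [← Polynomial.divX_mul_X_add q]
      simp
    simp only [AddSubgroupClass.coe_sub, MulMemClass.coe_mul, coe_tA, NegMemClass.coe_neg]
    show algebraMap K F (q.coeff 0) - aeval t q = _
    rw [hq]; ring

/-- `K[t] ⊆ O_v` as soon as `t ∈ O_v`. -/
theorem algebraMap_adjoin_mem (v : Place K F) {t : F} (ht : t ∈ v.toValuationSubring)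
    (a : Algebra.adjoin K {t}) : algebraMap (Algebra.adjoin K {t}) F a ∈ v.toValuationSubring := by
  obtain ⟨a, ha⟩ := a
  show a ∈ v.toValuationSubring
  induction ha using Algebra.adjoin_induction with
  | mem x hx => rw [Set.mem_singleton_iff] at hx; rw [hx]; exact ht
  | algebraMap c => exact v.algebraMap_mem' c
  | add x y _ _ hx hy => exact add_mem hx hy
  | mul x y _ _ hx hy => exact mul_mem hx hy

/-! ### integral closures of `K[t]` -/

section IntegralClosure

variable [CharZero K] {E : Type*} [Field E] [Algebra F E] [Algebra K E] [IsScalarTower K F E]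
  {t : F}

theorem isDedekindDomain_adjoin (ht : Transcendental K t) :
    IsDedekindDomain (Algebra.adjoin K {t}) := by
  haveI := isPrincipalIdealRing_adjoin ht
  infer_instance

variable (E) in
theorem isSeparable_adjoin (t : F) [FiniteDimensional K⟮t⟯ E] : Algebra.IsSeparable K⟮t⟯ E := by
  haveI : CharZero K⟮t⟯ := charZero_of_injective_algebraMap (algebraMap K K⟮t⟯).injective
  infer_instance

variable (E) in
theorem isDedekindDomain_integralClosure (ht : Transcendental K t) [FiniteDimensional K⟮t⟯ E] :
    IsDedekindDomain (integralClosure (Algebra.adjoin K {t}) E) := by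
  haveI := isDedekindDomain_adjoin ht
  haveI := isSeparable_adjoin (K := K) E t
  exact integralClosure.isDedekindDomain (Algebra.adjoin K {t}) K⟮t⟯ E

variable (E) in
theorem isFractionRing_integralClosure (t : F) [FiniteDimensional K⟮t⟯ E] :
    IsFractionRing (integralClosure (Algebra.adjoin K {t}) E) E :=
  integralClosure.isFractionRing_of_finite_extension K⟮t⟯ E

variable (E) in
theorem finite_integralClosure (ht : Transcendental K t) [FiniteDimensional K⟮t⟯ E] :
    Module.Finite (Algebra.adjoin K {t}) (integralClosure (Algebra.adjoin K {t}) E) := by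
  haveI := isDedekindDomain_adjoin ht
  haveI := isSeparable_adjoin (K := K) E t
  exact IsIntegralClosure.finite (Algebra.adjoin K {t}) K⟮t⟯ E _

variable (E) in
theorem isTorsionFree_integralClosure (t : F) :
    Module.IsTorsionFree (Algebra.adjoin K {t}) (integralClosure (Algebra.adjoin K {t}) E) := by
  haveI : Module.IsTorsionFree (Algebra.adjoin K {t}) E := by
    rw [Module.isTorsionFree_iff_algebraMap_injective]
    intro a b hab
    rw [IsScalarTower.algebraMap_apply (Algebra.adjoin K {t}) F E,
      IsScalarTower.algebraMap_apply (Algebra.adjoin K {t}) F E] at hab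
    exact Subtype.ext ((algebraMap F E).injective hab)
  exact IsIntegralClosure.isTorsionFree (Algebra.adjoin K {t}) E

variable (E) in
theorem flat_integralClosure (ht : Transcendental K t) :
    Module.Flat (Algebra.adjoin K {t}) (integralClosure (Algebra.adjoin K {t}) E) := by
  haveI := isDedekindDomain_adjoin ht
  haveI := isTorsionFree_integralClosure (K := K) E t
  infer_instance

end IntegralClosure

/-! ### places of `F` over `t = 0` and primes of `B_F` over `(t)` -/

section Places

variable [CharZero K] {t : F}

/-- the place attached to a prime of `B_F` over `(t)`. -/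
theorem exists_place_of_primesOver (ht : Transcendental K t) [FiniteDimensional K⟮t⟯ F]
    [IsDedekindDomain (integralClosure (Algebra.adjoin K {t}) F)]
    [IsFractionRing (integralClosure (Algebra.adjoin K {t}) F) F]
    (P : Ideal (integralClosure (Algebra.adjoin K {t}) F)) [hP : P.IsPrime]
    [hPp : P.LiesOver (Ideal.span {tA K t})] :
    ∃ hne : P ≠ ⊥, 0 < (Place.ofHeightOneSpectrum (K := K) (F := F)
      (⟨P, hP, hne⟩ : HeightOneSpectrum (integralClosure (Algebra.adjoin K {t}) F))).ord t := by
  have ht0 : t ≠ 0 := fun h => ht (h ▸ isAlgebraic_zero)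
  have htB : algebraMap (integralClosure (Algebra.adjoin K {t}) F) F
      (algebraMap (Algebra.adjoin K {t}) (integralClosure (Algebra.adjoin K {t}) F) (tA K t))
        = t := rfl
  have htB0 : algebraMap (Algebra.adjoin K {t}) (integralClosure (Algebra.adjoin K {t}) F)
      (tA K t) ≠ 0 := by
    intro h
    apply ht0
    rw [← htB, h, map_zero]
  have hmem : algebraMap (Algebra.adjoin K {t}) (integralClosure (Algebra.adjoin K {t}) F)
      (tA K t) ∈ P := by
    have h1 : tA K t ∈ P.under (Algebra.adjoin K {t}) := by
      rw [← hPp.over]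
      exact Ideal.subset_span rfl
    exact h1
  have hne : P ≠ ⊥ := by
    intro h
    rw [h] at hmem
    exact htB0 hmem
  refine ⟨hne, ?_⟩
  have := (Fermat.Agent.S24Bridge.mem_asIdeal_iff_ord_pos (K := K) (F := F)
    (⟨P, hP, hne⟩ : HeightOneSpectrum (integralClosure (Algebra.adjoin K {t}) F)) _ htB0).mp hmem
  rwa [htB] at this

theorem card_zeroPlaces_eq_card_primesOver (ht : Transcendental K t)
    [FiniteDimensional K⟮t⟯ F] :
    Nat.card {v : Place K F // 0 < v.ord t} =
      Nat.card ((Ideal.span {tA K t}).primesOver (integralClosure (Algebra.adjoin K {t}) F)) := by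
  haveI := isDedekindDomain_integralClosure F ht
  haveI := isFractionRing_integralClosure (K := K) F t
  set B := integralClosure (Algebra.adjoin K {t}) F
  have hmax := isMaximal_span_tA ht
  have ht0 : t ≠ 0 := fun h => ht (h ▸ isAlgebraic_zero)
  have htB : algebraMap B F (algebraMap (Algebra.adjoin K {t}) B (tA K t)) = t := rfl
  have htB0 : algebraMap (Algebra.adjoin K {t}) B (tA K t) ≠ 0 := by
    intro h
    apply ht0
    rw [← htB, h, map_zero]
  let f : (Ideal.span {tA K t}).primesOver B → {v : Place K F // 0 < v.ord t} := fun P =>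
    haveI := P.2.1
    haveI := P.2.2
    ⟨Place.ofHeightOneSpectrum (K := K) (F := F)
      (⟨P.1, P.2.1, (exists_place_of_primesOver ht P.1).choose⟩ : HeightOneSpectrum B),
      (exists_place_of_primesOver ht P.1).choose_spec⟩
  symm
  refine Nat.card_eq_of_bijective f ⟨?_, ?_⟩
  · intro P P' h
    have h1 := congrArg Subtype.val h
    have h2 := Fermat.Agent.S24Bridge.ofHeightOneSpectrum_injective h1
    apply Subtype.ext
    exact congrArg HeightOneSpectrum.asIdeal h2
  · rintro ⟨v, hv⟩
    have htv : t ∈ v.toValuationSubring := Fermat.Agent.S24Res.mem_of_ord_nonneg v hv.le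
    have hA := algebraMap_adjoin_mem v htv
    have hB : ∀ b : B, algebraMap B F b ∈ v.toValuationSubring := fun b =>
      Fermat.Agent.S24Bridge.mem_of_isIntegral v hA b.2
    obtain ⟨P, hP⟩ := Fermat.Agent.S24Bridge.exists_eq_ofHeightOneSpectrum v hB
    have hmem : algebraMap (Algebra.adjoin K {t}) B (tA K t) ∈ P.asIdeal := by
      rw [Fermat.Agent.S24Bridge.mem_asIdeal_iff_ord_pos (K := K) (F := F) P _ htB0, htB, ← hP]
      exact hv
    have hover : P.asIdeal.LiesOver (Ideal.span {tA K t}) := by
      constructor
      have hle : Ideal.span {tA K t} ≤ P.asIdeal.under (Algebra.adjoin K {t}) := by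
        rw [Ideal.span_le, Set.singleton_subset_iff]
        exact hmem
      have hne : P.asIdeal.under (Algebra.adjoin K {t}) ≠ ⊤ :=
        (Ideal.comap_isPrime _ P.asIdeal).ne_top
      exact hmax.eq_of_le hne hle
    refine ⟨⟨P.asIdeal, P.isPrime, hover⟩, ?_⟩
    apply Subtype.ext
    show Place.ofHeightOneSpectrum (K := K) (F := F) _ = v
    rw [hP]

end Places

end Fermat.Agent.S24Fib
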