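import Mathlib

set_option autoImplicit false

/-!
# S24, ALG-G: counting primes by orbits

* `card_eq_card_of_ker_eq` : two surjections with the same fibres have targets of the same size.
* `orbitQuot_mk_eq_iff` : equality in `D \ G / H` in terms of group elements.
* `card_primesOver_eq_card_orbits` (O1): in a tower `A → B → C` with `IsGaloisGroup G A C` and
  `IsGaloisGroup H B C`, the number of primes of `B` over `p` is the number of orbits of the
  decomposition group of a prime `Q` of `C` over `p` on `G ⧸ H`.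
* `card_orbits_eq_orbCount` (O2): transfer of the orbit count along a surjection `Γ → G`.
-/

open MulAction
open scoped Pointwise

namespace Fermat.Agent.S24Orb

/-- Two surjections from the same type with the same fibres have targets of the same size. -/
theorem card_eq_card_of_ker_eq {X Y Z : Type*} (f : X → Y) (g : X → Z)
    (hf : Function.Surjective f) (hg : Function.Surjective g)
    (h : ∀ a b, f a = f b ↔ g a = g b) : Nat.card Y = Nat.card Z := by
  have e1 : Quotient (Setoid.ker f) ≃ Y := Setoid.quotientKerEquivOfSurjective f hf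
  have e2 : Quotient (Setoid.ker g) ≃ Z := Setoid.quotientKerEquivOfSurjective g hg
  have hker : Setoid.ker f = Setoid.ker g := by
    ext a b
    exact h a b
  rw [← Nat.card_congr e1, ← Nat.card_congr e2, hker]

section GroupTheory

variable {G : Type*} [Group G]

/-- The class of `a` in `D \ G / H`. -/
def dcMk (D H : Subgroup G) (a : G) : orbitRel.Quotient D (G ⧸ H) :=
  Quotient.mk'' (a : G ⧸ H)

theorem dcMk_surjective (D H : Subgroup G) : Function.Surjective (dcMk D H) := by
  intro x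
  induction x using Quotient.inductionOn' with
  | h y =>
    induction y using QuotientGroup.induction_on with
    | H a => exact ⟨a, rfl⟩

theorem dcMk_eq_iff (D H : Subgroup G) (a b : G) :
    dcMk D H a = dcMk D H b ↔ ∃ d ∈ D, (d * b)⁻¹ * a ∈ H := by
  unfold dcMk
  rw [Quotient.eq'', orbitRel_apply, mem_orbit_iff]
  constructor
  · rintro ⟨d, hd⟩
    refine ⟨d, d.2, ?_⟩
    have : ((d : G) * b : G) = (a : G ⧸ H) := hd
    rw [← QuotientGroup.eq]
    exact this
  · rintro ⟨d, hd, hmem⟩
    refine ⟨⟨d, hd⟩, ?_⟩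
    show ((d * b : G) : G ⧸ H) = (a : G ⧸ H)
    rw [QuotientGroup.eq]
    exact hmem

/-- (O2) transfer of the orbit count along a surjection `π : Γ → G`; the right hand side is
`Fermat.Agent.S24.orbCount (H'.comap π) g` unfolded. -/
theorem card_orbits_eq_orbCount {Γ : Type*} [Group Γ] (π : Γ →* G)
    (hπ : Function.Surjective π) (H' D : Subgroup G) (g : Γ)
    (hD : D = Subgroup.zpowers (π g)) :
    Nat.card (orbitRel.Quotient D (G ⧸ H')) =
      Nat.card (orbitRel.Quotient (Subgroup.zpowers g) (Γ ⧸ H'.comap π)) := by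
  subst hD
  refine card_eq_card_of_ker_eq (fun γ : Γ => dcMk (Subgroup.zpowers (π g)) H' (π γ))
    (dcMk (Subgroup.zpowers g) (H'.comap π))
    ((dcMk_surjective _ _).comp hπ) (dcMk_surjective _ _) ?_
  intro a b
  simp only [dcMk_eq_iff]
  constructor
  · rintro ⟨d, ⟨k, rfl⟩, hmem⟩
    refine ⟨g ^ k, ⟨k, rfl⟩, ?_⟩
    rw [Subgroup.mem_comap]
    simpa using hmem
  · rintro ⟨d, ⟨k, rfl⟩, hmem⟩
    refine ⟨π g ^ k, ⟨k, rfl⟩, ?_⟩
    rw [Subgroup.mem_comap] at hmem
    simpa using hmem

end GroupTheory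

section Primes

variable {A B C G : Type*} [CommRing A] [CommRing B] [CommRing C] [Algebra A B] [Algebra B C]
    [Algebra A C] [IsScalarTower A B C] [FaithfulSMul B C]
    [Group G] [Finite G] [MulSemiringAction G C]
    [IsGaloisGroup G A C] (H : Subgroup G) [IsGaloisGroup H B C]

/-- The prime of `B` below `γ⁻¹ • Q`. -/
def belowPrime (p : Ideal A) (Q : Ideal C) [Q.IsPrime] [Q.LiesOver p] (γ : G) :
    p.primesOver B :=
  ⟨(γ⁻¹ • Q).under B, inferInstance, inferInstance⟩


theorem belowPrime_surjective (H : Subgroup G) [IsGaloisGroup H B C]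
    (p : Ideal A) (Q : Ideal C) [Q.IsPrime] [Q.LiesOver p] :
    Function.Surjective (belowPrime (B := B) (G := G) p Q) := by
  rintro ⟨P, hP, hPp⟩
  have : Algebra.IsIntegral B C := Algebra.IsInvariant.isIntegral B C H
  obtain ⟨⟨Q', hQ', hQ'P⟩⟩ := (inferInstance : Nonempty (P.primesOver C))
  have : Q'.LiesOver p := Ideal.LiesOver.trans Q' P p
  obtain ⟨σ, hσ⟩ := Algebra.IsInvariant.exists_smul_of_under_eq A C G Q Q'
    ((Ideal.over_def Q p).symm.trans (Ideal.over_def Q' p))
  refine ⟨σ⁻¹, Subtype.ext ?_⟩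
  show ((σ⁻¹)⁻¹ • Q).under B = P
  rw [inv_inv, ← hσ]
  exact (Ideal.over_def Q' P).symm

omit [FaithfulSMul B C] in
theorem belowPrime_eq_iff (H : Subgroup G) [IsGaloisGroup H B C]
    (p : Ideal A) (Q : Ideal C) [Q.IsPrime] [Q.LiesOver p] (a b : G) :
    belowPrime (B := B) p Q a = belowPrime (B := B) p Q b ↔
      ∃ d ∈ stabilizer G Q, (d * b)⁻¹ * a ∈ H := by
  rw [Subtype.ext_iff]
  show (a⁻¹ • Q).under B = (b⁻¹ • Q).under B ↔ _
  constructor
  · intro h
    obtain ⟨τ, hτ⟩ := Algebra.IsInvariant.exists_smul_of_under_eq B C H (a⁻¹ • Q) (b⁻¹ • Q) h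
    have hτ' : (τ : G) • a⁻¹ • Q = b⁻¹ • Q := hτ.symm
    refine ⟨a * (τ : G)⁻¹ * b⁻¹, ?_, ?_⟩
    · rw [mem_stabilizer_iff, mul_smul, mul_smul, ← hτ', inv_smul_smul, smul_inv_smul]
    · have : (a * (τ : G)⁻¹ * b⁻¹ * b)⁻¹ * a = (τ : G) := by group
      rw [this]
      exact τ.2
  · rintro ⟨d, hd, hmem⟩
    rw [mem_stabilizer_iff] at hd
    have ha : a⁻¹ • Q = ((d * b)⁻¹ * a)⁻¹ • b⁻¹ • Q := by
      rw [← mul_smul]
      have : ((d * b)⁻¹ * a)⁻¹ * b⁻¹ = a⁻¹ * d := by group
      rw [this, mul_smul, hd]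
    rw [ha]
    exact Ideal.under_smul B (b⁻¹ • Q) (⟨(d * b)⁻¹ * a, hmem⟩ : H)⁻¹

/-- (O1) the number of primes of `B` over `p` is the number of orbits of the decomposition group
of `Q` on `G ⧸ H`. -/
theorem card_primesOver_eq_card_orbits (H : Subgroup G) [IsGaloisGroup H B C]
    (p : Ideal A) (Q : Ideal C) [Q.IsPrime] [Q.LiesOver p] :
    Nat.card (p.primesOver B) =
      Nat.card (orbitRel.Quotient (stabilizer G Q) (G ⧸ H)) := by
  refine card_eq_card_of_ker_eq (belowPrime (B := B) (G := G) p Q) (dcMk (stabilizer G Q) H)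
    (belowPrime_surjective H p Q) (dcMk_surjective _ _) ?_
  intro a b
  rw [belowPrime_eq_iff H, dcMk_eq_iff]

end Primes

end Fermat.Agent.S24Orb
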