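/-
S24, analytic half, piece AN-B (helper45): the `j`-function is surjective, and the order of
vanishing of `j - j(τ₀)` at `τ₀` is `1` if `j(τ₀) ∉ {0, 1728}`, is `2` at `τ₀ = i` and is `3` at `τ₀ = ρ`.

All declarations are in the namespace `Fermat.Agent.S24.JLocal`.  Main results:
* `jFun_surjective (c : ℂ) : ∃ τ : ℍ, jFun τ = c`
* `analyticOrderAt_jFun_sub (τ₀) (h0 : jFun τ₀ ≠ 0) (h1 : jFun τ₀ ≠ 1728) :
    analyticOrderAt (fun z : ℂ => jFun (ofComplex z) - jFun τ₀) τ₀ = 1`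
* `jFun_I : jFun I = 1728`, `analyticOrderAt_jFun_I : analyticOrderAt (fun z => jFun (ofComplex z) - 1728) I = 2`
* `jFun_rho : jFun ρ = 0`, `analyticOrderAt_jFun_rho : analyticOrderAt (fun z => jFun (ofComplex z)) ρ = 3`
* `S_smul_I' : S • I = I`, `ST_smul_rho : (S * T) • ρ = ρ`
* `mdiff_jH : MDiff jH` (with `jFun_eq_jH : jFun τ = jH τ := rfl`), `D_jH_mul_discriminant`.
-/
import Mathlib
import Fermat.Agent.S20.LevelOne
import Fermat.Agent.S24.ModularDefs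

set_option autoImplicit false

noncomputable section

namespace Fermat.Agent.S24.JLocal

open UpperHalfPlane ModularForm EisensteinSeries Filter Derivative
open scoped MatrixGroups ModularForm Manifold Derivative Topology

local notation "Δ" => ModularForm.discriminant

/-- `jFun` as a plain function on the upper half plane. -/
def jH : ℍ → ℂ := fun τ => E₄ τ ^ 3 / Δ τ

theorem jFun_eq_jH (τ : ℍ) : jFun τ = jH τ := rfl

theorem jFun_apply (τ : ℍ) : jFun τ = E₄ τ ^ 3 / Δ τ := rfl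

theorem jFun_mul_discriminant (τ : ℍ) : jFun τ * Δ τ = E₄ τ ^ 3 := by
  rw [jFun_apply, div_mul_cancel₀ _ (discriminant_ne_zero τ)]

theorem jFun_eq_zero_iff (τ : ℍ) : jFun τ = 0 ↔ E₄ τ = 0 := by
  rw [jFun_apply, div_eq_zero_iff]
  simp [discriminant_ne_zero τ]

theorem jFun_sub_eq (τ : ℍ) : jFun τ - 1728 = E₆ τ ^ 2 / Δ τ := by
  rw [jFun_apply, eq_div_iff (discriminant_ne_zero τ), sub_mul,
    div_mul_cancel₀ _ (discriminant_ne_zero τ)]
  have := discriminant_eq_E₄_cube_sub_E₆_sq τ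
  linear_combination (-1728 : ℂ) * this

theorem jFun_eq_1728_iff (τ : ℍ) : jFun τ = 1728 ↔ E₆ τ = 0 := by
  rw [← sub_eq_zero, jFun_sub_eq, div_eq_zero_iff]
  simp [discriminant_ne_zero τ]

/-- a holomorphic function on the upper half plane is analytic (as a function on `ℂ`) at every
point of the upper half plane. -/
theorem analyticAt_comp_ofComplex {F : ℍ → ℂ} (hF : MDiff F) (τ : ℍ) :
    AnalyticAt ℂ (F ∘ ofComplex) (τ : ℂ) := by
  have h := UpperHalfPlane.mdifferentiable_iff.mp hF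
  exact (h.analyticOnNhd isOpen_upperHalfPlaneSet) τ τ.im_pos

theorem mdiff_E₄ : MDiff (⇑E₄ : ℍ → ℂ) := E₄.holo'
theorem mdiff_E₆ : MDiff (⇑E₆ : ℍ → ℂ) := E₆.holo'
theorem mdiff_discriminant : MDiff (Δ : ℍ → ℂ) := CuspForm.discriminant.holo'

theorem mdiff_jH : MDiff jH :=
  (mdiff_E₄.pow 3).div mdiff_discriminant discriminant_ne_zero

/-! ### The derivative of `j` -/

/-- `D j · Δ = - E₄² E₆`. -/
theorem D_jH_mul_discriminant (τ : ℍ) : D jH τ * Δ τ = - (E₄ τ ^ 2 * E₆ τ) := by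
  have h1 : jH * Δ = (⇑E₄ : ℍ → ℂ) ^ 3 := by
    funext z
    exact jFun_mul_discriminant z
  have h2 : D (jH * Δ) τ = D ((⇑E₄ : ℍ → ℂ) ^ 3) τ := by rw [h1]
  rw [normalizedDerivOfComplex_mul _ _ mdiff_jH mdiff_discriminant,
    normalizedDerivOfComplex_pow _ _ mdiff_E₄] at h2
  simp only [Pi.add_apply, Pi.mul_apply, Pi.pow_apply, Fermat.Agent.S20.ramanujan_E₄,
    Fermat.Agent.S20.ramanujan_discriminant, Pi.smul_apply, Pi.sub_apply, smul_eq_mul] at h2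
  have h3 : jH τ * Δ τ = E₄ τ ^ 3 := jFun_mul_discriminant τ
  have h4 : ((3 : ℕ) : ℍ → ℂ) τ = 3 := rfl
  rw [h4] at h2
  norm_num at h2
  linear_combination h2 - E2 τ * h3

/-- `D j ≠ 0` where `E₄ ≠ 0` and `E₆ ≠ 0`. -/
theorem D_jH_ne_zero {τ : ℍ} (h4 : E₄ τ ≠ 0) (h6 : E₆ τ ≠ 0) : D jH τ ≠ 0 := by
  intro h
  have := D_jH_mul_discriminant τ
  rw [h, zero_mul, eq_comm, neg_eq_zero, mul_eq_zero] at this
  rcases this with h' | h'
  · exact h4 (pow_eq_zero_iff (two_ne_zero) |>.mp h')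
  · exact h6 h'

theorem deriv_ne_zero_of_D_ne_zero {F : ℍ → ℂ} {τ : ℍ} (h : D F τ ≠ 0) :
    deriv (F ∘ ofComplex) (τ : ℂ) ≠ 0 := by
  intro h'
  apply h
  rw [normalizedDerivOfComplex, h', mul_zero]

/-- generic points: the order of `j - j(τ₀)` at `τ₀` is `1`. -/
theorem analyticOrderAt_jFun_sub (τ₀ : ℍ) (h0 : jFun τ₀ ≠ 0) (h1 : jFun τ₀ ≠ 1728) :
    analyticOrderAt (fun z : ℂ => jFun (ofComplex z) - jFun τ₀) (τ₀ : ℂ) = 1 := by
  have h4 : E₄ τ₀ ≠ 0 := fun h => h0 ((jFun_eq_zero_iff τ₀).mpr h)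
  have h6 : E₆ τ₀ ≠ 0 := fun h => h1 ((jFun_eq_1728_iff τ₀).mpr h)
  have hd := deriv_ne_zero_of_D_ne_zero (D_jH_ne_zero h4 h6)
  have ha := analyticAt_comp_ofComplex mdiff_jH τ₀
  have := ha.analyticOrderAt_sub_eq_one_of_deriv_ne_zero hd
  simp only [Function.comp_apply, ofComplex_apply] at this
  exact this


/-! ### The elliptic points -/

theorem analyticAt_E₄ (τ : ℍ) : AnalyticAt ℂ ((⇑E₄ : ℍ → ℂ) ∘ ofComplex) (τ : ℂ) :=
  analyticAt_comp_ofComplex mdiff_E₄ τ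

theorem analyticAt_E₆ (τ : ℍ) : AnalyticAt ℂ ((⇑E₆ : ℍ → ℂ) ∘ ofComplex) (τ : ℂ) :=
  analyticAt_comp_ofComplex mdiff_E₆ τ

theorem analyticAt_discriminant (τ : ℍ) : AnalyticAt ℂ ((Δ : ℍ → ℂ) ∘ ofComplex) (τ : ℂ) :=
  analyticAt_comp_ofComplex mdiff_discriminant τ

theorem analyticOrderAt_inv_discriminant (τ : ℍ) :
    analyticOrderAt (((Δ : ℍ → ℂ) ∘ ofComplex)⁻¹) (τ : ℂ) = 0 := by
  have hne : ((Δ : ℍ → ℂ) ∘ ofComplex) (τ : ℂ) ≠ 0 := by
    simp only [Function.comp_apply, ofComplex_apply]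
    exact discriminant_ne_zero τ
  rw [((analyticAt_discriminant τ).inv hne).analyticOrderAt_eq_zero]
  simpa using hne

/-- If `E₆ τ₀ = 0` (i.e. `j τ₀ = 1728`), the order of `j - 1728` at `τ₀` is `2`. -/
theorem analyticOrderAt_jFun_sub_of_E₆ (τ₀ : ℍ) (h : E₆ τ₀ = 0) :
    analyticOrderAt (fun z : ℂ => jFun (ofComplex z) - 1728) (τ₀ : ℂ) = 2 := by
  have hfun : (fun z : ℂ => jFun (ofComplex z) - 1728) =
      ((⇑E₆ : ℍ → ℂ) ∘ ofComplex) ^ 2 * (((Δ : ℍ → ℂ) ∘ ofComplex)⁻¹) := by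
    funext z
    rw [jFun_sub_eq]
    simp [div_eq_mul_inv]
  have hne : ((Δ : ℍ → ℂ) ∘ ofComplex) (τ₀ : ℂ) ≠ 0 := by
    simp only [Function.comp_apply, ofComplex_apply]
    exact discriminant_ne_zero τ₀
  have h1 : analyticOrderAt ((⇑E₆ : ℍ → ℂ) ∘ ofComplex) (τ₀ : ℂ) = 1 :=
    (analyticAt_E₆ τ₀).analyticOrderAt_eq_one_of_zero_deriv_ne_zero
      (by simpa using h) (Fermat.Agent.S20.deriv_E₆_ne_zero h)
  rw [hfun, analyticOrderAt_mul ((analyticAt_E₆ τ₀).pow 2) ((analyticAt_discriminant τ₀).inv hne),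
    analyticOrderAt_pow (analyticAt_E₆ τ₀), h1, analyticOrderAt_inv_discriminant]
  rfl

/-- If `E₄ τ₀ = 0` (i.e. `j τ₀ = 0`), the order of `j` at `τ₀` is `3`. -/
theorem analyticOrderAt_jFun_of_E₄ (τ₀ : ℍ) (h : E₄ τ₀ = 0) :
    analyticOrderAt (fun z : ℂ => jFun (ofComplex z)) (τ₀ : ℂ) = 3 := by
  have hfun : (fun z : ℂ => jFun (ofComplex z)) =
      ((⇑E₄ : ℍ → ℂ) ∘ ofComplex) ^ 3 * (((Δ : ℍ → ℂ) ∘ ofComplex)⁻¹) := by
    funext z
    rw [jFun_apply]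
    simp [div_eq_mul_inv]
  have hne : ((Δ : ℍ → ℂ) ∘ ofComplex) (τ₀ : ℂ) ≠ 0 := by
    simp only [Function.comp_apply, ofComplex_apply]
    exact discriminant_ne_zero τ₀
  have h1 : analyticOrderAt ((⇑E₄ : ℍ → ℂ) ∘ ofComplex) (τ₀ : ℂ) = 1 :=
    (analyticAt_E₄ τ₀).analyticOrderAt_eq_one_of_zero_deriv_ne_zero
      (by simpa using h) (Fermat.Agent.S20.deriv_E₄_ne_zero h)
  rw [hfun, analyticOrderAt_mul ((analyticAt_E₄ τ₀).pow 3) ((analyticAt_discriminant τ₀).inv hne),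
    analyticOrderAt_pow (analyticAt_E₄ τ₀), h1, analyticOrderAt_inv_discriminant]
  rfl

theorem jFun_I : jFun UpperHalfPlane.I = 1728 :=
  (jFun_eq_1728_iff _).mpr Fermat.Agent.S20.E₆_I

theorem jFun_ellRho : jFun Fermat.Agent.S20.ellRho = 0 :=
  (jFun_eq_zero_iff _).mpr Fermat.Agent.S20.E₄_ellRho

theorem ellRho_eq_rho : Fermat.Agent.S20.ellRho = UpperHalfPlane.ρ := rfl

theorem jFun_rho : jFun UpperHalfPlane.ρ = 0 := jFun_ellRho

/-- the order of `j - 1728` at `i` is `2`. -/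
theorem analyticOrderAt_jFun_I :
    analyticOrderAt (fun z : ℂ => jFun (ofComplex z) - 1728) ((UpperHalfPlane.I : ℍ) : ℂ) = 2 :=
  analyticOrderAt_jFun_sub_of_E₆ _ Fermat.Agent.S20.E₆_I

/-- the order of `j` at `ρ` is `3`. -/
theorem analyticOrderAt_jFun_rho :
    analyticOrderAt (fun z : ℂ => jFun (ofComplex z)) ((UpperHalfPlane.ρ : ℍ) : ℂ) = 3 :=
  analyticOrderAt_jFun_of_E₄ _ Fermat.Agent.S20.E₄_ellRho

theorem S_smul_I' : ModularGroup.S • UpperHalfPlane.I = UpperHalfPlane.I :=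
  Fermat.Agent.S20.S_smul_I

theorem ST_smul_rho : (ModularGroup.S * ModularGroup.T) • UpperHalfPlane.ρ = UpperHalfPlane.ρ :=
  Fermat.Agent.S20.ST_smul_ellRho


/-! ### Surjectivity of `j` -/

/-- A level one form of weight `12` which tends to `1` at `i∞` has a zero. -/
theorem exists_zero_of_isMF_twelve {G : ℍ → ℂ} (hG : Fermat.Agent.S20.IsMF 1 12 G)
    (hlim : Tendsto G atImInfty (𝓝 1)) : ∃ τ : ℍ, G τ = 0 := by
  by_contra hcon
  push Not at hcon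
  have hslash : ∀ γ : SL(2, ℤ), (1 / G) ∣[(0 : ℤ) - 12] γ = 1 / G := by
    intro γ
    rw [div_slash_SL2 0 12 γ 1 G, hG.slash_one γ]
    congr 1
    exact (Fermat.Agent.S20.IsMF.const (N := 1) (1 : ℂ)).slash_one γ
  have hinv : Fermat.Agent.S20.IsMF 1 ((0 : ℤ) - 12) (1 / G) :=
    { holo := by
        have h1 : MDiff (fun _ : ℍ => (1 : ℂ)) := mdifferentiable_const
        exact h1.div hG.holo hcon
      slash := fun γ _ => hslash γ
      bdd := by
        intro γ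
        rw [hslash γ]
        have h1 : Tendsto (1 / G) atImInfty (𝓝 (1 / 1)) := by
          have := (tendsto_const_nhds (x := (1 : ℂ)) (f := atImInfty)).div hlim one_ne_zero
          exact this
        exact h1.isBigO_one ℝ }
  have h0 := hinv.eq_zero_of_neg (by norm_num)
  have := congrFun h0 UpperHalfPlane.I
  simp only [Pi.div_apply, Pi.one_apply, Pi.zero_apply, one_div, inv_eq_zero] at this
  exact hcon _ this

/-- AN-B: the `j`-function takes every value. -/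
theorem jFun_surjective (c : ℂ) : ∃ τ : ℍ, jFun τ = c := by
  have hG : Fermat.Agent.S20.IsMF 1 12 ((⇑E₄ : ℍ → ℂ) ^ 3 - c • (Δ : ℍ → ℂ)) := by
    have h4 := (Fermat.Agent.S20.isMF_E₄).pow_levelOne 3
    exact (h4.cast (by norm_num)).sub (Fermat.Agent.S20.isMF_discriminant.smul c)
  have hlim : Tendsto ((⇑E₄ : ℍ → ℂ) ^ 3 - c • (Δ : ℍ → ℂ)) atImInfty (𝓝 1) := by
    have h4 := (Fermat.Agent.S20.tendsto_E₄_atImInfty).pow 3
    have hΔ : Tendsto (Δ : ℍ → ℂ) atImInfty (𝓝 0) := discriminant_isZeroAtImInfty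
    have := h4.sub (hΔ.const_mul c)
    simp only [mul_zero, sub_zero, one_pow] at this
    exact this
  obtain ⟨τ, hτ⟩ := exists_zero_of_isMF_twelve hG hlim
  refine ⟨τ, ?_⟩
  rw [jFun_apply, div_eq_iff (discriminant_ne_zero τ)]
  simp only [Pi.sub_apply, Pi.pow_apply, Pi.smul_apply, smul_eq_mul] at hτ
  linear_combination hτ

end Fermat.Agent.S24.JLocal
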