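/-
S24, AN-V (finite places), helper26: the order of vanishing at a point `τ₀` of the upper half plane
as a valuation of `LL M = Frac (AL M)`.
-/
import Mathlib
import Fermat.Agent.S24.Field

set_option autoImplicit false

noncomputable section

namespace Fermat.Agent.S24

open UpperHalfPlane
open scoped MatrixGroups Manifold Topology

/-- The order of vanishing of `f` at `τ₀`. -/
def ordAt (τ₀ : ℍ) (f : Fun) : ℕ∞ :=
  analyticOrderAt (fun z : ℂ => f (ofComplex z)) (τ₀ : ℂ)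

/-- `k ↦ exp (-k)`, `⊤ ↦ 0`. -/
def expNeg (k : ℕ∞) : WithZero (Multiplicative ℤ) :=
  ENat.recTopCoe 0 (fun n : ℕ => WithZero.exp (-(n : ℤ))) k

@[simp] theorem expNeg_top : expNeg ⊤ = 0 := rfl

@[simp] theorem expNeg_coe (n : ℕ) : expNeg (n : ℕ∞) = WithZero.exp (-(n : ℤ)) := rfl

@[simp] theorem expNeg_zero : expNeg 0 = 1 := by
  have : expNeg ((0 : ℕ) : ℕ∞) = 1 := by rw [expNeg_coe]; simp
  simpa using this

theorem expNeg_eq_zero_iff {k : ℕ∞} : expNeg k = 0 ↔ k = ⊤ := by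
  induction k using ENat.recTopCoe with
  | top => simp
  | coe n => simp

theorem expNeg_add (a b : ℕ∞) : expNeg (a + b) = expNeg a * expNeg b := by
  induction a using ENat.recTopCoe with
  | top => simp
  | coe m =>
    induction b using ENat.recTopCoe with
    | top => simp
    | coe n =>
      rw [← Nat.cast_add, expNeg_coe, expNeg_coe, expNeg_coe, ← WithZero.exp_add]
      congr 1
      push_cast
      ring

theorem expNeg_anti {a b : ℕ∞} (h : a ≤ b) : expNeg b ≤ expNeg a := by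
  induction b using ENat.recTopCoe with
  | top => simp
  | coe n =>
    induction a using ENat.recTopCoe with
    | top => simp at h
    | coe m =>
      rw [expNeg_coe, expNeg_coe, WithZero.exp_le_exp]
      have : m ≤ n := by exact_mod_cast h
      omega

theorem expNeg_le_max_of_min_le {a b c : ℕ∞} (h : min a b ≤ c) :
    expNeg c ≤ max (expNeg a) (expNeg b) := by
  rcases min_le_iff.mp h with h | h
  · exact le_max_of_le_left (expNeg_anti h)
  · exact le_max_of_le_right (expNeg_anti h)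

theorem ordAt_zero (τ₀ : ℍ) : ordAt τ₀ 0 = ⊤ := analyticOrderAt_zero_fun τ₀

theorem ordAt_algebraMap (τ₀ : ℍ) {a : Kbar} (ha : a ≠ 0) :
    ordAt τ₀ (algebraMap Kbar Fun a) = 0 := by
  have h : AnalyticAt ℂ (fun z : ℂ => (algebraMap Kbar Fun a) (ofComplex z)) (τ₀ : ℂ) :=
    (isHol_algebraMap a).analyticAt τ₀
  rw [ordAt, h.analyticOrderAt_eq_zero]
  simpa using ha

theorem ordAt_one (τ₀ : ℍ) : ordAt τ₀ 1 = 0 := by
  have := ordAt_algebraMap τ₀ (one_ne_zero : (1 : Kbar) ≠ 0)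
  rwa [map_one] at this

theorem IsHol.ordAt_mul {f g : Fun} (hf : IsHol f) (hg : IsHol g) (τ₀ : ℍ) :
    ordAt τ₀ (f * g) = ordAt τ₀ f + ordAt τ₀ g :=
  hf.analyticOrderAt_mul hg τ₀

theorem min_ordAt_le_add (f g : Fun) (τ₀ : ℍ) :
    min (ordAt τ₀ f) (ordAt τ₀ g) ≤ ordAt τ₀ (f + g) :=
  le_analyticOrderAt_add

theorem IsHol.ordAt_eq_top_iff {f : Fun} (hf : IsHol f) (τ₀ : ℍ) : ordAt τ₀ f = ⊤ ↔ f = 0 :=
  hf.analyticOrderAt_eq_top_iff τ₀

/-- The Möbius transformation `τ ↦ γ • τ` as a holomorphic function. -/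
theorem isHol_coe_sl_smul (γ : SL(2, ℤ)) : IsHol (fun τ : ℍ => ((γ • τ : ℍ) : ℂ)) := by
  have h : MDifferentiable 𝓘(ℂ) 𝓘(ℂ) (((↑) : ℍ → ℂ) ∘ fun τ : ℍ => γ • τ) :=
    MDifferentiable.comp mdifferentiable_coe (mdifferentiable_sl_smul γ)
  exact h

theorem IsHol.ordAt_le_ordAt_smul {f : Fun} (hf : IsHol f) (γ : SL(2, ℤ)) {τ₀ : ℍ}
    (hγ : γ • τ₀ = τ₀) : ordAt τ₀ f ≤ ordAt τ₀ (γ • f) := by
  have hγ' : γ⁻¹ • τ₀ = τ₀ := by
    conv_lhs => rw [← hγ]
    rw [inv_smul_smul]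
  set m : ℂ → ℂ := fun z => ((γ⁻¹ • ofComplex z : ℍ) : ℂ) with hm
  have hm0 : m (τ₀ : ℂ) = (τ₀ : ℂ) := by
    simp only [hm, ofComplex_apply, hγ']
  have hma : AnalyticAt ℂ m (τ₀ : ℂ) := (isHol_coe_sl_smul γ⁻¹).analyticAt τ₀
  have hcomp : (fun z : ℂ => (γ • f) (ofComplex z)) = (fun z : ℂ => f (ofComplex z)) ∘ m := by
    funext z
    simp only [Function.comp_apply, hm, ofComplex_apply, Fun.sl_smul_apply]
  have hfa : AnalyticAt ℂ (fun z : ℂ => f (ofComplex z)) (m (τ₀ : ℂ)) := by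
    rw [hm0]; exact hf.analyticAt τ₀
  have key := hfa.analyticOrderAt_comp hma
  rw [hm0] at key
  have hk : 1 ≤ analyticOrderAt (fun z => m z - (τ₀ : ℂ)) (τ₀ : ℂ) := by
    rw [Order.one_le_iff_ne_zero]
    have ha : AnalyticAt ℂ (fun z => m z - (τ₀ : ℂ)) (τ₀ : ℂ) := hma.sub analyticAt_const
    rw [ha.analyticOrderAt_ne_zero, hm0, sub_self]
  rw [ordAt, ordAt, hcomp, key]
  exact le_mul_of_one_le_right zero_le hk

theorem IsHol.ordAt_smul {f : Fun} (hf : IsHol f) (γ : SL(2, ℤ)) {τ₀ : ℍ}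
    (hγ : γ • τ₀ = τ₀) : ordAt τ₀ (γ • f) = ordAt τ₀ f := by
  have hγ' : γ⁻¹ • τ₀ = τ₀ := by
    conv_lhs => rw [← hγ]
    rw [inv_smul_smul]
  refine le_antisymm ?_ (hf.ordAt_le_ordAt_smul γ hγ)
  have := (hf.sl_smul γ).ordAt_le_ordAt_smul γ⁻¹ hγ'
  rwa [inv_smul_smul] at this

/-- The valuation `exp (- ord_{τ₀})` of `AL M`. -/
def valAL (M : ℕ) (τ₀ : ℍ) : Valuation (AL M) (WithZero (Multiplicative ℤ)) where
  toFun f := expNeg (ordAt τ₀ (f : Fun))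
  map_zero' := by
    show expNeg (ordAt τ₀ (0 : Fun)) = 0
    rw [ordAt_zero, expNeg_top]
  map_one' := by
    show expNeg (ordAt τ₀ (1 : Fun)) = 1
    rw [ordAt_one, expNeg_zero]
  map_mul' f g := by
    show expNeg (ordAt τ₀ ((f : Fun) * (g : Fun))) = _
    rw [(isHol_of_mem_AL f.2).ordAt_mul (isHol_of_mem_AL g.2), expNeg_add]
  map_add_le_max' f g := by
    show expNeg (ordAt τ₀ ((f : Fun) + (g : Fun))) ≤ _
    exact expNeg_le_max_of_min_le (min_ordAt_le_add _ _ τ₀)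

theorem valAL_apply (M : ℕ) (τ₀ : ℍ) (f : AL M) :
    valAL M τ₀ f = expNeg (ordAt τ₀ (f : Fun)) := rfl

theorem valAL_eq_zero_iff (M : ℕ) (τ₀ : ℍ) (f : AL M) : valAL M τ₀ f = 0 ↔ f = 0 := by
  rw [valAL_apply, expNeg_eq_zero_iff, (isHol_of_mem_AL f.2).ordAt_eq_top_iff]
  exact ⟨fun h => Subtype.ext h, fun h => congrArg Subtype.val h⟩

theorem valAL_smul (M : ℕ) {τ₀ : ℍ} (γ : SL(2, ℤ)) (hγ : γ • τ₀ = τ₀) (f : AL M) :
    valAL M τ₀ (γ • f) = valAL M τ₀ f := by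
  rw [valAL_apply, valAL_apply, AL.coe_smul, (isHol_of_mem_AL f.2).ordAt_smul γ hγ]

theorem nonZeroDivisors_le_valAL_supp (M : ℕ) (τ₀ : ℍ) :
    nonZeroDivisors (AL M) ≤ (valAL M τ₀).supp.primeCompl := by
  intro f hf hmem
  rw [SetLike.mem_coe, Valuation.mem_supp_iff, valAL_eq_zero_iff] at hmem
  exact nonZeroDivisors.ne_zero hf hmem

/-- The valuation `exp (- ord_{τ₀})` of `LL M`. -/
def valLL (M : ℕ) (τ₀ : ℍ) : Valuation (LL M) (WithZero (Multiplicative ℤ)) :=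
  (valAL M τ₀).extendToLocalization (nonZeroDivisors_le_valAL_supp M τ₀) (LL M)

@[simp] theorem valLL_algebraMap (M : ℕ) (τ₀ : ℍ) (f : AL M) :
    valLL M τ₀ (algebraMap (AL M) (LL M) f) = valAL M τ₀ f :=
  Valuation.extendToLocalization_apply_map_apply _ _ _ f

theorem valLL_smul (M : ℕ) {τ₀ : ℍ} (γ : SL(2, ℤ)) (hγ : γ • τ₀ = τ₀) (x : LL M) :
    valLL M τ₀ (γ • x) = valLL M τ₀ x := by
  obtain ⟨a, b, hb, rfl⟩ := IsFractionRing.div_surjective (A := AL M) x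
  rw [smul_div₀', LL.smul_algebraMap, LL.smul_algebraMap, map_div₀, map_div₀,
    valLL_algebraMap, valLL_algebraMap, valLL_algebraMap, valLL_algebraMap,
    valAL_smul M γ hγ, valAL_smul M γ hγ]

theorem valLL_algebraMap_Kbar (M : ℕ) (τ₀ : ℍ) {a : Kbar} (ha : a ≠ 0) :
    valLL M τ₀ (algebraMap Kbar (LL M) a) = 1 := by
  rw [IsScalarTower.algebraMap_apply Kbar (AL M) (LL M), valLL_algebraMap, valAL_apply]
  show expNeg (ordAt τ₀ (algebraMap Kbar Fun a)) = 1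
  rw [ordAt_algebraMap τ₀ ha, expNeg_zero]

/-- Order of vanishing at `τ₀` as a valuation of `LL M` (AN-V, finite places). -/
theorem exists_valuation_at_aux (M : ℕ) (τ₀ : ℍ) :
    ∃ w : Valuation (LL M) (WithZero (Multiplicative ℤ)),
      (∀ a : Kbar, a ≠ 0 → w (algebraMap Kbar (LL M) a) = 1) ∧
      (∀ (f : AL M) (k : ℕ),
        analyticOrderAt (fun z : ℂ => (f : Fun) (ofComplex z)) (τ₀ : ℂ) = (k : ℕ∞) →
        w (algebraMap (AL M) (LL M) f) = WithZero.exp (-(k : ℤ))) ∧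
      (∀ γ : SL(2, ℤ), γ • τ₀ = τ₀ → ∀ x : LL M, w (γ • x) = w x) := by
  refine ⟨valLL M τ₀, fun a ha => valLL_algebraMap_Kbar M τ₀ ha, fun f k hk => ?_,
    fun γ hγ x => valLL_smul M γ hγ x⟩
  rw [valLL_algebraMap, valAL_apply, ordAt, hk, expNeg_coe]

end Fermat.Agent.S24
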