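/-
S24, local data above the finite points `j = c` of the `j`-line (helper26).

For every `c : Kbar` a valuation of `LL M` (the order of vanishing at a point `τ₀` with
`j(τ₀) = c`), the order `s` of `j - c` at `τ₀` and a generator `g` of the stabiliser of `τ₀`.
-/
import Mathlib
import Fermat.Agent.S24.Val
import Fermat.Agent.S24.JLocal
import Fermat.Agent.S24.Periods

set_option autoImplicit false

noncomputable section

namespace Fermat.Agent.S24

open UpperHalfPlane
open scoped MatrixGroups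

/-- The underlying function of `j - c`. -/
theorem coe_jAL_sub_algebraMap (M : ℕ) (c : Kbar) (τ : ℍ) :
    ((jAL M - algebraMap Kbar (AL M) c : AL M) : Fun) τ = jFun τ - iota c := rfl

theorem jLL_sub_algebraMap (M : ℕ) (c : Kbar) :
    jLL M - algebraMap Kbar (LL M) c =
      algebraMap (AL M) (LL M) (jAL M - algebraMap Kbar (AL M) c) := by
  rw [map_sub, ← IsScalarTower.algebraMap_apply Kbar (AL M) (LL M)]
  rfl

/-- The valuation of `j - c` at `τ₀` from the analytic order. -/
theorem valLL_jLL_sub (M : ℕ) (τ₀ : ℍ) (c : Kbar) (k : ℕ)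
    (h : analyticOrderAt (fun z : ℂ => jFun (ofComplex z) - iota c) (τ₀ : ℂ) = (k : ℕ∞)) :
    valLL M τ₀ (jLL M - algebraMap Kbar (LL M) c) = WithZero.exp (-(k : ℤ)) := by
  rw [jLL_sub_algebraMap, valLL_algebraMap, valAL_apply]
  have h' : ordAt τ₀ ((jAL M - algebraMap Kbar (AL M) c : AL M) : Fun) = (k : ℕ∞) := h
  rw [h', expNeg_coe]

theorem iota_ofNat_1728 : iota (1728 : Kbar) = (1728 : ℂ) := map_ofNat iota 1728

theorem exists_local_datum (M : ℕ) [NeZero M] (hM : 2 ≤ M) (c : Kbar) :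
    ∃ (w : Valuation (LL M) (WithZero (Multiplicative ℤ))) (s : ℕ) (g : SL(2, ℤ)),
      (∀ a : Kbar, a ≠ 0 → w (algebraMap Kbar (LL M) a) = 1) ∧ 0 < s ∧
      w (jLL M - algebraMap Kbar (LL M) c) = WithZero.exp (-(s : ℤ)) ∧
      (∀ x : LL M, w (g • x) = w x) ∧
      (∀ k : ℤ, (∀ x : LL M, (g ^ k) • x = x) ↔ (s : ℤ) ∣ k) ∧
      (c = 1728 → g = ModularGroup.S) ∧ (c = 0 → g = ModularGroup.S * ModularGroup.T) ∧
      (c ≠ 0 → c ≠ 1728 → s = 1) := by
  have h1728 : (1728 : Kbar) ≠ 0 := by norm_num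
  by_cases hc1 : c = 1728
  · -- the elliptic point `i`
    subst hc1
    refine ⟨valLL M UpperHalfPlane.I, 2, ModularGroup.S,
      fun a ha => valLL_algebraMap_Kbar M _ ha, by norm_num, ?_,
      fun x => valLL_smul M _ JLocal.S_smul_I' x, ?_, fun _ => rfl,
      fun h => absurd h h1728, fun _ h => absurd rfl h⟩
    · refine valLL_jLL_sub M _ _ 2 ?_
      rw [iota_ofNat_1728]
      exact JLocal.analyticOrderAt_jFun_I
    · intro k
      rw [S_zpow_smul_eq_iff M hM k]
      norm_num
  by_cases hc0 : c = 0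
  · -- the elliptic point `ρ`
    subst hc0
    refine ⟨valLL M UpperHalfPlane.ρ, 3, ModularGroup.S * ModularGroup.T,
      fun a ha => valLL_algebraMap_Kbar M _ ha, by norm_num, ?_,
      fun x => valLL_smul M _ JLocal.ST_smul_rho x, ?_, fun h => absurd h hc1,
      fun _ => rfl, fun h _ => absurd rfl h⟩
    · refine valLL_jLL_sub M _ _ 3 ?_
      simp only [map_zero, sub_zero]
      exact JLocal.analyticOrderAt_jFun_rho
    · intro k
      rw [ST_zpow_smul_eq_iff M hM k]
      norm_num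
  · -- a generic point
    obtain ⟨τ₀, hτ₀⟩ := JLocal.jFun_surjective (iota c)
    have h0 : jFun τ₀ ≠ 0 := by
      rw [hτ₀]
      exact (map_ne_zero iota).mpr hc0
    have h1 : jFun τ₀ ≠ 1728 := by
      rw [hτ₀, ← iota_ofNat_1728]
      exact fun h => hc1 (iota.injective h)
    refine ⟨valLL M τ₀, 1, 1, fun a ha => valLL_algebraMap_Kbar M _ ha, by norm_num, ?_,
      fun x => by rw [one_smul], ?_, fun h => absurd h hc1, fun h => absurd h hc0,
      fun _ _ => rfl⟩
    · refine valLL_jLL_sub M _ _ 1 ?_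
      rw [← hτ₀]
      exact_mod_cast JLocal.analyticOrderAt_jFun_sub τ₀ h0 h1
    · intro k
      simp

end Fermat.Agent.S24
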