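/-
S24 final assembly (helper84): the genus of `modularFunctionFieldBar N` from the Galois datum
`LL (2N) ⊇ F ⊇ Kbar(j)`, the local data, the algebra glue and the combinatorial count.
All inputs that live in other files enter as hypotheses; `S24.lean` feeds them.
-/
import Mathlib
import Fermat.Prelude.Def_ModularCurve_ArithmeticGalois
import Fermat.Prelude.Def_ModularCurve_GenusNumerics
import Fermat.Prelude.Def_AlgebraicCurve_CanonicalDivisor
import Fermat.Agent.S24.Interface
import Fermat.Agent.S24.Comb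
import Fermat.Agent.S24.Field
import Fermat.Agent.S24.Glue
import Fermat.Agent.S24.GlobalDatum
import Fermat.Agent.S24.LocalDatum
import Fermat.Agent.S24.InvariantsFinal
import Fermat.Agent.S24.ValInf
import Fermat.Agent.S24.Periods
import Fermat.Agent.S24.EmbF

set_option autoImplicit false

open KaehlerDifferential UpperHalfPlane

namespace Fermat.Agent.S24

open scoped MatrixGroups
open AlgebraicCurve

/-- The arithmetic at the very end: `(2g - 2 + 2).toNat / 2 = g`. -/
theorem toNat_div_two_of_eq (d : ℤ) (g : ℕ) (h : d = 2 * (g : ℤ) - 2) :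
    (d + 2).toNat / 2 = g := by
  subst h
  have : (2 * (g : ℤ) - 2 + 2).toNat = 2 * g := by omega
  rw [this]
  omega

/-- The algebra glue, stated for an embedding `φ : F →ₐ[K] L` instead of an `Algebra F L`
instance. -/
theorem degree_canonical_of_hom
    {K F L Γ : Type*} [Field K] [IsAlgClosed K] [CharZero K]
    [Field F] [Algebra K F] [Field L] [Algebra K L]
    [Group Γ] [MulSemiringAction Γ L] [SMulCommClass Γ K L]
    (φ : F →ₐ[K] L) (j : F) (jL : L) (hφj : φ j = jL)
    (htr : Transcendental K jL)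
    (hfin : ∃ Γ' : Subgroup Γ, Γ'.FiniteIndex ∧ ∀ g ∈ Γ', ∀ x : L, g • x = x)
    (hj : ∀ g : Γ, g • jL = jL)
    (hfix : ∀ x : L, (∀ g : Γ, g • x = x) → x ∈ IntermediateField.adjoin K {jL})
    (H : Subgroup Γ)
    (hH : ∀ g : Γ, g ∈ H ↔ ∀ x : F, g • φ x = φ x)
    (w : K → Valuation L (WithZero (Multiplicative ℤ))) (s : K → ℕ) (g : K → Γ)
    (hwK : ∀ c (a : K), a ≠ 0 → w c (algebraMap K L a) = 1)
    (hs : ∀ c, 0 < s c)
    (hw : ∀ c, w c (jL - algebraMap K L c) = WithZero.exp (-(s c : ℤ)))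
    (hg : ∀ c x, w c (g c • x) = w c x)
    (hgs : ∀ c (k : ℤ), (∀ x : L, (g c ^ k) • x = x) ↔ (s c : ℤ) ∣ k)
    (S : Finset K) (hS : ∀ c, c ∉ S → s c = 1)
    (winf : Valuation L (WithZero (Multiplicative ℤ))) (sinf : ℕ) (ginf : Γ)
    (hwinfK : ∀ a : K, a ≠ 0 → winf (algebraMap K L a) = 1)
    (hsinf : 0 < sinf)
    (hwinf : winf jL = WithZero.exp (sinf : ℤ))
    (hginf : ∀ x, winf (ginf • x) = winf x)
    (hgsinf : ∀ k : ℤ, (∀ x : L, (ginf ^ k) • x = x) ↔ (sinf : ℤ) ∣ k)
    (ω : Ω[F⁄K]) (hω : ω ≠ 0) (Dv : Divisor K F)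
    (hDv : ∀ v : Place K F, Dv v = v.ordDifferential ω) :
    Divisor.degree Dv =
      ∑ c ∈ S, ((H.index : ℤ) - orbCount H (g c)) - H.index - orbCount H ginf := by
  letI : Algebra F L := φ.toRingHom.toAlgebra
  haveI : IsScalarTower K F L := IsScalarTower.of_algebraMap_eq (fun a => (φ.commutes a).symm)
  have hmap : ∀ x : F, algebraMap F L x = φ x := fun _ => rfl
  have hjtr : Transcendental K j := by
    intro h
    apply htr
    rw [← hφj]
    exact IsAlgebraic.algHom φ h
  exact Fermat.Agent.S24Glue.degree_canonical_of_galois_datum' (K := K) (F := F) (L := L) (Γ := Γ) j hjtr hfin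
    (by rw [hmap, hφj]; exact hj) (by rw [hmap, hφj]; exact hfix) H hH w s g hwK hs
    (fun c => by
      rw [map_sub, hmap, hφj, ← IsScalarTower.algebraMap_apply]
      exact hw c)
    hg hgs S hS winf sinf ginf hwinfK hsinf (by rw [hmap, hφj]; exact hwinf) hginf hgsinf
    ω hω Dv hDv

set_option synthInstance.maxHeartbeats 400000 in
set_option maxHeartbeats 2000000 in
/-- Final assembly, with every external input as a hypothesis. -/
theorem genus_eq_of_inputs (N : ℕ) [NeZero N]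
    [AlgebraicCurve.HasCanonicalDivisor (K := Kbar)
      (F := ↥(ModularCurve.modularFunctionFieldBar N))]
    -- the embedding of the Prelude's field
    (jB : ↥(ModularCurve.modularFunctionFieldBar N))
    (hemb : ∃ φ : ↥(ModularCurve.modularFunctionFieldBar N) →ₐ[Kbar] LL (2 * N),
      φ jB = jLL (2 * N) ∧
      ∀ γ : SL(2, ℤ), γ ∈ CongruenceSubgroup.Gamma0 N ↔ ∀ x, γ • φ x = φ x)
    -- the global datum
    (htr : Transcendental Kbar (jLL (2 * N)))
    (hfin : ∃ Γ' : Subgroup SL(2, ℤ), Γ'.FiniteIndex ∧ ∀ g ∈ Γ', ∀ x : LL (2 * N), g • x = x)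
    (hj : ∀ g : SL(2, ℤ), g • jLL (2 * N) = jLL (2 * N))
    (hfix : ∀ x : LL (2 * N), (∀ g : SL(2, ℤ), g • x = x) →
      x ∈ IntermediateField.adjoin Kbar {jLL (2 * N)})
    -- the local data
    (hloc : ∀ c : Kbar, ∃ (w : Valuation (LL (2 * N)) (WithZero (Multiplicative ℤ))) (s : ℕ)
      (g : SL(2, ℤ)),
      (∀ a : Kbar, a ≠ 0 → w (algebraMap Kbar (LL (2 * N)) a) = 1) ∧ 0 < s ∧
      w (jLL (2 * N) - algebraMap Kbar (LL (2 * N)) c) = WithZero.exp (-(s : ℤ)) ∧
      (∀ x : LL (2 * N), w (g • x) = w x) ∧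
      (∀ k : ℤ, (∀ x : LL (2 * N), (g ^ k) • x = x) ↔ (s : ℤ) ∣ k) ∧
      (c = 1728 → g = ModularGroup.S) ∧ (c = 0 → g = ModularGroup.S * ModularGroup.T) ∧
      (c ≠ 0 → c ≠ 1728 → s = 1))
    (hinf : ∃ w : Valuation (LL (2 * N)) (WithZero (Multiplicative ℤ)),
      (∀ a : Kbar, a ≠ 0 → w (algebraMap Kbar (LL (2 * N)) a) = 1) ∧
      w (jLL (2 * N)) = WithZero.exp ((2 * N : ℕ) : ℤ) ∧
      (∀ x : LL (2 * N), w (ModularGroup.T • x) = w x))
    (hTk : ∀ k : ℤ, (∀ x : LL (2 * N), (ModularGroup.T ^ k) • x = x) ↔ ((2 * N : ℕ) : ℤ) ∣ k)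
    (hω : ∃ ω : Ω[↥(ModularCurve.modularFunctionFieldBar N)⁄Kbar], ω ≠ 0) :
    (AlgebraicCurve.genus Kbar ↥(ModularCurve.modularFunctionFieldBar N) : ℚ)
      = ModularCurve.genusFormula N := by
  classical
  obtain ⟨φ, hφj, hφH⟩ := hemb
  choose w s g hwK hs hw hg hgs hg1728 hg0 hs1 using hloc
  obtain ⟨winf, hwinfK, hwinf, hginf⟩ := hinf
  have h2N : 0 < 2 * N := Nat.mul_pos two_pos (Nat.pos_of_ne_zero (NeZero.ne N))
  have key := degree_canonical_of_hom (K := Kbar) (L := LL (2 * N)) (Γ := SL(2, ℤ))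
    φ jB (jLL (2 * N)) hφj htr hfin hj hfix
    (CongruenceSubgroup.Gamma0 N) (fun γ => hφH γ) w s g hwK hs hw hg hgs {0, 1728}
    (fun c hc => by
      simp only [Finset.mem_insert, Finset.mem_singleton, not_or] at hc
      exact hs1 c hc.1 hc.2)
    winf (2 * N) ModularGroup.T hwinfK h2N hwinf hginf hTk
  have hdeg := key hω.choose hω.choose_spec (canonicalDivisorOf hω.choose_spec)
    (canonicalDivisorOf_apply hω.choose_spec)
  have h01728 : (0 : Kbar) ≠ 1728 := by norm_num
  rw [Finset.sum_pair h01728, hg0 0 rfl, hg1728 1728 rfl] at hdeg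
  obtain ⟨gn, hgn, hcomb⟩ := comb_degree N
  have hd2 : Divisor.degree (canonicalDivisorOf hω.choose_spec) = 2 * (gn : ℤ) - 2 := by
    rw [hdeg, ← hcomb]
    ring
  unfold AlgebraicCurve.genus
  rw [dif_pos hω, toNat_div_two_of_eq _ gn hd2, hgn]

/-- The valuation at the cusp `∞` (wiring of `exists_valuation_inf_of`). -/
theorem exists_valuation_inf' (M : ℕ) [NeZero M] :
    ∃ w : Valuation (LL M) (WithZero (Multiplicative ℤ)),
      (∀ a : Kbar, a ≠ 0 → w (algebraMap Kbar (LL M) a) = 1) ∧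
      w (jLL M) = WithZero.exp (M : ℤ) ∧
      (∀ x : LL M, w (ModularGroup.T • x) = w x) := by
  refine exists_valuation_inf_of M (fun f hf => exists_hasExp_of_mem_gens M hf) ?_
  have h := hasExp_jd M 1 (one_dvd M)
  have h1 : jd 1 = jFun := by
    ext τ
    show jFun (scale 1 τ) = jFun τ
    congr 1
    ext
    simp
  rw [h1, ModularCurve.qExpand_congr (mul_one M)] at h
  exact h

/-- **S24**: the genus of the function field of `X₀(N)` over `ℚ̄` is the classical formula. -/
theorem genus_modularFunctionFieldBar (N : ℕ) [NeZero N]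
    [AlgebraicCurve.HasCanonicalDivisor (K := Kbar)
      (F := ↥(ModularCurve.modularFunctionFieldBar N))] :
    (AlgebraicCurve.genus Kbar ↥(ModularCurve.modularFunctionFieldBar N) : ℚ)
      = ModularCurve.genusFormula N := by
  haveI : NeZero (2 * N) := ⟨Nat.mul_ne_zero two_ne_zero (NeZero.ne N)⟩
  have h2 : 2 ≤ 2 * N := by
    have := Nat.pos_of_ne_zero (NeZero.ne N)
    omega
  exact genus_eq_of_inputs N (jBar N) (exists_embF N) (transcendental_jLL (2 * N))
    (exists_finiteIndex_fixing (2 * N)) (smul_jLL (2 * N))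
    (Fermat.Agent.S24Inv.mem_adjoin_jLL_of_invariant' (2 * N))
    (exists_local_datum (2 * N) h2) (exists_valuation_inf' (2 * N))
    (T_zpow_smul_eq_iff (2 * N)) (exists_nonzero_differential N)

end Fermat.Agent.S24
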