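import Mathlib
import Fermat.Agent.S24.GaloisDatum
import Fermat.Agent.S24.Orbits

set_option autoImplicit false
set_option linter.unusedSectionVars false
set_option linter.style.haveILetI false

/-!
# S24, ALG-G: the rings of integers attached to a Galois datum

`A = K[t] = Algebra.adjoin K {t}`, `B_F = integralClosure A F`, `B_L = integralClosure A L`,
`G = imageGroup Γ L`, `H' = fixF Γ L F`.  We prove `IsGaloisGroup G A B_L`,
`IsGaloisGroup H' B_F B_L` and count the primes of `B_F` over a prime `p` of `A` by orbits.
-/

open IntermediateField MulAction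
open scoped IntermediateField.algebraAdjoinAdjoin Pointwise

namespace Fermat.Agent.S24GalR

open Fermat.Agent.S24Gal

variable {Γ L : Type*} [Group Γ] [Field L] [MulSemiringAction Γ L]
variable {K F : Type*} [Field K] [Field F] [Algebra K F] [Algebra K L] [Algebra F L]
    [IsScalarTower K F L] [SMulCommClass Γ K L]

/-- (I0) the image group commutes with `A = K[t]`. -/
theorem smulCommClass_adjoin (t : F)
    (ht : ∀ g : Γ, g • algebraMap F L t = algebraMap F L t) :
    SMulCommClass (imageGroup Γ L) (Algebra.adjoin K {t}) L := by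
  refine ⟨fun σ a x => ?_⟩
  obtain ⟨g, hg⟩ := imageGroup_smul_eq σ
  have ha : (a : F) ∈ K⟮t⟯ := algebra_adjoin_le_adjoin K {t} a.2
  have h1 := smul_algebraMap_adjoin (K := K) t ht g ⟨(a : F), ha⟩
  have h2 : algebraMap K⟮t⟯ L ⟨(a : F), ha⟩ = algebraMap F L (a : F) := rfl
  rw [h2] at h1
  have h3 : ∀ y : L, a • y = algebraMap F L (a : F) * y := fun y => by
    rw [Subalgebra.smul_def, Algebra.smul_def]
  rw [h3, h3, hg, hg, smul_mul', h1]

/-- `A = K[t]` is a principal ideal ring. -/
theorem isPrincipalIdealRing_adjoin (t : F) (httr : Transcendental K t) :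
    IsPrincipalIdealRing (Algebra.adjoin K {t}) :=
  IsPrincipalIdealRing.of_surjective
    (Polynomial.algEquivOfTranscendental K t httr).toRingEquiv.toRingHom
    (Polynomial.algEquivOfTranscendental K t httr).surjective

/-- `L` is a fraction field of `B_L`. -/
theorem isFractionRing_integralClosure_L (t : F)
    (hfin : ∃ Γ' : Subgroup Γ, Γ'.FiniteIndex ∧ ∀ g ∈ Γ', ∀ x : L, g • x = x)
    (ht : ∀ g : Γ, g • algebraMap F L t = algebraMap F L t)
    (hfix : ∀ x : L, (∀ g : Γ, g • x = x) →
      x ∈ IntermediateField.adjoin K {algebraMap F L t}) :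
    IsFractionRing (integralClosure (Algebra.adjoin K {t}) L) L := by
  have : Finite (imageGroup Γ L) := finite_imageGroup hfin
  have hG : IsGaloisGroup (imageGroup Γ L) K⟮t⟯ L := isGaloisGroup_imageGroup t ht hfix
  have : FiniteDimensional K⟮t⟯ L := hG.finiteDimensional
  exact integralClosure.isFractionRing_of_finite_extension K⟮t⟯ L

/-- `F` is a fraction field of `B_F`. -/
theorem isFractionRing_integralClosure_F (t : F)
    (hfin : ∃ Γ' : Subgroup Γ, Γ'.FiniteIndex ∧ ∀ g ∈ Γ', ∀ x : L, g • x = x)
    (ht : ∀ g : Γ, g • algebraMap F L t = algebraMap F L t)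
    (hfix : ∀ x : L, (∀ g : Γ, g • x = x) →
      x ∈ IntermediateField.adjoin K {algebraMap F L t}) :
    IsFractionRing (integralClosure (Algebra.adjoin K {t}) F) F := by
  have : Finite (imageGroup Γ L) := finite_imageGroup hfin
  have hG : IsGaloisGroup (imageGroup Γ L) K⟮t⟯ L := isGaloisGroup_imageGroup t ht hfix
  have : FiniteDimensional K⟮t⟯ L := hG.finiteDimensional
  have : FiniteDimensional K⟮t⟯ F := FiniteDimensional.left K⟮t⟯ F L
  exact integralClosure.isFractionRing_of_finite_extension K⟮t⟯ F

/-- (I1) `G` is a Galois group for `B_L / A`. -/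
theorem isGaloisGroup_integralClosure (t : F) (httr : Transcendental K t)
    (hfin : ∃ Γ' : Subgroup Γ, Γ'.FiniteIndex ∧ ∀ g ∈ Γ', ∀ x : L, g • x = x)
    (ht : ∀ g : Γ, g • algebraMap F L t = algebraMap F L t)
    (hfix : ∀ x : L, (∀ g : Γ, g • x = x) →
      x ∈ IntermediateField.adjoin K {algebraMap F L t})
    [SMulCommClass (imageGroup Γ L) (Algebra.adjoin K {t}) L] :
    IsGaloisGroup (imageGroup Γ L) (Algebra.adjoin K {t})
      (integralClosure (Algebra.adjoin K {t}) L) := by
  have : Finite (imageGroup Γ L) := finite_imageGroup hfin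
  have hG : IsGaloisGroup (imageGroup Γ L) K⟮t⟯ L := isGaloisGroup_imageGroup t ht hfix
  have : IsFractionRing (integralClosure (Algebra.adjoin K {t}) L) L :=
    isFractionRing_integralClosure_L t hfin ht hfix
  have : IsPrincipalIdealRing (Algebra.adjoin K {t}) := isPrincipalIdealRing_adjoin t httr
  exact IsGaloisGroup.of_isFractionRing (imageGroup Γ L) (Algebra.adjoin K {t})
    (integralClosure (Algebra.adjoin K {t}) L) K⟮t⟯ L

/-- The algebra structure `B_F → B_L` induced by `F → L` (use with `letI`). -/
@[reducible] noncomputable def algebraIntegralClosure (t : F) :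
    Algebra (integralClosure (Algebra.adjoin K {t}) F)
      (integralClosure (Algebra.adjoin K {t}) L) :=
  ((IsScalarTower.toAlgHom (Algebra.adjoin K {t}) F L).mapIntegralClosure).toRingHom.toAlgebra

theorem algebraIntegralClosure_coe (t : F) (b : integralClosure (Algebra.adjoin K {t}) F) :
    letI := algebraIntegralClosure (K := K) (L := L) t
    ((algebraMap (integralClosure (Algebra.adjoin K {t}) F)
      (integralClosure (Algebra.adjoin K {t}) L) b : integralClosure (Algebra.adjoin K {t}) L) : L)
      = algebraMap F L (b : F) := rfl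

theorem isScalarTower_A_BF_BL (t : F) :
    letI := algebraIntegralClosure (K := K) (L := L) t
    IsScalarTower (Algebra.adjoin K {t}) (integralClosure (Algebra.adjoin K {t}) F)
      (integralClosure (Algebra.adjoin K {t}) L) := by
  letI := algebraIntegralClosure (K := K) (L := L) t
  refine IsScalarTower.of_algebraMap_eq fun a => Subtype.ext ?_
  rfl

theorem isScalarTower_BF_BL_L (t : F) :
    letI := algebraIntegralClosure (K := K) (L := L) t
    IsScalarTower (integralClosure (Algebra.adjoin K {t}) F)
      (integralClosure (Algebra.adjoin K {t}) L) L := by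
  letI := algebraIntegralClosure (K := K) (L := L) t
  exact IsScalarTower.of_algebraMap_eq fun a => rfl

theorem faithfulSMul_BF_BL (t : F) :
    letI := algebraIntegralClosure (K := K) (L := L) t
    FaithfulSMul (integralClosure (Algebra.adjoin K {t}) F)
      (integralClosure (Algebra.adjoin K {t}) L) := by
  letI := algebraIntegralClosure (K := K) (L := L) t
  rw [faithfulSMul_iff_algebraMap_injective]
  intro a b hab
  have h := congrArg (fun x : integralClosure (Algebra.adjoin K {t}) L => (x : L)) hab
  simp only [algebraIntegralClosure_coe] at h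
  exact Subtype.ext ((algebraMap F L).injective h)

/-- (I2) `H' = fixF Γ L F` is a Galois group for `B_L / B_F`. -/
theorem isGaloisGroup_fixF_integralClosure (t : F) (httr : Transcendental K t)
    (hfin : ∃ Γ' : Subgroup Γ, Γ'.FiniteIndex ∧ ∀ g ∈ Γ', ∀ x : L, g • x = x)
    (ht : ∀ g : Γ, g • algebraMap F L t = algebraMap F L t)
    (hfix : ∀ x : L, (∀ g : Γ, g • x = x) →
      x ∈ IntermediateField.adjoin K {algebraMap F L t})
    [SMulCommClass (imageGroup Γ L) (Algebra.adjoin K {t}) L] :
    letI := algebraIntegralClosure (K := K) (L := L) t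
    IsGaloisGroup (fixF Γ L F) (integralClosure (Algebra.adjoin K {t}) F)
      (integralClosure (Algebra.adjoin K {t}) L) := by
  letI := algebraIntegralClosure (K := K) (L := L) t
  have : Finite (imageGroup Γ L) := finite_imageGroup hfin
  have hG : IsGaloisGroup (imageGroup Γ L) K⟮t⟯ L := isGaloisGroup_imageGroup t ht hfix
  have hGF : IsGaloisGroup (fixF Γ L F) F L := IsGaloisGroup.of_isScalarTower _ K⟮t⟯ L F
  have : FiniteDimensional K⟮t⟯ L := hG.finiteDimensional
  have : FiniteDimensional K⟮t⟯ F := FiniteDimensional.left K⟮t⟯ F L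
  have : IsFractionRing (integralClosure (Algebra.adjoin K {t}) L) L :=
    isFractionRing_integralClosure_L t hfin ht hfix
  have : IsFractionRing (integralClosure (Algebra.adjoin K {t}) F) F :=
    isFractionRing_integralClosure_F t hfin ht hfix
  have : IsPrincipalIdealRing (Algebra.adjoin K {t}) := isPrincipalIdealRing_adjoin t httr
  have : IsScalarTower (Algebra.adjoin K {t}) (integralClosure (Algebra.adjoin K {t}) F)
      (integralClosure (Algebra.adjoin K {t}) L) := isScalarTower_A_BF_BL t
  have : IsScalarTower (integralClosure (Algebra.adjoin K {t}) F)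
      (integralClosure (Algebra.adjoin K {t}) L) L := isScalarTower_BF_BL_L t
  have : IsIntegrallyClosed (integralClosure (Algebra.adjoin K {t}) F) :=
    integralClosure.isIntegrallyClosedOfFiniteExtension K⟮t⟯
  have : Algebra.IsIntegral (integralClosure (Algebra.adjoin K {t}) F)
      (integralClosure (Algebra.adjoin K {t}) L) :=
    Algebra.IsIntegral.tower_top (Algebra.adjoin K {t})
  exact IsGaloisGroup.of_isFractionRing (fixF Γ L F) (integralClosure (Algebra.adjoin K {t}) F)
    (integralClosure (Algebra.adjoin K {t}) L) F L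

set_option synthInstance.maxHeartbeats 400000 in
/-- The number of primes of `B_F` over `p` is the number of orbits of the decomposition group of
a prime `Q` of `B_L` over `p` on `G ⧸ H'`. -/
theorem card_primesOver_eq_card_orbits_stabilizer (t : F) (httr : Transcendental K t)
    (hfin : ∃ Γ' : Subgroup Γ, Γ'.FiniteIndex ∧ ∀ g ∈ Γ', ∀ x : L, g • x = x)
    (ht : ∀ g : Γ, g • algebraMap F L t = algebraMap F L t)
    (hfix : ∀ x : L, (∀ g : Γ, g • x = x) →
      x ∈ IntermediateField.adjoin K {algebraMap F L t})
    [SMulCommClass (imageGroup Γ L) (Algebra.adjoin K {t}) L]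
    (p : Ideal (Algebra.adjoin K {t})) (Q : Ideal (integralClosure (Algebra.adjoin K {t}) L))
    [Q.IsPrime] [Q.LiesOver p] :
    Nat.card (p.primesOver (integralClosure (Algebra.adjoin K {t}) F)) =
      Nat.card (orbitRel.Quotient (stabilizer (imageGroup Γ L) Q)
        (imageGroup Γ L ⧸ fixF Γ L F)) := by
  letI := algebraIntegralClosure (K := K) (L := L) t
  have : Finite (imageGroup Γ L) := finite_imageGroup hfin
  have : IsScalarTower (Algebra.adjoin K {t}) (integralClosure (Algebra.adjoin K {t}) F)
      (integralClosure (Algebra.adjoin K {t}) L) := isScalarTower_A_BF_BL t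
  have : FaithfulSMul (integralClosure (Algebra.adjoin K {t}) F)
      (integralClosure (Algebra.adjoin K {t}) L) := faithfulSMul_BF_BL t
  have : IsGaloisGroup (imageGroup Γ L) (Algebra.adjoin K {t})
      (integralClosure (Algebra.adjoin K {t}) L) := isGaloisGroup_integralClosure t httr hfin ht hfix
  have : IsGaloisGroup (fixF Γ L F) (integralClosure (Algebra.adjoin K {t}) F)
      (integralClosure (Algebra.adjoin K {t}) L) :=
    isGaloisGroup_fixF_integralClosure t httr hfin ht hfix
  exact Fermat.Agent.S24Orb.card_primesOver_eq_card_orbits (fixF Γ L F) p Q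

set_option synthInstance.maxHeartbeats 400000 in
/-- (G2, group side) if the decomposition group of `Q` is generated by the image of `g`, the
number of primes of `B_F` over `p` is `orbCount H g`. -/
theorem card_primesOver_eq_orbCount (t : F) (httr : Transcendental K t)
    (hfin : ∃ Γ' : Subgroup Γ, Γ'.FiniteIndex ∧ ∀ g ∈ Γ', ∀ x : L, g • x = x)
    (ht : ∀ g : Γ, g • algebraMap F L t = algebraMap F L t)
    (hfix : ∀ x : L, (∀ g : Γ, g • x = x) →
      x ∈ IntermediateField.adjoin K {algebraMap F L t})
    (H : Subgroup Γ)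
    (hH : ∀ g : Γ, g ∈ H ↔ ∀ x : F, g • algebraMap F L x = algebraMap F L x)
    [SMulCommClass (imageGroup Γ L) (Algebra.adjoin K {t}) L]
    (p : Ideal (Algebra.adjoin K {t})) (Q : Ideal (integralClosure (Algebra.adjoin K {t}) L))
    [Q.IsPrime] [Q.LiesOver p] (g : Γ)
    (hQ : stabilizer (imageGroup Γ L) Q = Subgroup.zpowers (toImage Γ L g)) :
    Nat.card (p.primesOver (integralClosure (Algebra.adjoin K {t}) F)) =
      Nat.card (orbitRel.Quotient (Subgroup.zpowers g) (Γ ⧸ H)) := by
  rw [card_primesOver_eq_card_orbits_stabilizer t httr hfin ht hfix p Q,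
    Fermat.Agent.S24Orb.card_orbits_eq_orbCount (toImage Γ L) toImage_surjective (fixF Γ L F)
      (stabilizer (imageGroup Γ L) Q) g hQ, comap_fixF H hH]

end Fermat.Agent.S24GalR
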